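import Fermat.Agent.S41.Degen.Cor

/-!
# S41, block L1: the pair of degeneracy maps `i^* = α^* + β^*`, `i_* = (α_*, β_*)`

On top of `Degen/Defs.lean` (`resA`, `resB`, `opW`) and `Degen/Cor.lean` (`corA`):

* `corB d A := corA ∘ W` (`β_*`), `corB_resB : β_* β^* = q + 1`, `corB_resA : β_* α^* = α_* β^*`,
  `corB_opW`, `corA_opW`;
* on `XMod`: `corBX`, `iUpper R A : X(N)² → X(Nq)` (`= α^* ⊕ β^*`),
  `iLower R A d : X(Nq) → X(N)²` (`= (α_*, β_*)`), `mem_ker_iLower_iff`,
  `opWX_mem_ker_iLower` (`ker i_*` is `W`-stable), and the matrix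
  **`iLower_iUpper`** `i_* i^* = [[q+1, T],[T, q+1]]` for any `T` with `α_* β^* = T`
  (`T = T_q` is `Degen/TqComp.lean`);
* generic `opX D R A : XMod M₂ R A →ₗ[R] XMod M₁ R A` for any coset datum between `Γ₀`'s.
-/

set_option autoImplicit false

noncomputable section

namespace Fermat.Agent.S41.Degen

open CongruenceSubgroup Matrix.SpecialLinearGroup Function
open Fermat.Agent.S29.Betti Fermat.Agent.S41.Degen.Cor Fermat.Agent.S41.Degen.CosetOp
open scoped MatrixGroups

variable {N q : ℕ} [Fact q.Prime]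

section Hom

variable (d : ALData N q) (A : Type*) [AddCommGroup A]

/-- `β_* := α_* ∘ W`. -/
def corB : (Additive (Gamma0 (N * q)) →+ A) →+ (Additive (Gamma0 N) →+ A) :=
  (corA d A).comp (opW A d)

theorem corB_apply (c : Additive (Gamma0 (N * q)) →+ A) :
    corB d A c = corA d A (opW A d c) := rfl

theorem corB_opW (c : Additive (Gamma0 (N * q)) →+ A) :
    corB d A (opW A d c) = corA d A c := by
  rw [corB_apply, opW_opW]

/-- `β_* β^* = q + 1`. -/
theorem corB_resB (c : Additive (Gamma0 N) →+ A) :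
    corB d A (resB N q A c) = (q + 1) • c := by
  rw [corB_apply, resB_eq d, opW_opW, corA_resA]

/-- `β_* α^* = α_* β^*`. -/
theorem corB_resA (c : Additive (Gamma0 N) →+ A) :
    corB d A (resA N q A c) = corA d A (resB N q A c) := by
  rw [corB_apply, ← resB_eq]

end Hom

section XModVersions

variable (R : Type*) [Semiring R] (A : Type*) [AddCommGroup A] [Module R A] (d : ALData N q)

/-- any coset operator between `Γ₀`'s, on `XMod`. -/
def opX {M₁ M₂ : ℕ} {P : Type*} [Fintype P] (D : Datum (iGL M₁) (iGL M₂) P) :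
    XMod M₂ R A →ₗ[R] XMod M₁ R A :=
  ((D.opL (iGL_injective _) A R).comp (XMod M₂ R A).subtype).codRestrict
    (XMod M₁ R A) fun u => isAdmChar_op D u.2

@[simp] theorem opX_coe {M₁ M₂ : ℕ} {P : Type*} [Fintype P] (D : Datum (iGL M₁) (iGL M₂) P)
    (u : XMod M₂ R A) :
    ((opX R A D u : XMod M₁ R A) : Additive (Gamma0 M₁) →+ A) =
      D.op (iGL_injective _) A u := rfl

/-- `β_*` on `XMod`. -/
def corBX : XMod (N * q) R A →ₗ[R] XMod N R A :=
  (corAX R A d).comp (opWX R A d)

@[simp] theorem corBX_coe (u : XMod (N * q) R A) :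
    ((corBX R A d u : XMod N R A) : Additive (Gamma0 N) →+ A) = corB d A u := rfl

theorem corBX_apply (u : XMod (N * q) R A) :
    corBX R A d u = corAX R A d (opWX R A d u) := rfl

theorem corBX_opWX (u : XMod (N * q) R A) :
    corBX R A d (opWX R A d u) = corAX R A d u := by
  rw [corBX_apply, opWX_opWX]

theorem corBX_resBX (u : XMod N R A) :
    corBX R A d (resBX N q R A u) = (q + 1) • u :=
  Subtype.ext (corB_resB d A u)

theorem corBX_resAX (u : XMod N R A) :
    corBX R A d (resAX N q R A u) = corAX R A d (resBX N q R A u) :=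
  Subtype.ext (corB_resA d A u)

variable (N q) in
/-- `i^* = α^* + β^* : X(N)² → X(Nq)`. -/
def iUpper : (XMod N R A × XMod N R A) →ₗ[R] XMod (N * q) R A :=
  (resAX N q R A).coprod (resBX N q R A)

@[simp] theorem iUpper_apply (x : XMod N R A × XMod N R A) :
    iUpper N q R A x = resAX N q R A x.1 + resBX N q R A x.2 := rfl

/-- `i_* = (α_*, β_*) : X(Nq) → X(N)²`. -/
def iLower : XMod (N * q) R A →ₗ[R] (XMod N R A × XMod N R A) :=
  (corAX R A d).prod (corBX R A d)

@[simp] theorem iLower_apply (u : XMod (N * q) R A) :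
    iLower R A d u = (corAX R A d u, corBX R A d u) := rfl

theorem mem_ker_iLower_iff (u : XMod (N * q) R A) :
    u ∈ LinearMap.ker (iLower R A d) ↔ corAX R A d u = 0 ∧ corBX R A d u = 0 := by
  rw [LinearMap.mem_ker, iLower_apply, Prod.mk_eq_zero]

/-- `ker i_*` is stable under `W`. -/
theorem opWX_mem_ker_iLower {u : XMod (N * q) R A} (hu : u ∈ LinearMap.ker (iLower R A d)) :
    opWX R A d u ∈ LinearMap.ker (iLower R A d) := by
  rw [mem_ker_iLower_iff] at hu ⊢
  rw [corBX_opWX]
  exact ⟨hu.2, hu.1⟩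

/-- **`i_* i^* = [[q+1, T],[T, q+1]]`** whenever `α_* β^* = T`. -/
theorem iLower_iUpper (T : XMod N R A →ₗ[R] XMod N R A)
    (hT : ∀ u : XMod N R A, corAX R A d (resBX N q R A u) = T u)
    (x : XMod N R A × XMod N R A) :
    iLower R A d (iUpper N q R A x) =
      ((q + 1) • x.1 + T x.2, T x.1 + (q + 1) • x.2) := by
  rw [iLower_apply, iUpper_apply, map_add, map_add, corAX_resAX, corBX_resBX, corBX_resAX, hT, hT]

end XModVersions

end Fermat.Agent.S41.Degen
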