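import Fermat.Agent.S41.Degen.TraceUWCor
import Fermat.Agent.S41.Betti.LatticeSpan

/-!
# S41, block L1: the cast `X_ℤ(M) → X_ℂ(M)` commutes with all degeneracy / coset operators

`LatticeSpan.castX M : XMod M ℤ ℤ →ₗ[ℤ] XMod M ℂ ℂ` (values cast to `ℂ`).

* `castX_opX` : `castX` commutes with every coset operator `opX _ _ D` (in particular `U_q`, `α_*`);
* `castX_resAX`, `castX_resBX`, `castX_opWX`, `castX_corAX`, `castX_corBX`;
* `castX_mem_ker_iLower` : `castX (ker i_*) ⊆ ker i_*`;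
* **`opX_opX_castX`** : for a `U_q`-datum `DU`, `U (U (castX y)) = castX y` for `y ∈ ker α_* ∩ ker α_* W`
  (the hypothesis `hU` of `Betti.NewLift.exists_complex_new_vector`).
-/

set_option autoImplicit false

noncomputable section

namespace Fermat.Agent.S41.Degen

open CongruenceSubgroup Matrix.SpecialLinearGroup ModularForm Function
open Fermat.Agent.S29.Betti Fermat.Agent.S41.Degen.Cor Fermat.Agent.S41.Degen.CosetOp
open Fermat.Agent.S41.Betti.LatticeSpan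
open scoped MatrixGroups

/-- `castX` commutes with every coset operator. -/
theorem castX_opX {M₁ M₂ : ℕ} [NeZero M₁] [NeZero M₂] {P : Type*} [Fintype P]
    (D : Datum (iGL M₁) (iGL M₂) P) (c : XMod M₂ ℤ ℤ) :
    castX M₁ (opX ℤ ℤ D c) = opX ℂ ℂ D (castX M₂ c) := by
  apply Subtype.ext
  rw [castX_coe, opX_coe, opX_coe, castX_coe]
  exact (Datum.op_comp_coeff D (iGL_injective M₂) ℤ (Int.castAddHom ℂ)
    (c : Additive (Gamma0 M₂) →+ ℤ)).symm

variable {N q : ℕ} [NeZero N] [NeZero (N * q)] [Fact q.Prime]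

theorem castX_resAX (c : XMod N ℤ ℤ) :
    castX (N * q) (resAX N q ℤ ℤ c) = resAX N q ℂ ℂ (castX N c) := rfl

theorem castX_resBX (c : XMod N ℤ ℤ) :
    castX (N * q) (resBX N q ℤ ℤ c) = resBX N q ℂ ℂ (castX N c) := rfl

theorem castX_opWX (d : ALData N q) (c : XMod (N * q) ℤ ℤ) :
    castX (N * q) (opWX ℤ ℤ d c) = opWX ℂ ℂ d (castX (N * q) c) := rfl

theorem castX_corAX (d : ALData N q) (c : XMod (N * q) ℤ ℤ) :
    castX N (corAX ℤ ℤ d c) = corAX ℂ ℂ d (castX (N * q) c) :=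
  castX_opX (corDatum d) c

theorem castX_corBX (d : ALData N q) (c : XMod (N * q) ℤ ℤ) :
    castX N (corBX ℤ ℤ d c) = corBX ℂ ℂ d (castX (N * q) c) := by
  rw [corBX_apply, corBX_apply, castX_corAX, castX_opWX]

/-- `castX` maps `ker i_*` into `ker i_*`. -/
theorem castX_mem_ker_iLower (d : ALData N q) {c : XMod (N * q) ℤ ℤ}
    (h1 : corAX ℤ ℤ d c = 0) (h2 : corAX ℤ ℤ d (opWX ℤ ℤ d c) = 0) :
    castX (N * q) c ∈ LinearMap.ker (iLower ℂ ℂ d) := by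
  rw [mem_ker_iLower_iff, corBX_apply, ← castX_opWX, ← castX_corAX, ← castX_corAX, h1, h2,
    map_zero]
  exact ⟨rfl, rfl⟩

/-- **`U_q² = 1` on `castX (ker i_*)`.** -/
theorem opX_opX_castX (d : ALData N q) (DU : Datum (iGL (N * q)) (iGL (N * q)) (ZMod q))
    (hU : ∀ j : ZMod q, DU.rep j = heckeMatrix q j.val) {c : XMod (N * q) ℤ ℤ}
    (h1 : corAX ℤ ℤ d c = 0) (h2 : corAX ℤ ℤ d (opWX ℤ ℤ d c) = 0) :
    opX ℂ ℂ DU (opX ℂ ℂ DU (castX (N * q) c)) = castX (N * q) c :=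
  opX_opX_eq d ℂ ℂ DU hU (castX_mem_ker_iLower d h1 h2)

/-- the integral version: `U_q² = 1` on `ker i_*` inside `X_ℤ(Nq)`. -/
theorem opX_opX_int (d : ALData N q) (DU : Datum (iGL (N * q)) (iGL (N * q)) (ZMod q))
    (hU : ∀ j : ZMod q, DU.rep j = heckeMatrix q j.val) {c : XMod (N * q) ℤ ℤ}
    (h1 : corAX ℤ ℤ d c = 0) (h2 : corAX ℤ ℤ d (opWX ℤ ℤ d c) = 0) :
    opX ℤ ℤ DU (opX ℤ ℤ DU c) = c :=
  opX_opX_eq d ℤ ℤ DU hU ((mem_ker_iLower_iff ℤ ℤ d c).mpr ⟨h1, h2⟩)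

end Fermat.Agent.S41.Degen
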