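import Fermat.Agent.S41.Degen.Cor

/-!
# S41, block L1 (BlockDegen), leaf D2: `α_* ∘ β^* = T_q`

For ANY coset datum `D : Datum (iGL N) (iGL (N*q)) P` (source `Γ₀(N)`, target `Γ₀(Nq)`) whose
representatives `k x` lie in `Γ₀(N)`, are pairwise inequivalent modulo `Γ₀(Nq)`, and are `q+1` in
number (i.e. a right transversal of `Γ₀(Nq)` in `Γ₀(N)`), the composite
`D.op ∘ resB : Hom(Γ₀(N), A) → Hom(Γ₀(N), A)` is the Betti Hecke operator `T_q` of S29
(`Betti.heckeHom`).

* `dConjDatum` : `β^*` (`resB`) as a `CosetOp.Datum` on `Unit` (`dConjDatum_op`);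
* `heckeRep_coset_unique` : the `q+1` Hecke cosets `Γ₀(N) · heckeRep q x` are distinct;
* `bottomClass` : the class `(c : d) ∈ ℙ¹(𝔽_q)` of the bottom row, `exists_hecke_of_bottom`;
* `op_resB_eq_heckeHom` : the theorem for an arbitrary transversal datum;
* `corA_resB`, `corAX_resBX` : **(I2)** for `Cor.corA` / `Cor.corAX`.
-/

set_option autoImplicit false

namespace Fermat.Agent.S41.Degen.TqComp

open CongruenceSubgroup Matrix.SpecialLinearGroup ModularForm
open ModularCurve.Period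
open P2MW.S_ModularForm_heckeT_slash_eq_self_of_mem_Gamma0.ModularForm.HeckeSlashInvariance
open Fermat.Agent.S29.Betti Fermat.Agent.S41.Degen Fermat.Agent.S41.Degen.CosetOp
open Fermat.Agent.S41.Degen.Cor
open scoped MatrixGroups OnePoint

noncomputable section

variable {N q : ℕ} [Fact q.Prime]

/-! ### `β^*` as a coset datum -/

theorem val_mapGL (g : SL(2, ℤ)) :
    ((mapGL ℝ g : GL (Fin 2) ℝ) : Matrix (Fin 2) (Fin 2) ℝ) =
      (g : Matrix (Fin 2) (Fin 2) ℤ).map (Int.castRingHom ℝ) := by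
  ext i j
  simp

theorem val_heckeDiag_eq_map : ((heckeDiagMatrix q : GL (Fin 2) ℝ) : Matrix (Fin 2) (Fin 2) ℝ) =
    (dMat q).map (Int.castRingHom ℝ) := by
  have hq0 : q ≠ 0 := (Fact.out : q.Prime).ne_zero
  rw [val_heckeDiagMatrix hq0]
  ext i j
  fin_cases i <;> fin_cases j <;> simp [dMat]

theorem heckeDiag_mul_mapGL (γ : Gamma0 (N * q)) :
    heckeDiagMatrix q * mapGL ℝ (γ : SL(2, ℤ)) =
      mapGL ℝ ((dConj N q γ : Gamma0 N) : SL(2, ℤ)) * heckeDiagMatrix q := by
  apply Units.ext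
  rw [Units.val_mul, Units.val_mul, val_mapGL, val_mapGL, val_heckeDiag_eq_map, ← Matrix.map_mul,
    ← Matrix.map_mul, dConj_spec]

/-- `β^*` as a coset datum (one representative `diag(q,1)`). -/
def dConjDatum (N q : ℕ) [Fact q.Prime] : Datum (iGL (N * q)) (iGL N) Unit where
  rep _ := heckeDiagMatrix q
  act _ x := x
  step γ _ := dConj N q γ
  rel γ _ := heckeDiag_mul_mapGL γ
  act_one _ := rfl
  act_mul _ _ _ := rfl

theorem dConjDatum_op (A : Type*) [AddCommGroup A] :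
    (dConjDatum N q).op (iGL_injective N) A = resB N q A := by
  ext c γ
  change (dConjDatum N q).op (iGL_injective N) A c (Additive.ofMul (Additive.toMul γ)) =
    resB N q A c (Additive.ofMul (Additive.toMul γ))
  rw [Datum.op_apply, resB_apply, Fintype.sum_unique]
  rfl

/-! ### The Hecke cosets are distinct -/

theorem heckeRep_coset_unique {x y : OnePoint (ZMod q)} {t : SL(2, ℤ)}
    (h : heckeRep q x = mapGL ℝ t * heckeRep q y) : x = y := by
  have hq : q.Prime := Fact.out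
  have hq0 : q ≠ 0 := hq.ne_zero
  have hv := congrArg (fun M : GL (Fin 2) ℝ => (M : Matrix (Fin 2) (Fin 2) ℝ)) h
  simp only [Units.val_mul, val_mapGL] at hv
  have hq1 : ¬ (q : ℤ) ∣ 1 := by
    intro hd
    have := Int.natCast_dvd_natCast.mp (by simpa using hd : ((q : ℕ) : ℤ) ∣ ((1 : ℕ) : ℤ))
    exact hq.one_lt.ne' (Nat.dvd_one.mp this)
  induction x using OnePoint.rec with
  | infty =>
    induction y using OnePoint.rec with
    | infty => rfl
    | coe j =>
      exfalso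
      rw [heckeRep_infty, heckeRep_coe, val_heckeDiagMatrix hq0, val_heckeMatrix hq0] at hv
      have h10 := congrFun (congrFun hv 1) 0
      have h11 := congrFun (congrFun hv 1) 1
      simp [Matrix.mul_apply, Fin.sum_univ_two, -ZMod.natCast_val] at h10 h11
      rw [← h10] at h11
      apply hq1
      refine ⟨t 1 1, ?_⟩
      have : ((1 : ℤ) : ℝ) = (((q : ℤ) * t 1 1 : ℤ) : ℝ) := by push_cast; linarith
      exact_mod_cast this
  | coe i =>
    induction y using OnePoint.rec with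
    | infty =>
      exfalso
      rw [heckeRep_infty, heckeRep_coe, val_heckeDiagMatrix hq0, val_heckeMatrix hq0] at hv
      have h00 := congrFun (congrFun hv 0) 0
      simp [Matrix.mul_apply, Fin.sum_univ_two, -ZMod.natCast_val] at h00
      apply hq1
      refine ⟨t 0 0, ?_⟩
      have : ((1 : ℤ) : ℝ) = (((q : ℤ) * t 0 0 : ℤ) : ℝ) := by push_cast; linarith
      exact_mod_cast this
    | coe j =>
      rw [heckeRep_coe, heckeRep_coe, val_heckeMatrix hq0, val_heckeMatrix hq0] at hv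
      have h00 := congrFun (congrFun hv 0) 0
      have h01 := congrFun (congrFun hv 0) 1
      simp [Matrix.mul_apply, Fin.sum_univ_two, -ZMod.natCast_val] at h00 h01
      have h2 : ((i.val : ℤ) : ℝ) = (((j.val : ℤ) + t 0 1 * q : ℤ) : ℝ) := by
        push_cast
        rw [h01, ← h00]
        ring
      have h3 : (i.val : ℤ) = (j.val : ℤ) + t 0 1 * q := by exact_mod_cast h2
      have h4 := congrArg (Int.cast : ℤ → ZMod q) h3
      push_cast at h4
      rw [ZMod.natCast_zmod_val, ZMod.natCast_zmod_val, ZMod.natCast_self, mul_zero,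
        add_zero] at h4
      rw [h4]

/-! ### The bottom row class -/

/-- the class `(c : d) ∈ ℙ¹(𝔽_q)` of the bottom row of `k`: `∞` if `q ∣ c`, else `d / c`. -/
def bottomClass (q : ℕ) [Fact q.Prime] (k : SL(2, ℤ)) : OnePoint (ZMod q) :=
  if (q : ℤ) ∣ k 1 0 then ∞
  else ((((k 1 1 : ℤ) : ZMod q) / ((k 1 0 : ℤ) : ZMod q) : ZMod q) : OnePoint (ZMod q))

theorem isCoprime_of_not_dvd (hqN : ¬ q ∣ N) : IsCoprime (q : ℤ) (N : ℤ) := by
  have hq : q.Prime := Fact.out
  exact Nat.isCoprime_iff_coprime.mpr ((Nat.Prime.coprime_iff_not_dvd hq).mpr hqN)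

/-- `diag(q,1) · k = g · heckeRep q (bottomClass k)` with `g ∈ Γ₀(N)`. -/
theorem exists_hecke_of_bottom (hqN : ¬ q ∣ N) (k : Gamma0 N) :
    ∃ g : Gamma0 N, heckeDiagMatrix q * mapGL ℝ (k : SL(2, ℤ)) =
      mapGL ℝ (g : SL(2, ℤ)) * heckeRep q (bottomClass q (k : SL(2, ℤ))) := by
  have hq : q.Prime := Fact.out
  have hq0 : q ≠ 0 := hq.ne_zero
  have hkN := dvd_of_mem_Gamma0 k
  by_cases hc : (q : ℤ) ∣ (k : SL(2, ℤ)) 1 0
  · obtain ⟨e, he⟩ := hc
    obtain ⟨g', hg', hmul⟩ := heckeDiagMatrix_mul_of_eq' hq0 (k : SL(2, ℤ)) e he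
    refine ⟨⟨g', mem_Gamma0_of_dvd ?_⟩, ?_⟩
    · rw [hg']
      rw [he] at hkN
      exact (isCoprime_of_not_dvd hqN).symm.dvd_of_dvd_mul_left hkN
    · rw [bottomClass, if_pos ⟨e, he⟩, heckeRep_infty]
      exact hmul
  · have hc0 : (((k : SL(2, ℤ)) 1 0 : ℤ) : ZMod q) ≠ 0 := by
      rwa [Ne, ZMod.intCast_zmod_eq_zero_iff_dvd]
    set j : ZMod q := (((k : SL(2, ℤ)) 1 1 : ℤ) : ZMod q) / (((k : SL(2, ℤ)) 1 0 : ℤ) : ZMod q)
      with hj
    obtain ⟨e, he⟩ : (q : ℤ) ∣ (k : SL(2, ℤ)) 1 1 - (k : SL(2, ℤ)) 1 0 * (j.val : ℤ) := by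
      rw [← ZMod.intCast_zmod_eq_zero_iff_dvd]
      push_cast
      rw [ZMod.natCast_zmod_val, hj, mul_div_cancel₀ _ hc0, sub_self]
    obtain ⟨g', hg', hmul⟩ := heckeDiagMatrix_mul_of_eq hq0 (k : SL(2, ℤ)) j.val e
      (by linear_combination he)
    refine ⟨⟨g', mem_Gamma0_of_dvd ?_⟩, ?_⟩
    · rw [hg']; exact hkN
    · rw [bottomClass, if_neg hc, heckeRep_coe]
      exact hmul

/-- equal bottom classes ⟹ same `Γ₀(Nq)`-coset. -/
theorem mul_inv_mem_of_bottomClass_eq (hqN : ¬ q ∣ N) (k k' : Gamma0 N)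
    (h : bottomClass q (k : SL(2, ℤ)) = bottomClass q (k' : SL(2, ℤ))) :
    (k : SL(2, ℤ)) * (k' : SL(2, ℤ))⁻¹ ∈ Gamma0 (N * q) := by
  have hkN := dvd_of_mem_Gamma0 k
  have hkN' := dvd_of_mem_Gamma0 k'
  apply mem_Gamma0_of_dvd
  rw [mul_inv_one_zero]
  push_cast
  apply IsCoprime.mul_dvd (isCoprime_of_not_dvd hqN).symm
  · exact dvd_sub (Dvd.dvd.mul_right hkN _) (Dvd.dvd.mul_left hkN' _)
  · unfold bottomClass at h
    by_cases hc : (q : ℤ) ∣ (k : SL(2, ℤ)) 1 0
    · by_cases hc' : (q : ℤ) ∣ (k' : SL(2, ℤ)) 1 0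
      · exact dvd_sub (Dvd.dvd.mul_right hc _) (Dvd.dvd.mul_left hc' _)
      · rw [if_pos hc, if_neg hc'] at h
        exact absurd h (OnePoint.infty_ne_coe _)
    · by_cases hc' : (q : ℤ) ∣ (k' : SL(2, ℤ)) 1 0
      · rw [if_neg hc, if_pos hc'] at h
        exact absurd h (OnePoint.coe_ne_infty _)
      · rw [if_neg hc, if_neg hc'] at h
        have h' := OnePoint.coe_injective h
        have hc0 : (((k : SL(2, ℤ)) 1 0 : ℤ) : ZMod q) ≠ 0 := by
          rwa [Ne, ZMod.intCast_zmod_eq_zero_iff_dvd]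
        have hc0' : (((k' : SL(2, ℤ)) 1 0 : ℤ) : ZMod q) ≠ 0 := by
          rwa [Ne, ZMod.intCast_zmod_eq_zero_iff_dvd]
        rw [← ZMod.intCast_zmod_eq_zero_iff_dvd]
        push_cast
        rw [div_eq_div_iff hc0 hc0'] at h'
        linear_combination -h'

/-! ### The theorem -/

/-- uniqueness of the target coset for `heckeDatum`. -/
theorem heckeDatum_unique (hqN : ¬ q ∣ N) (γ : Gamma0 N) (x' y' : OnePoint (ZMod q))
    (s : Gamma0 N)
    (h : (heckeDatum hqN).rep x' * iGL N γ = iGL N s * (heckeDatum hqN).rep y') :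
    y' = (heckeDatum hqN).act γ x' := by
  have h1 := (heckeDatum hqN).rel γ x'
  rw [h] at h1
  have h2 : (heckeDatum hqN).rep y' =
      iGL N (s⁻¹ * (heckeDatum hqN).step γ x') *
        (heckeDatum hqN).rep ((heckeDatum hqN).act γ x') := by
    rw [map_mul, map_inv, mul_assoc, ← h1, inv_mul_cancel_left]
  exact heckeRep_coset_unique h2

/-- **`α_* ∘ β^* = T_q`**: for any right transversal datum `D` of `Γ₀(Nq)` in `Γ₀(N)`. -/
theorem op_resB_eq_heckeHom (hqN : ¬ q ∣ N) {P : Type*} [Fintype P]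
    (D : Datum (iGL N) (iGL (N * q)) P) (k : P → Gamma0 N)
    (hk : ∀ x, D.rep x = iGL N (k x))
    (hinj : ∀ x y, ((k x : SL(2, ℤ)) * (k y : SL(2, ℤ))⁻¹) ∈ Gamma0 (N * q) → x = y)
    (hcard : Fintype.card P = q + 1) (A : Type*) [AddCommGroup A]
    (c : Additive (Gamma0 N) →+ A) :
    D.op (iGL_injective (N * q)) A (resB N q A c) = heckeHom hqN A c := by
  set E : Datum (iGL N) (iGL N) (Unit × P) :=
    D.comp (dConjDatum N q) (iGL_injective (N * q)) with hE
  have h1 : E.op (iGL_injective N) A c =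
      D.op (iGL_injective (N * q)) A ((dConjDatum N q).op (iGL_injective N) A c) :=
    Datum.op_comp D (dConjDatum N q) (iGL_injective (N * q)) (iGL_injective N) A c
  rw [dConjDatum_op] at h1
  rw [← h1, ← heckeDatum_op hqN A]
  choose g hg using fun x => exists_hecke_of_bottom hqN (k x)
  let φ : Unit × P → OnePoint (ZMod q) := fun z => bottomClass q ((k z.2 : Gamma0 N) : SL(2, ℤ))
  have hφinj : Function.Injective φ := by
    intro z z' hzz
    have := hinj z.2 z'.2 (mul_inv_mem_of_bottomClass_eq hqN _ _ hzz)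
    exact Prod.ext (Subsingleton.elim _ _) this
  have hφbij : Function.Bijective φ := by
    rw [Fintype.bijective_iff_injective_and_card]
    refine ⟨hφinj, ?_⟩
    rw [Fintype.card_prod, Fintype.card_unit, one_mul, hcard, card_onePoint_zmod]
  let e : Unit × P ≃ OnePoint (ZMod q) := Equiv.ofBijective φ hφbij
  have hrep : ∀ z, (heckeDatum hqN).rep (e z) = iGL N ((g z.2)⁻¹) * E.rep z := by
    intro z
    change heckeRep q (bottomClass q ((k z.2 : Gamma0 N) : SL(2, ℤ))) =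
      iGL N ((g z.2)⁻¹) * (heckeDiagMatrix q * D.rep z.2)
    rw [hk, iGL_apply, iGL_apply, hg, Subgroup.coe_inv, map_inv, inv_mul_cancel_left]
  have hact := Datum.act_eq_of_unique E (heckeDatum hqN) e (fun z => (g z.2)⁻¹) hrep
    (heckeDatum_unique hqN)
  have := Datum.op_eq_of_rep_eq E (heckeDatum hqN) (iGL_injective N) A e
    (fun z => (g z.2)⁻¹) hrep hact
  rw [this]

/-! ### (I2) for `Cor.corA` -/

theorem not_dvd_of_ALData (d : ALData N q) : ¬ q ∣ N :=
  (Nat.Prime.coprime_iff_not_dvd (Fact.out : q.Prime)).mp (coprime_of_ALData d)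

theorem corRep_inj (d : ALData N q) (x y : OnePoint (ZMod q))
    (h : corRep d x * (corRep d y)⁻¹ ∈ Gamma0 (N * q)) : x = y := by
  obtain ⟨z, -, hz⟩ := existsUnique_corRep (Fact.out : q.Prime) d (corRep d x)
    (dvd_of_mem_Gamma0 ⟨_, corRep_mem d x⟩)
  rw [hz y h, hz x (by change corRep d x * (corRep d x)⁻¹ ∈ _; rw [mul_inv_cancel]; exact one_mem _)]

/-- **(I2)** `α_* ∘ β^* = T_q` on `Hom(Γ₀(N), A)`. -/
theorem corA_resB (d : ALData N q) (hqN : ¬ q ∣ N) (A : Type*) [AddCommGroup A]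
    (c : Additive (Gamma0 N) →+ A) :
    corA d A (resB N q A c) = heckeHom hqN A c :=
  op_resB_eq_heckeHom hqN (corDatum d) (fun x => ⟨corRep d x, corRep_mem d x⟩)
    (fun _ => rfl) (corRep_inj d) card_onePoint_zmod A c

/-- **(I2)**, pointwise. -/
theorem corA_resB_apply (d : ALData N q) (hqN : ¬ q ∣ N) (A : Type*) [AddCommGroup A]
    (c : Additive (Gamma0 N) →+ A) (γ : Gamma0 N) :
    corA d A (resB N q A c) (Additive.ofMul γ) =
      ∑ x : OnePoint (ZMod q), c (Additive.ofMul (stepG hqN γ x)) := by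
  rw [corA_resB d hqN, heckeHom_apply]

/-- **(I2)** on `XMod`: `α_* ∘ β^* = T_q`. -/
theorem corAX_resBX (d : ALData N q) (hqN : ¬ q ∣ N) (R : Type*) [Semiring R] (A : Type*)
    [AddCommGroup A] [Module R A] (u : XMod N R A) :
    corAX R A d (resBX N q R A u) = heckeX hqN R A u :=
  Subtype.ext (corA_resB d hqN A u)

/-- `T_q = α_* ∘ W ∘ α^*`. -/
theorem corA_opW_resA (d : ALData N q) (hqN : ¬ q ∣ N) (A : Type*) [AddCommGroup A]
    (c : Additive (Gamma0 N) →+ A) :
    corA d A (opW A d (resA N q A c)) = heckeHom hqN A c := by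
  rw [← resB_eq d c, corA_resB d hqN]

end

end Fermat.Agent.S41.Degen.TqComp
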