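import Fermat.Agent.S41.Degen.Cor

/-!
# S41, block L1, leaf (I4a): `T_ℓ` commutes with the corestriction `α_*`

* `hInt ℓ x` : the integer model of the Prelude's `heckeRep ℓ x`;
* `dvd_of_stepRel` : the converse level-preservation of the `T_ℓ`-cocycle;
* `heckeHom_corA` : `T_ℓ ∘ α_* = α_* ∘ T_ℓ` on `Hom(Γ₀(Nq), A)` (`ℓ ∤ Nq`).
-/

set_option autoImplicit false
set_option maxHeartbeats 400000

namespace Fermat.Agent.S41.Degen.HeckeCor

open CongruenceSubgroup Matrix.SpecialLinearGroup Function ModularForm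
open Fermat.Agent.S41.Degen.CosetOp Fermat.Agent.S41.Degen.Cor
open Fermat.Agent.S29.Betti
open P2MW.S_ModularForm_heckeT_slash_eq_self_of_mem_Gamma0.ModularForm.HeckeSlashInvariance
open scoped MatrixGroups

noncomputable section

/-! ### The integer model of `heckeRep` -/

/-- the integer matrix underlying `heckeRep ℓ x`. -/
def hInt (ℓ : ℕ) (x : OnePoint (ZMod ℓ)) : Matrix (Fin 2) (Fin 2) ℤ :=
  x.elim !![(ℓ : ℤ), 0; 0, 1] (fun j => !![1, (j.val : ℤ); 0, (ℓ : ℤ)])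

@[simp] theorem hInt_infty (ℓ : ℕ) : hInt ℓ OnePoint.infty = !![(ℓ : ℤ), 0; 0, 1] := rfl

@[simp] theorem hInt_coe (ℓ : ℕ) (j : ZMod ℓ) :
    hInt ℓ (j : OnePoint (ZMod ℓ)) = !![1, (j.val : ℤ); 0, (ℓ : ℤ)] := rfl

theorem hInt_one_zero (ℓ : ℕ) (x : OnePoint (ZMod ℓ)) : hInt ℓ x 1 0 = 0 := by
  induction x using OnePoint.rec with
  | infty => simp
  | coe j => simp

theorem hInt_one_one (ℓ : ℕ) (x : OnePoint (ZMod ℓ)) : hInt ℓ x 1 1 = 1 ∨ hInt ℓ x 1 1 = ℓ := by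
  induction x using OnePoint.rec with
  | infty => left; simp
  | coe j => right; simp

theorem hInt_zero_zero (ℓ : ℕ) (x : OnePoint (ZMod ℓ)) : hInt ℓ x 0 0 = 1 ∨ hInt ℓ x 0 0 = ℓ := by
  induction x using OnePoint.rec with
  | infty => right; simp
  | coe j => left; simp

theorem castMat_injective :
    Injective ((Int.castRingHom ℝ).mapMatrix :
      Matrix (Fin 2) (Fin 2) ℤ → Matrix (Fin 2) (Fin 2) ℝ) := by
  intro a b h
  ext i j
  have := congrFun (congrFun h i) j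
  simpa using this

theorem heckeRep_coe_eq {ℓ : ℕ} (hℓ : ℓ ≠ 0) (x : OnePoint (ZMod ℓ)) :
    ((heckeRep ℓ x : GL (Fin 2) ℝ) : Matrix (Fin 2) (Fin 2) ℝ) =
      (Int.castRingHom ℝ).mapMatrix (hInt ℓ x) := by
  induction x using OnePoint.rec with
  | infty =>
    rw [heckeRep_infty, val_heckeDiagMatrix hℓ]
    ext i j
    fin_cases i <;> fin_cases j <;> simp
  | coe j =>
    rw [heckeRep_coe, val_heckeMatrix hℓ]
    ext i j
    fin_cases i <;> fin_cases j <;> simp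

theorem mapGL_coe_eq (g : SL(2, ℤ)) :
    ((mapGL ℝ g : GL (Fin 2) ℝ) : Matrix (Fin 2) (Fin 2) ℝ) =
      (Int.castRingHom ℝ).mapMatrix (g : Matrix (Fin 2) (Fin 2) ℤ) := by
  ext i j
  simp

/-- a `GL₂(ℝ)` step relation is an integer matrix identity. -/
theorem stepRel_int {ℓ : ℕ} (hℓ : ℓ ≠ 0) {δ σ : SL(2, ℤ)} {x x' : OnePoint (ZMod ℓ)}
    (h : heckeRep ℓ x * mapGL ℝ δ = mapGL ℝ σ * heckeRep ℓ x') :
    hInt ℓ x * (δ : Matrix (Fin 2) (Fin 2) ℤ) = (σ : Matrix (Fin 2) (Fin 2) ℤ) * hInt ℓ x' := by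
  apply castMat_injective
  have h1 := congrArg (fun g : GL (Fin 2) ℝ => (g : Matrix (Fin 2) (Fin 2) ℝ)) h
  simp only [Units.val_mul] at h1
  rw [heckeRep_coe_eq hℓ, heckeRep_coe_eq hℓ, mapGL_coe_eq, mapGL_coe_eq] at h1
  rw [map_mul, map_mul]
  exact h1

/-- **converse level preservation**: if the step `σ` lies in `Γ₀(M)` (`ℓ ∤ M`) so does `δ`. -/
theorem dvd_of_stepRel {ℓ : ℕ} [Fact ℓ.Prime] {M : ℕ} (hℓM : ¬ ℓ ∣ M) {δ σ : SL(2, ℤ)}
    {x x' : OnePoint (ZMod ℓ)}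
    (h : heckeRep ℓ x * mapGL ℝ δ = mapGL ℝ σ * heckeRep ℓ x') (hσ : (M : ℤ) ∣ σ 1 0) :
    (M : ℤ) ∣ δ 1 0 := by
  have hℓ : ℓ.Prime := Fact.out
  have h1 := stepRel_int hℓ.ne_zero h
  have h2 := congrFun (congrFun h1 1) 0
  rw [Matrix.mul_apply, Matrix.mul_apply, Fin.sum_univ_two, Fin.sum_univ_two, hInt_one_zero,
    hInt_one_zero, zero_mul, zero_add, mul_zero, add_zero] at h2
  have h3 : (M : ℤ) ∣ hInt ℓ x 1 1 * δ 1 0 := by
    rw [h2]
    exact Dvd.dvd.mul_right hσ _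
  have hcop : IsCoprime (M : ℤ) (hInt ℓ x 1 1) := by
    rcases hInt_one_one ℓ x with h4 | h4
    · rw [h4]; exact isCoprime_one_right
    · rw [h4]
      exact Nat.isCoprime_iff_coprime.mpr ((Nat.Prime.coprime_iff_not_dvd hℓ).mpr hℓM).symm
  exact hcop.dvd_of_dvd_mul_left h3

/-! ### The comparison of the two composite data -/

section Main

variable {N q ℓ : ℕ} [Fact q.Prime] [Fact ℓ.Prime] (d : ALData N q) (hℓN : ¬ ℓ ∣ N)
  (hℓM : ¬ ℓ ∣ N * q)

/-- `corRep d y` as an element of `Γ₀(N)`. -/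
def kG (y : OnePoint (ZMod q)) : Gamma0 N := ⟨corRep d y, corRep_mem d y⟩

omit [Fact q.Prime] in
@[simp] theorem kG_coe (y : OnePoint (ZMod q)) :
    ((kG d y : Gamma0 N) : SL(2, ℤ)) = corRep d y := rfl

/-- the base point: the coset of `1`. -/
def base (q : ℕ) : OnePoint (ZMod q) := ((0 : ZMod q) : OnePoint (ZMod q))

theorem e21_zero : e21 0 = 1 := by
  ext i j
  fin_cases i <;> fin_cases j <;> simp [e21]

omit [Fact q.Prime] in
theorem corRep_base : corRep d (base q) = 1 := by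
  rw [base, corRep_coe, ZMod.val_zero, Nat.cast_zero, mul_zero, e21_zero]

/-- elements of `Γ₀(Nq)` fix the base coset. -/
theorem act_incl_base (κ : Gamma0 (N * q)) :
    (corDatum d).act (incl N q κ) (base q) = base q := by
  apply corDatum_act_eq
  rw [corRep_base, one_mul, inv_one, mul_one, incl_coe]
  exact κ.2

/-- the decomposition `τ = s · corRep y` of an element of `Γ₀(N)`. -/
theorem coe_eq_step_mul (τ : Gamma0 N) :
    (τ : SL(2, ℤ)) = (((corDatum d).step τ (base q) : Gamma0 (N * q)) : SL(2, ℤ)) *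
      corRep d ((corDatum d).act τ (base q)) := by
  have h := corDatum_rel_SL d τ (base q)
  rwa [corRep_base, one_mul] at h

/-- `σ(k_y, x) ∈ Γ₀(N)`. -/
def tau (z : OnePoint (ZMod ℓ) × OnePoint (ZMod q)) : Gamma0 N := stepG hℓN (kG d z.2) z.1

/-- the matching of the cosets `h_x k_y = s · k_ỹ h_x'`. -/
def psi (z : OnePoint (ZMod ℓ) × OnePoint (ZMod q)) : OnePoint (ZMod q) × OnePoint (ZMod ℓ) :=
  ((corDatum d).act (tau d hℓN z) (base q), redMatrix ℓ (corRep d z.2) • z.1)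

/-- the element `s ∈ Γ₀(Nq)` of the matching. -/
def sG (z : OnePoint (ZMod ℓ) × OnePoint (ZMod q)) : Gamma0 (N * q) :=
  (corDatum d).step (tau d hℓN z) (base q)

/-- `T_ℓ ∘ α_*` as a datum: representatives `k_y h_x`. -/
def D₁ : Datum (iGL N) (iGL (N * q)) (OnePoint (ZMod q) × OnePoint (ZMod ℓ)) :=
  (heckeDatum hℓN).comp (corDatum d) (iGL_injective N)

/-- `α_* ∘ T_ℓ` as a datum: representatives `h_x k_y`. -/
def D₂ : Datum (iGL N) (iGL (N * q)) (OnePoint (ZMod ℓ) × OnePoint (ZMod q)) :=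
  (corDatum d).comp (heckeDatum hℓM) (iGL_injective (N * q))

theorem hrep (z : OnePoint (ZMod ℓ) × OnePoint (ZMod q)) :
    (D₁ d hℓN).rep (psi d hℓN z) = iGL (N * q) ((sG d hℓN z)⁻¹) * (D₂ d hℓM).rep z := by
  obtain ⟨x, y⟩ := z
  have h1 := stepSL_rel hℓN (kG d y) x
  have h2 := coe_eq_step_mul d (tau d hℓN (x, y))
  have h3 : stepSL hℓN (kG d y) x = ((tau d hℓN (x, y) : Gamma0 N) : SL(2, ℤ)) := rfl
  rw [kG_coe] at h1
  change mapGL ℝ (corRep d ((corDatum d).act (tau d hℓN (x, y)) (base q))) *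
      heckeRep ℓ (redMatrix ℓ (corRep d y) • x) =
    iGL (N * q) ((sG d hℓN (x, y))⁻¹) * (heckeRep ℓ x * mapGL ℝ (corRep d y))
  rw [h1, h3, h2, map_mul, map_inv, iGL_apply, ← mul_assoc, ← mul_assoc]
  congr 1
  change _ = (mapGL ℝ (((corDatum d).step (tau d hℓN (x, y)) (base q) : Gamma0 (N * q)) :
    SL(2, ℤ)))⁻¹ * _ * _
  rw [inv_mul_cancel, one_mul]

theorem hact (γ : Gamma0 N) (z : OnePoint (ZMod ℓ) × OnePoint (ZMod q)) :
    (D₁ d hℓN).act γ (psi d hℓN z) = psi d hℓN ((D₂ d hℓM).act γ z) := by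
  obtain ⟨x, y⟩ := z
  have hrelSL := corDatum_rel_SL d γ y
  have hrel : kG d y * γ = incl N q ((corDatum d).step γ y) * kG d ((corDatum d).act γ y) :=
    Subtype.ext hrelSL
  apply Prod.ext
  · change (corDatum d).act (stepG hℓN γ (redMatrix ℓ (corRep d y) • x))
        ((corDatum d).act (stepG hℓN (kG d y) x) (base q)) =
      (corDatum d).act (stepG hℓN (kG d ((corDatum d).act γ y))
        (redMatrix ℓ (((corDatum d).step γ y : Gamma0 (N * q)) : SL(2, ℤ)) • x)) (base q)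
    rw [← (corDatum d).act_mul, ← kG_coe d y, ← stepG_mul, hrel, stepG_mul, (corDatum d).act_mul,
      ← incl_stepG hℓM hℓN, act_incl_base, incl_coe]
  · change redMatrix ℓ (γ : SL(2, ℤ)) • (redMatrix ℓ (corRep d y) • x) =
      redMatrix ℓ (corRep d ((corDatum d).act γ y)) •
        (redMatrix ℓ (((corDatum d).step γ y : Gamma0 (N * q)) : SL(2, ℤ)) • x)
    rw [← mul_smul, ← mul_smul, ← redMatrix_mul, ← redMatrix_mul, hrelSL]

include hℓM in
theorem psi_injective : Injective (psi d hℓN) := by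
  rintro ⟨x₁, y₁⟩ ⟨x₂, y₂⟩ h
  have h1 : (corDatum d).act (tau d hℓN (x₁, y₁)) (base q) =
      (corDatum d).act (tau d hℓN (x₂, y₂)) (base q) := congrArg Prod.fst h
  have h2 : redMatrix ℓ (corRep d y₁) • x₁ = redMatrix ℓ (corRep d y₂) • x₂ :=
    congrArg Prod.snd h
  set δ : Gamma0 N := kG d y₁ * (kG d y₂)⁻¹ with hδ
  have hδ' : δ * kG d y₂ = kG d y₁ := by rw [hδ, inv_mul_cancel_right]
  have hx : redMatrix ℓ (δ : SL(2, ℤ)) • x₁ = x₂ := by
    have h3 : redMatrix ℓ (corRep d y₂) • (redMatrix ℓ (δ : SL(2, ℤ)) • x₁) =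
        redMatrix ℓ (corRep d y₂) • x₂ := by
      rw [← mul_smul, ← redMatrix_mul, ← kG_coe d y₂, ← Subgroup.coe_mul, hδ', kG_coe, h2, kG_coe]
    exact smul_left_cancel _ h3
  have hτ : tau d hℓN (x₁, y₁) = stepG hℓN δ x₁ * tau d hℓN (x₂, y₂) := by
    change stepG hℓN (kG d y₁) x₁ = stepG hℓN δ x₁ * stepG hℓN (kG d y₂) x₂
    rw [← hδ', stepG_mul, hx]
  have hmem : ((stepG hℓN δ x₁ : Gamma0 N) : SL(2, ℤ)) ∈ Gamma0 (N * q) := by
    have e1 := coe_eq_step_mul d (tau d hℓN (x₁, y₁))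
    have e2 := coe_eq_step_mul d (tau d hℓN (x₂, y₂))
    rw [h1] at e1
    have e3 : ((stepG hℓN δ x₁ : Gamma0 N) : SL(2, ℤ)) =
        ((tau d hℓN (x₁, y₁) : Gamma0 N) : SL(2, ℤ)) *
          ((tau d hℓN (x₂, y₂) : Gamma0 N) : SL(2, ℤ))⁻¹ := by
      rw [hτ, Subgroup.coe_mul, mul_inv_cancel_right]
    rw [e3, e1, e2, mul_inv_rev, mul_assoc, mul_inv_cancel_left]
    exact (Gamma0 (N * q)).mul_mem (SetLike.coe_mem _) ((Gamma0 (N * q)).inv_mem (SetLike.coe_mem _))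
  have hδmem : (δ : SL(2, ℤ)) ∈ Gamma0 (N * q) := by
    apply mem_Gamma0_of_dvd
    exact dvd_of_stepRel hℓM (stepSL_rel hℓN δ x₁) (dvd_of_mem_Gamma0 ⟨_, hmem⟩)
  have hy : y₁ = y₂ := by
    obtain ⟨y, _, huniq⟩ := existsUnique_corRep (Fact.out : q.Prime) d (corRep d y₁)
      (dvd_of_mem_Gamma0 (kG d y₁))
    have hy1 : corRep d y₁ * (corRep d y₁)⁻¹ ∈ Gamma0 (N * q) := by
      rw [mul_inv_cancel]
      exact one_mem _
    rw [huniq y₁ hy1, huniq y₂ hδmem]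
  subst hy
  have hx' : x₁ = x₂ := smul_left_cancel _ h2
  rw [hx']

include hℓM in
theorem psi_bijective : Bijective (psi d hℓN) := by
  rw [Fintype.bijective_iff_injective_and_card]
  exact ⟨psi_injective d hℓN hℓM, by rw [Fintype.card_prod, Fintype.card_prod, mul_comm]⟩

/-- the two composite data have the same operator. -/
theorem D₂_op_eq_D₁_op (A : Type*) [AddCommGroup A] :
    (D₂ d hℓM).op (iGL_injective _) A = (D₁ d hℓN).op (iGL_injective _) A :=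
  Datum.op_eq_of_rep_eq (D₂ d hℓM) (D₁ d hℓN) (iGL_injective _) A
    (Equiv.ofBijective _ (psi_bijective d hℓN hℓM)) (fun z => (sG d hℓN z)⁻¹)
    (fun z => hrep d hℓN hℓM z) (fun γ z => hact d hℓN hℓM γ z)

/-- **`T_ℓ` commutes with the corestriction**: `T_ℓ ∘ α_* = α_* ∘ T_ℓ`. -/
theorem heckeHom_corA (A : Type*) [AddCommGroup A] (c : Additive (Gamma0 (N * q)) →+ A) :
    heckeHom hℓN A (corA d A c) = corA d A (heckeHom hℓM A c) := by
  rw [← heckeDatum_op hℓN A, ← heckeDatum_op hℓM A]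
  unfold corA
  rw [← Datum.op_comp, ← Datum.op_comp]
  exact (congrFun (congrArg DFunLike.coe (D₂_op_eq_D₁_op d hℓN hℓM A)) c).symm

/-- `T_ℓ ∘ α_* = α_* ∘ T_ℓ` on `XMod`. -/
theorem heckeX_corAX (R : Type*) [Semiring R] (A : Type*) [AddCommGroup A] [Module R A]
    (u : XMod (N * q) R A) :
    heckeX hℓN R A (corAX R A d u) = corAX R A d (heckeX hℓM R A u) :=
  Subtype.ext (heckeHom_corA d hℓN hℓM A u)

end Main

end

end Fermat.Agent.S41.Degen.HeckeCor
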