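import Fermat.Agent.S41.Degen.TqComp

/-!
# S41, block L1, leaf (I4, `W`): `T_ℓ` commutes with the Atkin–Lehner operator `W` at level `N q`

For a prime `ℓ ∤ N q` and `d : ALData N q` we prove `T_ℓ ∘ W = W ∘ T_ℓ` on
`Hom(Γ₀(N q), A)` (`heckeHom_opW`), hence `T_ℓ ∘ β^* = β^* ∘ T_ℓ` (`heckeHom_resB`), with the
`XMod` versions.

Proof: both composites are coset operators (`CosetOp.Datum.comp`), with representatives
`w α_x` resp. `α_y w` (`α_x` the Hecke representatives, `w` the Atkin–Lehner matrix).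
The matrix `w α_x w⁻¹` is integral, of determinant `ℓ`, with lower left entry divisible by `N q`
(`exists_wConj_mat`), hence of the form `g α_y` with `g ∈ Γ₀(N q)` (`exists_decomp`); so the two
families of representatives define the same cosets and `CosetOp.Datum.op_eq_of_rep_eq` applies.
-/

set_option autoImplicit false
set_option maxHeartbeats 400000

namespace Fermat.Agent.S41.Degen.HeckeW

open CongruenceSubgroup Matrix.SpecialLinearGroup ModularForm
open ModularCurve.Period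
open P2MW.S_ModularForm_heckeT_slash_eq_self_of_mem_Gamma0.ModularForm.HeckeSlashInvariance
open Fermat.Agent.S29.Betti Fermat.Agent.S41.Degen Fermat.Agent.S41.Degen.CosetOp
open Fermat.Agent.S41.Degen.Cor Fermat.Agent.S41.Degen.TqComp
open scoped MatrixGroups OnePoint

noncomputable section

variable {ℓ : ℕ} [Fact ℓ.Prime]

/-! ### integer Hecke representatives -/

/-- the integer matrix of `heckeRep ℓ x` -/
def repZ (ℓ : ℕ) (x : OnePoint (ZMod ℓ)) : Matrix (Fin 2) (Fin 2) ℤ :=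
  x.elim !![(ℓ : ℤ), 0; 0, 1] (fun j => !![1, (j.val : ℤ); 0, (ℓ : ℤ)])

omit [Fact ℓ.Prime] in
@[simp] theorem repZ_infty : repZ ℓ ∞ = !![(ℓ : ℤ), 0; 0, 1] := rfl

omit [Fact ℓ.Prime] in
@[simp] theorem repZ_coe (j : ZMod ℓ) :
    repZ ℓ (j : OnePoint (ZMod ℓ)) = !![1, (j.val : ℤ); 0, (ℓ : ℤ)] := rfl

theorem repZ_det (x : OnePoint (ZMod ℓ)) : (repZ ℓ x).det = ℓ := by
  induction x using OnePoint.rec with
  | infty => simp [Matrix.det_fin_two_of]
  | coe j => simp [Matrix.det_fin_two_of]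

theorem val_heckeRep (x : OnePoint (ZMod ℓ)) :
    ((heckeRep ℓ x : GL (Fin 2) ℝ) : Matrix (Fin 2) (Fin 2) ℝ) =
      (Int.castRingHom ℝ).mapMatrix (repZ ℓ x) := by
  have hℓ0 : ℓ ≠ 0 := (Fact.out : ℓ.Prime).ne_zero
  induction x using OnePoint.rec with
  | infty =>
    rw [heckeRep_infty, val_heckeDiagMatrix hℓ0, repZ_infty]
    ext i j
    fin_cases i <;> fin_cases j <;> simp
  | coe j =>
    rw [heckeRep_coe, val_heckeMatrix hℓ0, repZ_coe]
    ext i k
    fin_cases i <;> fin_cases k <;> simp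

/-! ### decomposition of integer matrices of determinant `ℓ` -/

/-- an integer matrix of determinant `ℓ` with lower left entry divisible by `K` (prime to `ℓ`) is
`g α_y` with `g ∈ Γ₀(K)`. -/
theorem exists_decomp {M : Matrix (Fin 2) (Fin 2) ℤ} (hdet : M.det = ℓ) {K : ℕ}
    (hK : ¬ ℓ ∣ K) (hM : (K : ℤ) ∣ M 1 0) :
    ∃ (y : OnePoint (ZMod ℓ)) (g : SL(2, ℤ)), (K : ℤ) ∣ g 1 0 ∧
      M = (g : Matrix (Fin 2) (Fin 2) ℤ) * repZ ℓ y := by
  have hℓ : ℓ.Prime := Fact.out
  rw [Matrix.det_fin_two] at hdet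
  set a := M 0 0 with ha
  set b := M 0 1 with hb
  set c := M 1 0 with hc
  set e := M 1 1 with he
  have hMeq : M = !![a, b; c, e] := by
    ext i j
    fin_cases i <;> fin_cases j <;> rfl
  by_cases hcase : (ℓ : ℤ) ∣ a ∧ (ℓ : ℤ) ∣ c
  · -- `M = g * diag(ℓ, 1)`
    obtain ⟨⟨a', ha'⟩, ⟨c', hc'⟩⟩ := hcase
    have hℓ0 : (ℓ : ℤ) ≠ 0 := by exact_mod_cast hℓ.ne_zero
    refine ⟨∞, ⟨!![a', b; c', e], ?_⟩, ?_, ?_⟩
    · rw [Matrix.det_fin_two_of]
      apply mul_left_cancel₀ hℓ0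
      rw [ha', hc'] at hdet
      linear_combination hdet
    · change (K : ℤ) ∣ c'
      have hcop : IsCoprime (K : ℤ) (ℓ : ℤ) :=
        Nat.isCoprime_iff_coprime.mpr ((Nat.Prime.coprime_iff_not_dvd hℓ).mpr hK).symm
      rw [hc'] at hM
      exact hcop.dvd_of_dvd_mul_left hM
    · rw [hMeq, repZ_infty]
      ext i j
      fin_cases i <;> fin_cases j <;>
        simp [Matrix.mul_apply, Fin.sum_univ_two, ha', hc', mul_comm]
  · -- `M = g * [[1, j],[0, ℓ]]`
    have : Fact ℓ.Prime := ⟨hℓ⟩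
    have hdetZ : ((a : ZMod ℓ)) * (e : ZMod ℓ) - (b : ZMod ℓ) * (c : ZMod ℓ) = 0 := by
      have := congrArg (Int.cast : ℤ → ZMod ℓ) hdet
      push_cast at this
      rw [this, ZMod.natCast_self]
    obtain ⟨j, hj1, hj2⟩ : ∃ j : ZMod ℓ, (a : ZMod ℓ) * j = (b : ZMod ℓ) ∧
        (c : ZMod ℓ) * j = (e : ZMod ℓ) := by
      by_cases ha0 : (a : ZMod ℓ) = 0
      · have hc0 : (c : ZMod ℓ) ≠ 0 := by
          intro hc0
          apply hcase
          exact ⟨(ZMod.intCast_zmod_eq_zero_iff_dvd _ _).mp ha0,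
            (ZMod.intCast_zmod_eq_zero_iff_dvd _ _).mp hc0⟩
        refine ⟨(e : ZMod ℓ) / (c : ZMod ℓ), ?_, mul_div_cancel₀ _ hc0⟩
        rw [ha0, zero_mul]
        rw [ha0, zero_mul, zero_sub, neg_eq_zero] at hdetZ
        exact ((mul_eq_zero.mp hdetZ).resolve_right hc0).symm
      · refine ⟨(b : ZMod ℓ) / (a : ZMod ℓ), mul_div_cancel₀ _ ha0, ?_⟩
        field_simp
        linear_combination -hdetZ
    obtain ⟨b', hb'⟩ : (ℓ : ℤ) ∣ b - a * (j.val : ℤ) := by
      rw [← ZMod.intCast_zmod_eq_zero_iff_dvd]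
      push_cast
      rw [ZMod.natCast_zmod_val, hj1, sub_self]
    obtain ⟨e', he'⟩ : (ℓ : ℤ) ∣ e - c * (j.val : ℤ) := by
      rw [← ZMod.intCast_zmod_eq_zero_iff_dvd]
      push_cast
      rw [ZMod.natCast_zmod_val, hj2, sub_self]
    have hℓ0 : (ℓ : ℤ) ≠ 0 := by exact_mod_cast hℓ.ne_zero
    refine ⟨(j : OnePoint (ZMod ℓ)), ⟨!![a, b'; c, e'], ?_⟩, hM, ?_⟩
    · rw [Matrix.det_fin_two_of]
      apply mul_left_cancel₀ hℓ0
      linear_combination hdet - a * he' + c * hb'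
    · rw [hMeq, repZ_coe]
      ext i k
      fin_cases i <;> fin_cases k
      · simp [Matrix.mul_apply, Fin.sum_univ_two]
      · simp only [Matrix.mul_apply, Fin.sum_univ_two, Fin.zero_eta, Fin.mk_one, Fin.isValue,
          Matrix.of_apply, Matrix.cons_val', Matrix.cons_val_zero, Matrix.cons_val_one,
          Matrix.empty_val', Matrix.cons_val_fin_one]
        linear_combination hb'
      · simp [Matrix.mul_apply, Fin.sum_univ_two]
      · simp only [Matrix.mul_apply, Fin.sum_univ_two, Fin.mk_one, Fin.isValue,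
          Matrix.of_apply, Matrix.cons_val', Matrix.cons_val_zero, Matrix.cons_val_one,
          Matrix.empty_val', Matrix.cons_val_fin_one]
        linear_combination he'

/-! ### Atkin–Lehner conjugation of integer matrices -/

variable {N q : ℕ}

/-- `w g w⁻¹` is integral with lower left entry divisible by `N q`, for every integer matrix `g`
with lower left entry divisible by `N q`. -/
theorem exists_wConj_mat (d : ALData N q) (g : Matrix (Fin 2) (Fin 2) ℤ)
    (hg : ((N * q : ℕ) : ℤ) ∣ g 1 0) :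
    ∃ h : Matrix (Fin 2) (Fin 2) ℤ, ((N * q : ℕ) : ℤ) ∣ h 1 0 ∧ d.wMat * g = h * d.wMat := by
  obtain ⟨k, hk⟩ := hg
  have hk' : g 1 0 = (N : ℤ) * q * k := by rw [hk]; push_cast; ring
  have hxy := d.hxy
  set a := g 0 0 with ha
  set b := g 0 1 with hb
  set e := g 1 1 with he
  set h : Matrix (Fin 2) (Fin 2) ℤ :=
    !![(q : ℤ) * d.x * a + d.y * ((N : ℤ) * q * k) - N * q * d.x * b - N * d.y * e,
       -(d.x * a * d.y) - d.y ^ 2 * (N * k) + q * d.x ^ 2 * b + d.x * d.y * e;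
       (N : ℤ) * q * a + q * ((N : ℤ) * q * k) - N ^ 2 * q * b - N * q * e,
       -(N * a * d.y) - (N : ℤ) * q * k * d.y + N * q * d.x * b + q * d.x * e] with hh
  refine ⟨h, ?_, ?_⟩
  · refine ⟨a + q * k - N * b - e, ?_⟩
    simp only [hh, Matrix.of_apply, Matrix.cons_val', Matrix.cons_val_zero, Matrix.cons_val_one,
      Matrix.empty_val', Matrix.cons_val_fin_one]
    push_cast
    ring
  · ext i j
    fin_cases i <;> fin_cases j
    · simp only [Fin.zero_eta, Fin.isValue, Matrix.mul_apply, Fin.sum_univ_two, ALData.wMat, hh,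
        Matrix.of_apply, Matrix.cons_val', Matrix.cons_val_zero, Matrix.cons_val_one,
        Matrix.empty_val', Matrix.cons_val_fin_one]
      rw [hk']
      linear_combination (-((q : ℤ) * d.x * a + d.y * ((N : ℤ) * q * k))) * hxy
    · simp only [Fin.zero_eta, Fin.mk_one, Fin.isValue, Matrix.mul_apply, Fin.sum_univ_two,
        ALData.wMat, hh, Matrix.of_apply, Matrix.cons_val', Matrix.cons_val_zero,
        Matrix.cons_val_one, Matrix.empty_val', Matrix.cons_val_fin_one]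
      linear_combination (-((q : ℤ) * d.x * b + d.y * e)) * hxy
    · simp only [Fin.zero_eta, Fin.mk_one, Fin.isValue, Matrix.mul_apply, Fin.sum_univ_two,
        ALData.wMat, hh, Matrix.of_apply, Matrix.cons_val', Matrix.cons_val_zero,
        Matrix.cons_val_one, Matrix.empty_val', Matrix.cons_val_fin_one]
      rw [hk']
      linear_combination (-((N : ℤ) * q * a + q * ((N : ℤ) * q * k))) * hxy
    · simp only [Fin.mk_one, Fin.isValue, Matrix.mul_apply, Fin.sum_univ_two,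
        ALData.wMat, hh, Matrix.of_apply, Matrix.cons_val', Matrix.cons_val_zero,
        Matrix.cons_val_one, Matrix.empty_val', Matrix.cons_val_fin_one]
      linear_combination (-((N : ℤ) * q * b + q * e)) * hxy

theorem repZ_one_zero (x : OnePoint (ZMod ℓ)) : repZ ℓ x 1 0 = 0 := by
  induction x using OnePoint.rec with
  | infty => simp
  | coe j => simp

variable [NeZero q]

theorem wMat_det_ne_zero (d : ALData N q) : d.wMat.det ≠ 0 := by
  rw [d.wMat_det]; exact_mod_cast NeZero.ne q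

/-- **the key relation**: `w α_x = g α_y w` with `g ∈ Γ₀(N q)`, in integer matrices. -/
theorem exists_rel_int (hℓM : ¬ ℓ ∣ N * q) (d : ALData N q) (x : OnePoint (ZMod ℓ)) :
    ∃ (y : OnePoint (ZMod ℓ)) (g : Gamma0 (N * q)),
      d.wMat * repZ ℓ x =
        ((g : SL(2, ℤ)) : Matrix (Fin 2) (Fin 2) ℤ) * repZ ℓ y * d.wMat := by
  obtain ⟨M, hM10, hM⟩ := exists_wConj_mat d (repZ ℓ x) (by rw [repZ_one_zero]; exact dvd_zero _)
  have hdet : M.det = ℓ := by
    have h1 := congrArg Matrix.det hM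
    rw [Matrix.det_mul, Matrix.det_mul, repZ_det, mul_comm] at h1
    exact (mul_right_cancel₀ (wMat_det_ne_zero d) h1).symm
  obtain ⟨y, g, hg, hMg⟩ := exists_decomp hdet hℓM hM10
  exact ⟨y, ⟨g, mem_Gamma0_of_dvd hg⟩, by rw [hM, hMg]⟩

/-! ### the two composite data -/

variable (d : ALData N q)

/-- the coset datum of `W`. -/
def wDatum : Datum (iGL (N * q)) (iGL (N * q)) Unit :=
  conjDatum d.wMat (wMat_det_ne_zero d) (exists_wConj d)

theorem wDatum_op (A : Type*) [AddCommGroup A] :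
    (wDatum d).op (iGL_injective _) A = opW A d :=
  conjDatum_op d.wMat (wMat_det_ne_zero d) (exists_wConj d) A

/-- the key relation in `GL₂(ℝ)`: `α_y w = g⁻¹ (w α_x)`. -/
theorem exists_rel (hℓM : ¬ ℓ ∣ N * q) (x : OnePoint (ZMod ℓ)) :
    ∃ (y : OnePoint (ZMod ℓ)) (g : Gamma0 (N * q)),
      heckeRep ℓ y * matGL d.wMat (wMat_det_ne_zero d) =
        iGL (N * q) g * (matGL d.wMat (wMat_det_ne_zero d) * heckeRep ℓ x) := by
  obtain ⟨y, g, hg⟩ := exists_rel_int hℓM d x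
  refine ⟨y, g⁻¹, ?_⟩
  rw [map_inv, eq_inv_mul_iff_mul_eq]
  apply Units.ext
  rw [Units.val_mul, Units.val_mul, Units.val_mul, matGL_coe, iGL_coe, val_heckeRep, val_heckeRep,
    ← map_mul, ← map_mul, ← map_mul, hg, Matrix.mul_assoc]

/-- `w ι(γ) = ι(wConj γ) w` in `GL₂(ℝ)`. -/
theorem matGL_mul_iGL (γ : Gamma0 (N * q)) :
    matGL d.wMat (wMat_det_ne_zero d) * iGL (N * q) γ =
      iGL (N * q) (wConj d γ) * matGL d.wMat (wMat_det_ne_zero d) :=
  (wDatum d).rel γ ()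

/-- `wConj` is surjective. -/
theorem wConj_surjective : Function.Surjective (wConj d) := by
  intro h
  refine ⟨wConj d (d.g0⁻¹ * h * d.g0), ?_⟩
  rw [wConj_wConj]
  group

/-- the datum of `T_ℓ ∘ W` : representatives `w α_x`. -/
def dTW (hℓM : ¬ ℓ ∣ N * q) :
    Datum (iGL (N * q)) (iGL (N * q)) (Unit × OnePoint (ZMod ℓ)) :=
  (heckeDatum hℓM).comp (wDatum d) (iGL_injective _)

/-- the datum of `W ∘ T_ℓ` : representatives `α_y w`. -/
def dWT (hℓM : ¬ ℓ ∣ N * q) :
    Datum (iGL (N * q)) (iGL (N * q)) (OnePoint (ZMod ℓ) × Unit) :=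
  (wDatum d).comp (heckeDatum hℓM) (iGL_injective _)

theorem dTW_op (hℓM : ¬ ℓ ∣ N * q) (A : Type*) [AddCommGroup A]
    (c : Additive (Gamma0 (N * q)) →+ A) :
    (dTW d hℓM).op (iGL_injective _) A c = heckeHom hℓM A (opW A d c) := by
  rw [dTW, Datum.op_comp, wDatum_op, heckeDatum_op]

theorem dWT_op (hℓM : ¬ ℓ ∣ N * q) (A : Type*) [AddCommGroup A]
    (c : Additive (Gamma0 (N * q)) →+ A) :
    (dWT d hℓM).op (iGL_injective _) A c = opW A d (heckeHom hℓM A c) := by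
  rw [dWT, Datum.op_comp, wDatum_op, heckeDatum_op]

/-- uniqueness of the target coset for `dWT`. -/
theorem dWT_unique (hℓM : ¬ ℓ ∣ N * q) (γ : Gamma0 (N * q))
    (x' y' : OnePoint (ZMod ℓ) × Unit) (s : Gamma0 (N * q))
    (h : (dWT d hℓM).rep x' * iGL (N * q) γ = iGL (N * q) s * (dWT d hℓM).rep y') :
    y' = (dWT d hℓM).act γ x' := by
  obtain ⟨x₁, u₁⟩ := x'
  obtain ⟨y₁, u₂⟩ := y'
  change heckeRep ℓ x₁ * matGL d.wMat (wMat_det_ne_zero d) * iGL (N * q) γ =
    iGL (N * q) s * (heckeRep ℓ y₁ * matGL d.wMat (wMat_det_ne_zero d)) at h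
  rw [mul_assoc, matGL_mul_iGL, ← mul_assoc, ← mul_assoc] at h
  have h' := mul_right_cancel h
  have := heckeDatum_unique hℓM (wConj d γ) x₁ y₁ s h'
  exact Prod.ext this rfl

/-- **`T_ℓ ∘ W = W ∘ T_ℓ`** on `Hom(Γ₀(N q), A)`. -/
theorem heckeHom_opW (hℓM : ¬ ℓ ∣ N * q) (A : Type*) [AddCommGroup A]
    (c : Additive (Gamma0 (N * q)) →+ A) :
    heckeHom hℓM A (opW A d c) = opW A d (heckeHom hℓM A c) := by
  rw [← dTW_op, ← dWT_op]
  choose τ g hτ using exists_rel d hℓM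
  let φ : Unit × OnePoint (ZMod ℓ) → OnePoint (ZMod ℓ) × Unit := fun z => (τ z.2, ())
  have hrep : ∀ z, (dWT d hℓM).rep (φ z) = iGL (N * q) (g z.2) * (dTW d hℓM).rep z := by
    intro z
    exact hτ z.2
  have hφinj : Function.Injective φ := by
    intro z z' hzz
    have hy : τ z.2 = τ z'.2 := congrArg Prod.fst hzz
    have h1 := hτ z.2
    have h2 := hτ z'.2
    rw [hy, h2] at h1
    -- `w α_x = ι(h) w α_x'`
    obtain ⟨h'', hh''⟩ := wConj_surjective d ((g z.2)⁻¹ * g z'.2)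
    have h3 : matGL d.wMat (wMat_det_ne_zero d) * heckeRep ℓ z.2 =
        matGL d.wMat (wMat_det_ne_zero d) * (iGL (N * q) h'' * heckeRep ℓ z'.2) := by
      rw [← mul_assoc, matGL_mul_iGL, hh'', map_mul, map_inv, mul_assoc, mul_assoc, h1,
        inv_mul_cancel_left]
    have h4 := mul_left_cancel h3
    have := heckeRep_coset_unique (t := (h'' : SL(2, ℤ))) h4
    exact Prod.ext (Subsingleton.elim _ _) this
  have hφbij : Function.Bijective φ := by
    rw [Fintype.bijective_iff_injective_and_card]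
    refine ⟨hφinj, ?_⟩
    rw [Fintype.card_prod, Fintype.card_prod, mul_comm]
  let e : Unit × OnePoint (ZMod ℓ) ≃ OnePoint (ZMod ℓ) × Unit := Equiv.ofBijective φ hφbij
  have hact := Datum.act_eq_of_unique (dTW d hℓM) (dWT d hℓM) e (fun z => g z.2) hrep
    (dWT_unique d hℓM)
  have := Datum.op_eq_of_rep_eq (dTW d hℓM) (dWT d hℓM) (iGL_injective _) A e
    (fun z => g z.2) hrep hact
  rw [this]

include d in
/-- **`T_ℓ ∘ β^* = β^* ∘ T_ℓ`**. -/
theorem heckeHom_resB (hℓM : ¬ ℓ ∣ N * q) (hℓN : ¬ ℓ ∣ N) (A : Type*) [AddCommGroup A]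
    (c : Additive (Gamma0 N) →+ A) :
    heckeHom hℓM A (resB N q A c) = resB N q A (heckeHom hℓN A c) := by
  rw [resB_eq d, resB_eq d, heckeHom_opW, heckeHom_resA hℓM hℓN]

/-! ### `XMod` versions -/

section XModVersions

variable (R : Type*) [Semiring R] (A : Type*) [AddCommGroup A] [Module R A]

/-- `T_ℓ ∘ W = W ∘ T_ℓ` on `XMod`. -/
theorem heckeX_opWX (hℓM : ¬ ℓ ∣ N * q) (u : XMod (N * q) R A) :
    heckeX hℓM R A (opWX R A d u) = opWX R A d (heckeX hℓM R A u) :=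
  Subtype.ext (heckeHom_opW d hℓM A u)

omit [NeZero q] in
/-- `T_ℓ ∘ α^* = α^* ∘ T_ℓ` on `XMod`. -/
theorem heckeX_resAX (hℓM : ¬ ℓ ∣ N * q) (hℓN : ¬ ℓ ∣ N) (u : XMod N R A) :
    heckeX hℓM R A (resAX N q R A u) = resAX N q R A (heckeX hℓN R A u) :=
  Subtype.ext (heckeHom_resA hℓM hℓN (u : Additive (Gamma0 N) →+ A))

include d in
/-- `T_ℓ ∘ β^* = β^* ∘ T_ℓ` on `XMod`. -/
theorem heckeX_resBX (hℓM : ¬ ℓ ∣ N * q) (hℓN : ¬ ℓ ∣ N) (u : XMod N R A) :
    heckeX hℓM R A (resBX N q R A u) = resBX N q R A (heckeX hℓN R A u) :=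
  Subtype.ext (heckeHom_resB d hℓM hℓN A u)

end XModVersions

end

end Fermat.Agent.S41.Degen.HeckeW
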