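import Fermat.Agent.S41.Assembly.NewVector
import Fermat.Agent.S41.Degen.HeckeCor
import Fermat.Agent.S41.Degen.HeckeW

/-!
# S41, (I4): the two closed hypotheses `Assembly.HCorHecke`, `Assembly.HWHecke`

* `hCorHecke : Assembly.HCorHecke` (`α_* T_ℓ = T_ℓ α_*`) is `HeckeCor.heckeX_corAX` (helper20);
* `hWHecke : Assembly.HWHecke` (`W T_ℓ = T_ℓ W`) is `HeckeW.heckeX_opWX` (helper8).
-/

set_option autoImplicit false

namespace Fermat.Agent.S41.Degen.CorHecke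

/-- **(I4)** `α_*` commutes with the `T_ℓ`, `ℓ ∤ N q`. -/
theorem hCorHecke : Fermat.Agent.S41.Assembly.HCorHecke :=
  fun _ _ _ d _ _ hℓM hℓN y =>
    (Fermat.Agent.S41.Degen.HeckeCor.heckeX_corAX d hℓN hℓM ℤ ℤ y).symm

/-- **(I4)** `W` commutes with the `T_ℓ`, `ℓ ∤ N q`. -/
theorem hWHecke : Fermat.Agent.S41.Assembly.HWHecke :=
  fun _ _ _ d _ _ hℓM y => (Fermat.Agent.S41.Degen.HeckeW.heckeX_opWX d ℤ ℤ hℓM y).symm

end Fermat.Agent.S41.Degen.CorHecke
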