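import Fermat.Agent.S29.Betti.EigenSupport

/-!
# S41, block L1 (BlockDegen), leaf D0: degeneracy maps on `Hom(Γ₀(·), A)`

`M = N * q`.  Fix `x y : ℤ` with `q x - N y = 1` (`ALData N q`), `w = [[q x, y],[N q, q]]`
(`det w = q`), `g = [[x, y],[N, q]] ∈ Γ₀(N)`, `w = g · diag(q, 1)`.

* `incl N q : Γ₀(Nq) →* Γ₀(N)` (inclusion), `dConj N q : Γ₀(Nq) →* Γ₀(N)` (conjugation by
  `diag(q,1)`: `[[a,b],[c,d]] ↦ [[a, q b],[c/q, d]]`), `wConj d : Γ₀(Nq) →* Γ₀(Nq)` (conjugation by `w`);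
* `resA` (`α^*`), `resB` (`β^*`), `opW` (`W`) on `Additive (Γ₀ _) →+ A`;
* `opW_opW : W (W c) = c`, `resB_eq : resB c = W (resA c)`;
* preservation of admissible characters; `T_ℓ ∘ resA = resA ∘ T_ℓ`.
-/

set_option autoImplicit false

namespace Fermat.Agent.S41.Degen

open CongruenceSubgroup Matrix.SpecialLinearGroup
open ModularCurve.Period
open P2MW.S_ModularForm_heckeT_slash_eq_self_of_mem_Gamma0.ModularForm.HeckeSlashInvariance
open Fermat.Agent.S29.Betti
open scoped MatrixGroups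

noncomputable section

/-! ### Integer matrices with nonzero determinant -/

theorem mat_mul_right_cancel {D h h' : Matrix (Fin 2) (Fin 2) ℤ} (hD : D.det ≠ 0)
    (e : h * D = h' * D) : h = h' := by
  have e2 := congrArg (fun X => X * D.adjugate) e
  simp only [Matrix.mul_assoc, Matrix.mul_adjugate] at e2
  rw [Matrix.mul_smul, Matrix.mul_smul, Matrix.mul_one, Matrix.mul_one] at e2
  exact smul_right_injective _ hD e2

theorem det_eq_one_of_intertwine {D g h : Matrix (Fin 2) (Fin 2) ℤ} (hD : D.det ≠ 0)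
    (hg : g.det = 1) (e : D * g = h * D) : h.det = 1 := by
  have e2 := congrArg Matrix.det e
  rw [Matrix.det_mul, Matrix.det_mul, hg, mul_one] at e2
  have : h.det * D.det = 1 * D.det := by rw [one_mul]; exact e2.symm
  exact mul_right_cancel₀ hD this

theorem trace_eq_of_intertwine {D g h : Matrix (Fin 2) (Fin 2) ℤ} (hD : D.det ≠ 0)
    (e : D * g = h * D) : h.trace = g.trace := by
  have e2 := congrArg (fun X => (X * D.adjugate).trace) e
  simp only [Matrix.mul_assoc, Matrix.mul_adjugate] at e2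
  rw [Matrix.mul_smul, Matrix.mul_one, Matrix.trace_smul] at e2
  rw [Matrix.trace_mul_comm, Matrix.mul_assoc, Matrix.adjugate_mul, Matrix.mul_smul,
    Matrix.mul_one, Matrix.trace_smul] at e2
  exact (smul_right_injective _ hD e2).symm

/-! ### Conjugation homomorphisms from intertwining relations -/

section ConjHom

variable {G H : Subgroup SL(2, ℤ)} (D : Matrix (Fin 2) (Fin 2) ℤ) (hD : D.det ≠ 0)
  (ex : ∀ γ : G, ∃ γ' : H, D * ((γ : SL(2, ℤ)) : Matrix (Fin 2) (Fin 2) ℤ) =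
    ((γ' : SL(2, ℤ)) : Matrix (Fin 2) (Fin 2) ℤ) * D)

include hD in
theorem conj_unique {γ : G} {γ₁ γ₂ : H}
    (h₁ : D * ((γ : SL(2, ℤ)) : Matrix (Fin 2) (Fin 2) ℤ) =
      ((γ₁ : SL(2, ℤ)) : Matrix (Fin 2) (Fin 2) ℤ) * D)
    (h₂ : D * ((γ : SL(2, ℤ)) : Matrix (Fin 2) (Fin 2) ℤ) =
      ((γ₂ : SL(2, ℤ)) : Matrix (Fin 2) (Fin 2) ℤ) * D) : γ₁ = γ₂ := by
  apply Subtype.ext
  apply Subtype.ext
  exact mat_mul_right_cancel hD (h₁.symm.trans h₂)

/-- the conjugation homomorphism `γ ↦ D γ D⁻¹`. -/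
def conjHom : G →* H where
  toFun γ := (ex γ).choose
  map_one' := by
    apply conj_unique D hD (γ := (1 : G)) (ex 1).choose_spec
    simp
  map_mul' γ₁ γ₂ := by
    apply conj_unique D hD (γ := γ₁ * γ₂) (ex (γ₁ * γ₂)).choose_spec
    have h₁ := (ex γ₁).choose_spec
    have h₂ := (ex γ₂).choose_spec
    generalize (ex γ₁).choose = c₁ at h₁ ⊢
    generalize (ex γ₂).choose = c₂ at h₂ ⊢
    rw [Subgroup.coe_mul, Subgroup.coe_mul, Matrix.SpecialLinearGroup.coe_mul,
      Matrix.SpecialLinearGroup.coe_mul, ← Matrix.mul_assoc, h₁, Matrix.mul_assoc, h₂,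
      ← Matrix.mul_assoc]

theorem conjHom_spec (γ : G) :
    D * ((γ : SL(2, ℤ)) : Matrix (Fin 2) (Fin 2) ℤ) =
      (((conjHom D hD ex γ : H) : SL(2, ℤ)) : Matrix (Fin 2) (Fin 2) ℤ) * D :=
  (ex γ).choose_spec

theorem conjHom_eq {γ : G} {γ' : H}
    (h : D * ((γ : SL(2, ℤ)) : Matrix (Fin 2) (Fin 2) ℤ) =
      ((γ' : SL(2, ℤ)) : Matrix (Fin 2) (Fin 2) ℤ) * D) : conjHom D hD ex γ = γ' :=
  conj_unique D hD (conjHom_spec D hD ex γ) h

theorem conjHom_injective : Function.Injective (conjHom D hD ex) := by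
  intro γ₁ γ₂ h
  have h₁ := conjHom_spec D hD ex γ₁
  have h₂ := conjHom_spec D hD ex γ₂
  rw [h] at h₁
  apply Subtype.ext
  apply Subtype.ext
  have e : D.adjugate * (D * ((γ₁ : SL(2, ℤ)) : Matrix (Fin 2) (Fin 2) ℤ)) =
      D.adjugate * (D * ((γ₂ : SL(2, ℤ)) : Matrix (Fin 2) (Fin 2) ℤ)) := by rw [h₁, h₂]
  rw [← Matrix.mul_assoc, ← Matrix.mul_assoc, Matrix.adjugate_mul, Matrix.smul_mul,
    Matrix.smul_mul, Matrix.one_mul, Matrix.one_mul] at e
  exact smul_right_injective _ hD e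

theorem trace_conjHom (γ : G) :
    (((conjHom D hD ex γ : H) : SL(2, ℤ)) : Matrix (Fin 2) (Fin 2) ℤ).trace =
      ((γ : SL(2, ℤ)) : Matrix (Fin 2) (Fin 2) ℤ).trace :=
  trace_eq_of_intertwine hD (conjHom_spec D hD ex γ)

end ConjHom

/-! ### The three homomorphisms -/

theorem gamma0_mul_le (N q : ℕ) : Gamma0 (N * q) ≤ Gamma0 N := by
  intro g hg
  have h := dvd_of_mem_Gamma0 (N := N * q) ⟨g, hg⟩
  refine mem_Gamma0_of_dvd (dvd_trans ?_ h)
  push_cast
  exact dvd_mul_right _ _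

/-- the inclusion `Γ₀(Nq) → Γ₀(N)`. -/
def incl (N q : ℕ) : Gamma0 (N * q) →* Gamma0 N := Subgroup.inclusion (gamma0_mul_le N q)

@[simp] theorem incl_coe (N q : ℕ) (γ : Gamma0 (N * q)) :
    ((incl N q γ : Gamma0 N) : SL(2, ℤ)) = (γ : SL(2, ℤ)) := rfl

theorem incl_injective (N q : ℕ) : Function.Injective (incl N q) :=
  Subgroup.inclusion_injective _

/-- `diag(q, 1)`. -/
def dMat (q : ℕ) : Matrix (Fin 2) (Fin 2) ℤ := !![(q : ℤ), 0; 0, 1]

theorem dMat_det (q : ℕ) : (dMat q).det = q := by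
  simp [dMat, Matrix.det_fin_two]

theorem exists_dConj (N q : ℕ) (γ : Gamma0 (N * q)) :
    ∃ γ' : Gamma0 N, dMat q * ((γ : SL(2, ℤ)) : Matrix (Fin 2) (Fin 2) ℤ) =
      ((γ' : SL(2, ℤ)) : Matrix (Fin 2) (Fin 2) ℤ) * dMat q := by
  obtain ⟨k, hk⟩ := dvd_of_mem_Gamma0 γ
  set g : Matrix (Fin 2) (Fin 2) ℤ := ((γ : SL(2, ℤ)) : Matrix (Fin 2) (Fin 2) ℤ) with hg
  have hk' : g 1 0 = (N : ℤ) * q * k := by rw [hk]; push_cast; ring
  have hdet : g 0 0 * g 1 1 - g 0 1 * g 1 0 = 1 := by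
    have := (γ : SL(2, ℤ)).2
    rw [Matrix.det_fin_two] at this
    exact this
  set h : Matrix (Fin 2) (Fin 2) ℤ := !![g 0 0, q * g 0 1; N * k, g 1 1] with hh
  have hhdet : h.det = 1 := by
    rw [hh, Matrix.det_fin_two]
    simp only [Matrix.of_apply, Matrix.cons_val', Matrix.cons_val_zero, Matrix.cons_val_one,
      Matrix.empty_val', Matrix.cons_val_fin_one]
    rw [hk'] at hdet
    linear_combination hdet
  refine ⟨⟨⟨h, hhdet⟩, mem_Gamma0_of_dvd ?_⟩, ?_⟩
  · change (N : ℤ) ∣ h 1 0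
    simp [hh]
  · change dMat q * g = h * dMat q
    ext i j
    fin_cases i <;> fin_cases j <;>
      simp [dMat, hh, Matrix.mul_apply, Fin.sum_univ_two, hk'] <;> ring

/-- conjugation by `diag(q, 1)`: `[[a,b],[c,d]] ↦ [[a, q b],[c/q, d]]`. -/
def dConj (N q : ℕ) [NeZero q] : Gamma0 (N * q) →* Gamma0 N :=
  conjHom (dMat q) (by rw [dMat_det]; exact_mod_cast NeZero.ne q) (exists_dConj N q)

theorem dConj_spec (N q : ℕ) [NeZero q] (γ : Gamma0 (N * q)) :
    dMat q * ((γ : SL(2, ℤ)) : Matrix (Fin 2) (Fin 2) ℤ) =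
      (((dConj N q γ : Gamma0 N) : SL(2, ℤ)) : Matrix (Fin 2) (Fin 2) ℤ) * dMat q :=
  conjHom_spec _ _ _ γ

/-- Bezout data for the Atkin–Lehner matrix. -/
structure ALData (N q : ℕ) where
  x : ℤ
  y : ℤ
  hxy : (q : ℤ) * x - (N : ℤ) * y = 1

theorem nonempty_ALData {N q : ℕ} (h : Nat.Coprime q N) : Nonempty (ALData N q) := by
  have h1 : IsCoprime (q : ℤ) (N : ℤ) := Nat.isCoprime_iff_coprime.mpr h
  obtain ⟨a, b, hab⟩ := h1
  exact ⟨⟨a, -b, by linear_combination hab⟩⟩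

namespace ALData

variable {N q : ℕ} (d : ALData N q)

/-- the Atkin–Lehner matrix `w = [[q x, y],[N q, q]]`. -/
def wMat : Matrix (Fin 2) (Fin 2) ℤ := !![(q : ℤ) * d.x, d.y; (N : ℤ) * q, q]

theorem wMat_det : d.wMat.det = q := by
  simp only [wMat, Matrix.det_fin_two_of]
  linear_combination (q : ℤ) * d.hxy

/-- `g = [[x, y],[N, q]] ∈ Γ₀(N)`. -/
def gSL : SL(2, ℤ) :=
  ⟨!![d.x, d.y; (N : ℤ), q], by
    rw [Matrix.det_fin_two_of]
    linear_combination d.hxy⟩

theorem gSL_mem : d.gSL ∈ Gamma0 N := by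
  apply mem_Gamma0_of_dvd
  simp [gSL]

/-- `g` as an element of `Γ₀(N)`. -/
def gG : Gamma0 N := ⟨d.gSL, d.gSL_mem⟩

theorem wMat_eq : d.wMat = (d.gSL : Matrix (Fin 2) (Fin 2) ℤ) * dMat q := by
  ext i j
  fin_cases i <;> fin_cases j <;> simp [wMat, gSL, dMat, Matrix.mul_apply, Fin.sum_univ_two] <;> ring

end ALData

theorem exists_wConj {N q : ℕ} [NeZero q] (d : ALData N q) (γ : Gamma0 (N * q)) :
    ∃ γ' : Gamma0 (N * q), d.wMat * ((γ : SL(2, ℤ)) : Matrix (Fin 2) (Fin 2) ℤ) =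
      ((γ' : SL(2, ℤ)) : Matrix (Fin 2) (Fin 2) ℤ) * d.wMat := by
  obtain ⟨k, hk⟩ := dvd_of_mem_Gamma0 γ
  set g : Matrix (Fin 2) (Fin 2) ℤ := ((γ : SL(2, ℤ)) : Matrix (Fin 2) (Fin 2) ℤ) with hg
  have hk' : g 1 0 = (N : ℤ) * q * k := by rw [hk]; push_cast; ring
  have hdet : g.det = 1 := (γ : SL(2, ℤ)).2
  have hxy := d.hxy
  set a := g 0 0 with ha
  set b := g 0 1 with hb
  set e := g 1 1 with he
  set h : Matrix (Fin 2) (Fin 2) ℤ :=
    !![(q : ℤ) * d.x * a + d.y * ((N : ℤ) * q * k) - N * q * d.x * b - N * d.y * e,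
       -(d.x * a * d.y) - d.y ^ 2 * (N * k) + q * d.x ^ 2 * b + d.x * d.y * e;
       (N : ℤ) * q * a + q * ((N : ℤ) * q * k) - N ^ 2 * q * b - N * q * e,
       -(N * a * d.y) - (N : ℤ) * q * k * d.y + N * q * d.x * b + q * d.x * e] with hh
  have hint : d.wMat * g = h * d.wMat := by
    ext i j
    fin_cases i <;> fin_cases j
    · simp only [Fin.zero_eta, Fin.isValue, Matrix.mul_apply, Fin.sum_univ_two, ALData.wMat, hh,
        Matrix.of_apply, Matrix.cons_val', Matrix.cons_val_zero, Matrix.cons_val_one,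
        Matrix.empty_val', Matrix.cons_val_fin_one]
      rw [hk']
      linear_combination (-((q : ℤ) * d.x * a + d.y * ((N : ℤ) * q * k))) * hxy
    · simp only [Fin.zero_eta, Fin.mk_one, Fin.isValue, Matrix.mul_apply, Fin.sum_univ_two,
        ALData.wMat, hh, Matrix.of_apply, Matrix.cons_val', Matrix.cons_val_zero,
        Matrix.cons_val_one, Matrix.empty_val', Matrix.cons_val_fin_one]
      linear_combination (-((q : ℤ) * d.x * b + d.y * e)) * hxy
    · simp only [Fin.zero_eta, Fin.mk_one, Fin.isValue, Matrix.mul_apply, Fin.sum_univ_two,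
        ALData.wMat, hh, Matrix.of_apply, Matrix.cons_val', Matrix.cons_val_zero,
        Matrix.cons_val_one, Matrix.empty_val', Matrix.cons_val_fin_one]
      rw [hk']
      linear_combination (-((N : ℤ) * q * a + q * ((N : ℤ) * q * k))) * hxy
    · simp only [Fin.mk_one, Fin.isValue, Matrix.mul_apply, Fin.sum_univ_two,
        ALData.wMat, hh, Matrix.of_apply, Matrix.cons_val', Matrix.cons_val_zero,
        Matrix.cons_val_one, Matrix.empty_val', Matrix.cons_val_fin_one]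
      linear_combination (-((N : ℤ) * q * b + q * e)) * hxy
  have hw : d.wMat.det ≠ 0 := by
    rw [d.wMat_det]
    exact_mod_cast NeZero.ne q
  have hhdet : h.det = 1 := det_eq_one_of_intertwine hw hdet hint
  refine ⟨⟨⟨h, hhdet⟩, mem_Gamma0_of_dvd ?_⟩, hint⟩
  change ((N * q : ℕ) : ℤ) ∣ h 1 0
  refine ⟨a + q * k - N * b - e, ?_⟩
  simp only [hh, Matrix.of_apply, Matrix.cons_val', Matrix.cons_val_zero, Matrix.cons_val_one,
    Matrix.empty_val', Matrix.cons_val_fin_one]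
  push_cast
  ring

/-- conjugation by the Atkin–Lehner matrix `w`. -/
def wConj {N q : ℕ} [NeZero q] (d : ALData N q) : Gamma0 (N * q) →* Gamma0 (N * q) :=
  conjHom d.wMat (by rw [d.wMat_det]; exact_mod_cast NeZero.ne q) (exists_wConj d)

theorem wConj_spec {N q : ℕ} [NeZero q] (d : ALData N q) (γ : Gamma0 (N * q)) :
    d.wMat * ((γ : SL(2, ℤ)) : Matrix (Fin 2) (Fin 2) ℤ) =
      (((wConj d γ : Gamma0 (N * q)) : SL(2, ℤ)) : Matrix (Fin 2) (Fin 2) ℤ) * d.wMat :=
  conjHom_spec _ _ _ γ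

theorem wConj_eq {N q : ℕ} [NeZero q] (d : ALData N q) {γ γ' : Gamma0 (N * q)}
    (h : d.wMat * ((γ : SL(2, ℤ)) : Matrix (Fin 2) (Fin 2) ℤ) =
      ((γ' : SL(2, ℤ)) : Matrix (Fin 2) (Fin 2) ℤ) * d.wMat) : wConj d γ = γ' :=
  conjHom_eq _ _ _ h

theorem dConj_eq (N q : ℕ) [NeZero q] {γ : Gamma0 (N * q)} {γ' : Gamma0 N}
    (h : dMat q * ((γ : SL(2, ℤ)) : Matrix (Fin 2) (Fin 2) ℤ) =
      ((γ' : SL(2, ℤ)) : Matrix (Fin 2) (Fin 2) ℤ) * dMat q) : dConj N q γ = γ' :=
  conjHom_eq _ _ _ h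

theorem trace_dConj (N q : ℕ) [NeZero q] (γ : Gamma0 (N * q)) :
    (((dConj N q γ : Gamma0 N) : SL(2, ℤ)) : Matrix (Fin 2) (Fin 2) ℤ).trace =
      ((γ : SL(2, ℤ)) : Matrix (Fin 2) (Fin 2) ℤ).trace :=
  trace_conjHom _ _ _ γ

theorem trace_wConj {N q : ℕ} [NeZero q] (d : ALData N q) (γ : Gamma0 (N * q)) :
    (((wConj d γ : Gamma0 (N * q)) : SL(2, ℤ)) : Matrix (Fin 2) (Fin 2) ℤ).trace =
      ((γ : SL(2, ℤ)) : Matrix (Fin 2) (Fin 2) ℤ).trace :=
  trace_conjHom _ _ _ γ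

theorem dConj_injective (N q : ℕ) [NeZero q] : Function.Injective (dConj N q) :=
  conjHom_injective _ _ _

theorem wConj_injective {N q : ℕ} [NeZero q] (d : ALData N q) : Function.Injective (wConj d) :=
  conjHom_injective _ _ _

theorem dMat_det_ne_zero (q : ℕ) [NeZero q] : (dMat q).det ≠ 0 := by
  rw [dMat_det]; exact_mod_cast NeZero.ne q

/-- `w γ w⁻¹ = g (δ γ δ⁻¹) g⁻¹` in `Γ₀(N)`. -/
theorem incl_wConj {N q : ℕ} [NeZero q] (d : ALData N q) (γ : Gamma0 (N * q)) :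
    incl N q (wConj d γ) = d.gG * dConj N q γ * d.gG⁻¹ := by
  rw [eq_mul_inv_iff_mul_eq]
  apply Subtype.ext
  apply Subtype.ext
  rw [Subgroup.coe_mul, Subgroup.coe_mul, Matrix.SpecialLinearGroup.coe_mul,
    Matrix.SpecialLinearGroup.coe_mul, incl_coe]
  change ((wConj d γ : Gamma0 (N * q)) : SL(2, ℤ)).1 * d.gSL.1 = d.gSL.1 * ((dConj N q γ : Gamma0 N) : SL(2, ℤ)).1
  apply mat_mul_right_cancel (dMat_det_ne_zero q)
  have h1 := wConj_spec d γ
  have h2 := dConj_spec N q γ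
  rw [d.wMat_eq] at h1
  rw [Matrix.mul_assoc, ← h1, Matrix.mul_assoc, Matrix.mul_assoc, h2]

namespace ALData

variable {N q : ℕ} (d : ALData N q)

/-- `g₀ = w² / q ∈ Γ₀(Nq)`. -/
def g0SL : SL(2, ℤ) :=
  ⟨!![(q : ℤ) * d.x ^ 2 + N * d.y, d.y * (d.x + 1); (N : ℤ) * q * (d.x + 1), N * d.y + q], by
    rw [Matrix.det_fin_two_of]
    linear_combination ((q : ℤ) * d.x - N * d.y + 1) * d.hxy⟩

theorem g0SL_mem : d.g0SL ∈ Gamma0 (N * q) := by
  apply mem_Gamma0_of_dvd
  refine ⟨d.x + 1, ?_⟩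
  simp [g0SL]

/-- `g₀` as an element of `Γ₀(Nq)`. -/
def g0 : Gamma0 (N * q) := ⟨d.g0SL, d.g0SL_mem⟩

theorem wMat_mul_wMat : d.wMat * d.wMat = (q : ℤ) • (d.g0SL : Matrix (Fin 2) (Fin 2) ℤ) := by
  ext i j
  fin_cases i <;> fin_cases j <;>
    simp [wMat, g0SL, Matrix.mul_apply, Fin.sum_univ_two, Matrix.smul_apply] <;> ring

end ALData

/-- `w (w γ w⁻¹) w⁻¹ = g₀ γ g₀⁻¹`. -/
theorem wConj_wConj {N q : ℕ} [NeZero q] (d : ALData N q) (γ : Gamma0 (N * q)) :
    wConj d (wConj d γ) = d.g0 * γ * d.g0⁻¹ := by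
  rw [eq_mul_inv_iff_mul_eq]
  apply Subtype.ext
  apply Subtype.ext
  rw [Subgroup.coe_mul, Subgroup.coe_mul, Matrix.SpecialLinearGroup.coe_mul,
    Matrix.SpecialLinearGroup.coe_mul]
  change ((wConj d (wConj d γ) : Gamma0 (N * q)) : SL(2, ℤ)).1 * d.g0SL.1 =
    d.g0SL.1 * ((γ : Gamma0 (N * q)) : SL(2, ℤ)).1
  have h1 := wConj_spec d γ
  have h2 := wConj_spec d (wConj d γ)
  have hq : (q : ℤ) ≠ 0 := by exact_mod_cast NeZero.ne q
  apply smul_right_injective _ hq
  change (q : ℤ) • (_ * _) = (q : ℤ) • (_ * _)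
  rw [← Matrix.mul_smul, ← Matrix.smul_mul, ← d.wMat_mul_wMat, ← Matrix.mul_assoc, ← h2,
    Matrix.mul_assoc, Matrix.mul_assoc, h1]

/-! ### Operators on characters -/

section Operators

/-- precomposition with a group homomorphism. -/
def precomp {G H : Type*} [Group G] [Group H] (f : G →* H) (A : Type*) [AddCommGroup A] :
    (Additive H →+ A) →+ (Additive G →+ A) where
  toFun c := c.comp (MonoidHom.toAdditive f)
  map_zero' := rfl
  map_add' _ _ := rfl

@[simp] theorem precomp_apply {G H : Type*} [Group G] [Group H] (f : G →* H) (A : Type*)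
    [AddCommGroup A] (c : Additive H →+ A) (γ : G) :
    precomp f A c (Additive.ofMul γ) = c (Additive.ofMul (f γ)) := rfl

/-- linear version. -/
def precompL {G H : Type*} [Group G] [Group H] (f : G →* H) (R : Type*) [Semiring R]
    (A : Type*) [AddCommGroup A] [Module R A] :
    (Additive H →+ A) →ₗ[R] (Additive G →+ A) where
  toFun := precomp f A
  map_add' := map_add _
  map_smul' _ _ := rfl

@[simp] theorem precompL_apply {G H : Type*} [Group G] [Group H] (f : G →* H) (R : Type*)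
    [Semiring R] (A : Type*) [AddCommGroup A] [Module R A] (c : Additive H →+ A) :
    precompL f R A c = precomp f A c := rfl

/-- characters are invariant under inner automorphisms. -/
theorem apply_conj {G : Type*} [Group G] {A : Type*} [AddCommGroup A] (c : Additive G →+ A)
    (g γ : G) : c (Additive.ofMul (g * γ * g⁻¹)) = c (Additive.ofMul γ) := by
  rw [ofMul_mul, ofMul_mul, ofMul_inv, map_add, map_add, map_neg]
  abel

variable (N q : ℕ) (A : Type*) [AddCommGroup A]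

/-- `α^*` : restriction. -/
def resA : (Additive (Gamma0 N) →+ A) →+ (Additive (Gamma0 (N * q)) →+ A) :=
  precomp (incl N q) A

/-- `β^*` : pull-back along conjugation by `diag(q,1)`. -/
def resB [NeZero q] : (Additive (Gamma0 N) →+ A) →+ (Additive (Gamma0 (N * q)) →+ A) :=
  precomp (dConj N q) A

variable {N q}

/-- the Atkin–Lehner operator `W`. -/
def opW [NeZero q] (d : ALData N q) :
    (Additive (Gamma0 (N * q)) →+ A) →+ (Additive (Gamma0 (N * q)) →+ A) :=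
  precomp (wConj d) A

variable {A}

@[simp] theorem resA_apply (c : Additive (Gamma0 N) →+ A) (γ : Gamma0 (N * q)) :
    resA N q A c (Additive.ofMul γ) = c (Additive.ofMul (incl N q γ)) := rfl

@[simp] theorem resB_apply [NeZero q] (c : Additive (Gamma0 N) →+ A) (γ : Gamma0 (N * q)) :
    resB N q A c (Additive.ofMul γ) = c (Additive.ofMul (dConj N q γ)) := rfl

@[simp] theorem opW_apply [NeZero q] (d : ALData N q) (c : Additive (Gamma0 (N * q)) →+ A)
    (γ : Gamma0 (N * q)) :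
    opW A d c (Additive.ofMul γ) = c (Additive.ofMul (wConj d γ)) := rfl

/-- `W² = 1`. -/
theorem opW_opW [NeZero q] (d : ALData N q) (c : Additive (Gamma0 (N * q)) →+ A) :
    opW A d (opW A d c) = c := by
  ext γ
  change opW A d (opW A d c) (Additive.ofMul (Additive.toMul γ)) = c (Additive.ofMul (Additive.toMul γ))
  rw [opW_apply, opW_apply, wConj_wConj, apply_conj]

/-- `β^* = W ∘ α^*`. -/
theorem resB_eq [NeZero q] (d : ALData N q) (c : Additive (Gamma0 N) →+ A) :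
    resB N q A c = opW A d (resA N q A c) := by
  ext γ
  change resB N q A c (Additive.ofMul (Additive.toMul γ)) =
    opW A d (resA N q A c) (Additive.ofMul (Additive.toMul γ))
  rw [resB_apply, opW_apply, resA_apply, incl_wConj, apply_conj]

/-- `α^* = W ∘ β^*`. -/
theorem resA_eq [NeZero q] (d : ALData N q) (c : Additive (Gamma0 N) →+ A) :
    resA N q A c = opW A d (resB N q A c) := by
  rw [resB_eq d, opW_opW]

/-! ### Admissible characters -/

theorem isAdmChar_precomp {M M' : ℕ} (f : Gamma0 M →* Gamma0 M')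
    (hf : ∀ γ : Gamma0 M, (((f γ : Gamma0 M') : SL(2, ℤ)) : Matrix (Fin 2) (Fin 2) ℤ).trace =
      ((γ : SL(2, ℤ)) : Matrix (Fin 2) (Fin 2) ℤ).trace)
    {c : Additive (Gamma0 M') →+ A} (hc : IsAdmChar c) : IsAdmChar (precomp f A c) := by
  intro γ hγ
  rw [precomp_apply]
  apply hc
  rcases hγ with hγ | hγ
  · left; rw [hf]; exact hγ
  · right; exact f.isOfFinOrder hγ

theorem isAdmChar_resA {c : Additive (Gamma0 N) →+ A} (hc : IsAdmChar c) :
    IsAdmChar (resA N q A c) :=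
  isAdmChar_precomp (incl N q) (fun _ => rfl) hc

theorem isAdmChar_resB [NeZero q] {c : Additive (Gamma0 N) →+ A} (hc : IsAdmChar c) :
    IsAdmChar (resB N q A c) :=
  isAdmChar_precomp (dConj N q) (trace_dConj N q) hc

theorem isAdmChar_opW [NeZero q] (d : ALData N q) {c : Additive (Gamma0 (N * q)) →+ A}
    (hc : IsAdmChar c) : IsAdmChar (opW A d c) :=
  isAdmChar_precomp (wConj d) (trace_wConj d) hc

/-! ### Linear versions on `XMod` -/

end Operators

section OperatorsX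

variable (N q : ℕ) (R : Type*) [Semiring R] (A : Type*) [AddCommGroup A] [Module R A]

/-- `α^*` on `XMod`. -/
def resAX : XMod N R A →ₗ[R] XMod (N * q) R A :=
  ((precompL (incl N q) R A).comp (XMod N R A).subtype).codRestrict (XMod (N * q) R A)
    fun u => isAdmChar_resA u.2

/-- `β^*` on `XMod`. -/
def resBX [NeZero q] : XMod N R A →ₗ[R] XMod (N * q) R A :=
  ((precompL (dConj N q) R A).comp (XMod N R A).subtype).codRestrict (XMod (N * q) R A)
    fun u => isAdmChar_resB u.2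

variable {N q}

/-- `W` on `XMod`. -/
def opWX [NeZero q] (d : ALData N q) : XMod (N * q) R A →ₗ[R] XMod (N * q) R A :=
  ((precompL (wConj d) R A).comp (XMod (N * q) R A).subtype).codRestrict (XMod (N * q) R A)
    fun u => isAdmChar_opW d u.2

@[simp] theorem resAX_coe (u : XMod N R A) :
    ((resAX N q R A u : XMod (N * q) R A) : Additive (Gamma0 (N * q)) →+ A) = resA N q A u := rfl

@[simp] theorem resBX_coe [NeZero q] (u : XMod N R A) :
    ((resBX N q R A u : XMod (N * q) R A) : Additive (Gamma0 (N * q)) →+ A) = resB N q A u := rfl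

@[simp] theorem opWX_coe [NeZero q] (d : ALData N q) (u : XMod (N * q) R A) :
    ((opWX R A d u : XMod (N * q) R A) : Additive (Gamma0 (N * q)) →+ A) = opW A d u := rfl

theorem opWX_opWX [NeZero q] (d : ALData N q) (u : XMod (N * q) R A) :
    opWX R A d (opWX R A d u) = u :=
  Subtype.ext (opW_opW d _)

theorem resBX_eq [NeZero q] (d : ALData N q) (u : XMod N R A) :
    resBX N q R A u = opWX R A d (resAX N q R A u) :=
  Subtype.ext (resB_eq d _)

end OperatorsX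

/-! ### `T_ℓ` commutes with `α^*` -/

section Hecke

variable {N q : ℕ} {ℓ : ℕ} [Fact ℓ.Prime] {A : Type*} [AddCommGroup A]

theorem incl_stepG (hℓM : ¬ ℓ ∣ N * q) (hℓN : ¬ ℓ ∣ N) (γ : Gamma0 (N * q))
    (x : OnePoint (ZMod ℓ)) :
    incl N q (stepG hℓM γ x) = stepG hℓN (incl N q γ) x := by
  apply Subtype.ext
  rw [incl_coe, stepG_coe, stepG_coe]
  apply stepSL_unique hℓN
  rw [incl_coe]
  exact stepSL_rel hℓM γ x

theorem heckeHom_resA (hℓM : ¬ ℓ ∣ N * q) (hℓN : ¬ ℓ ∣ N) (c : Additive (Gamma0 N) →+ A) :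
    heckeHom hℓM A (resA N q A c) = resA N q A (heckeHom hℓN A c) := by
  ext γ
  change heckeHom hℓM A (resA N q A c) (Additive.ofMul (Additive.toMul γ)) =
    resA N q A (heckeHom hℓN A c) (Additive.ofMul (Additive.toMul γ))
  rw [heckeHom_apply, resA_apply, heckeHom_apply]
  refine Finset.sum_congr rfl fun x _ => ?_
  rw [resA_apply, incl_stepG hℓM hℓN]

end Hecke

end

end Fermat.Agent.S41.Degen
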