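import Fermat.Agent.S41.Degen.CosetOp2
import Fermat.Agent.S41.Degen.Defs

/-!
# S41, block L1, leaf (D1): the corestriction `Γ₀(Nq) → Γ₀(N)` as a coset operator

* `iGL M : Gamma0 M →* GL (Fin 2) ℝ` : the common ambient embedding;
* `corRep d : OnePoint (ZMod q) → SL(2, ℤ)` (`d : ALData N q`) : representatives of
  `Γ₀(Nq)\Γ₀(N)` (`e21 (N j)`, `j mod q`, and `d.gSL = [[x, y],[N, q]]`);
* `corDatum d` : the coset datum, `corA d A` its operator (`α_*`), `resDatum` (its operator is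
  `Degen.resA`), `conjDatum` (its operator is `precomp (conjHom ..)`, e.g. `resB`, `opW`);
* `corA_resA` : `α_* α^* = q + 1`;
* `heckeDatum` : S29's `T_ℓ` as a coset datum (`heckeDatum_op : op = Betti.heckeHom`);
* `isAdmChar_op` : every coset operator between `Γ₀`'s (ambient `GL₂(ℝ)`) preserves admissible
  characters.
-/

set_option autoImplicit false
set_option maxHeartbeats 400000

namespace Fermat.Agent.S41.Degen.Cor

open CongruenceSubgroup Matrix.SpecialLinearGroup Function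
open Fermat.Agent.S41.Degen.CosetOp
open Fermat.Agent.S29.Betti
open P2MW.S_ModularForm_heckeT_slash_eq_self_of_mem_Gamma0.ModularForm.HeckeSlashInvariance
open scoped MatrixGroups

noncomputable section

/-! ### The ambient embedding -/

/-- `Γ₀(M) → GL₂(ℝ)`. -/
abbrev iGL (M : ℕ) : Gamma0 M →* GL (Fin 2) ℝ := (mapGL ℝ).comp (Gamma0 M).subtype

theorem iGL_injective (M : ℕ) : Injective (iGL M) :=
  mapGL_injective.comp Subtype.val_injective

theorem iGL_apply (M : ℕ) (γ : Gamma0 M) : iGL M γ = mapGL ℝ (γ : SL(2, ℤ)) := rfl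

/-! ### Lower-left entries -/

theorem mul_inv_one_zero (h k : SL(2, ℤ)) :
    (h * k⁻¹) 1 0 = h 1 0 * k 1 1 - h 1 1 * k 1 0 := by
  rw [Matrix.SpecialLinearGroup.coe_mul, Matrix.SpecialLinearGroup.coe_inv,
    Matrix.adjugate_fin_two, Matrix.mul_apply, Fin.sum_univ_two]
  simp
  ring

theorem mul_one_zero (h k : SL(2, ℤ)) :
    (h * k) 1 0 = h 1 0 * k 0 0 + h 1 1 * k 1 0 := by
  rw [Matrix.SpecialLinearGroup.coe_mul, Matrix.mul_apply, Fin.sum_univ_two]

/-! ### The representatives -/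

/-- the lower unipotent matrix. -/
def e21 (t : ℤ) : SL(2, ℤ) := ⟨!![1, 0; t, 1], by simp [Matrix.det_fin_two_of]⟩

@[simp] theorem e21_one_zero (t : ℤ) : (e21 t) 1 0 = t := rfl
@[simp] theorem e21_one_one (t : ℤ) : (e21 t) 1 1 = 1 := rfl
@[simp] theorem e21_zero_zero (t : ℤ) : (e21 t) 0 0 = 1 := rfl
@[simp] theorem e21_zero_one (t : ℤ) : (e21 t) 0 1 = 0 := rfl

variable {N q : ℕ}

theorem coprime_of_ALData (d : ALData N q) : Nat.Coprime q N := by
  rw [← Nat.isCoprime_iff_coprime]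
  exact ⟨d.x, -d.y, by linear_combination d.hxy⟩

@[simp] theorem gSL_one_zero (d : ALData N q) : d.gSL 1 0 = (N : ℤ) := rfl
@[simp] theorem gSL_one_one (d : ALData N q) : d.gSL 1 1 = (q : ℤ) := rfl

/-- representatives of `Γ₀(Nq)\Γ₀(N)`, indexed by `ℙ¹(𝔽_q)`. -/
def corRep (d : ALData N q) (x : OnePoint (ZMod q)) : SL(2, ℤ) :=
  x.elim (d.gSL) (fun j => e21 ((N : ℤ) * (j.val : ℤ)))

@[simp] theorem corRep_infty (d : ALData N q) :
    corRep d (OnePoint.infty) = d.gSL := rfl

@[simp] theorem corRep_coe (d : ALData N q) (j : ZMod q) :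
    corRep d (j : OnePoint (ZMod q)) = e21 ((N : ℤ) * (j.val : ℤ)) := rfl

theorem corRep_mem (d : ALData N q) (x : OnePoint (ZMod q)) :
    corRep d x ∈ Gamma0 N := by
  apply mem_Gamma0_of_dvd
  induction x using OnePoint.rec with
  | infty => simp
  | coe j => simp

/-- **the key lemma**: a matrix of `Γ₀(N)` lies in exactly one coset `Γ₀(Nq) · corRep y`. -/
theorem existsUnique_corRep (hq : q.Prime) (d : ALData N q) (h : SL(2, ℤ))
    (hN : (N : ℤ) ∣ h 1 0) :
    ∃! y : OnePoint (ZMod q), h * (corRep d y)⁻¹ ∈ Gamma0 (N * q) := by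
  have : Fact q.Prime := ⟨hq⟩
  have hqN : Nat.Coprime q N := coprime_of_ALData d
  obtain ⟨c₀, hc₀⟩ := hN
  have hdet := det_eq h
  have hqN' : IsCoprime (q : ℤ) (N : ℤ) := by
    rw [Int.isCoprime_iff_gcd_eq_one]
    simpa [Int.gcd_natCast_natCast] using hqN
  -- membership criteria
  have hmem_inf : h * (corRep d OnePoint.infty)⁻¹ ∈ Gamma0 (N * q) ↔ (q : ℤ) ∣ h 1 1 := by
    constructor
    · intro hm
      have h1 := dvd_of_mem_Gamma0 ⟨_, hm⟩
      simp only [corRep_infty] at h1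
      rw [mul_inv_one_zero, gSL_one_one, gSL_one_zero, hc₀] at h1
      have h2 : (q : ℤ) ∣ h 1 1 * N := by
        have h3 : (q : ℤ) ∣ (N : ℤ) * c₀ * q - h 1 1 * N :=
          (Dvd.intro_left _ rfl : (q : ℤ) ∣ (N : ℤ) * q).trans (by exact_mod_cast h1)
        have h4 : (q : ℤ) ∣ (N : ℤ) * c₀ * q := Dvd.intro_left _ rfl
        exact (Int.dvd_neg.mp ((Int.dvd_add_right h4).mp (by rwa [sub_eq_add_neg] at h3)))
      exact hqN'.dvd_of_dvd_mul_right h2
    · rintro ⟨d', hd'⟩
      apply mem_Gamma0_of_dvd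
      simp only [corRep_infty]
      rw [mul_inv_one_zero, gSL_one_one, gSL_one_zero, hc₀, hd']
      exact ⟨c₀ - d', by push_cast; ring⟩
  have hmem_coe : ∀ j : ZMod q, h * (corRep d (j : OnePoint (ZMod q)))⁻¹ ∈ Gamma0 (N * q) ↔
      ((c₀ : ℤ) : ZMod q) = ((h 1 1 : ℤ) : ZMod q) * j := by
    intro j
    have hentry : (h * (corRep d (j : OnePoint (ZMod q)))⁻¹) 1 0 =
        (N : ℤ) * (c₀ - h 1 1 * (j.val : ℤ)) := by
      rw [corRep_coe, mul_inv_one_zero, e21_one_one, e21_one_zero, hc₀]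
      ring
    have hcast : (((c₀ - h 1 1 * (j.val : ℤ) : ℤ)) : ZMod q) =
        ((c₀ : ℤ) : ZMod q) - ((h 1 1 : ℤ) : ZMod q) * j := by
      push_cast
      rw [ZMod.natCast_zmod_val]
    constructor
    · intro hm
      have h1 := dvd_of_mem_Gamma0 ⟨_, hm⟩
      simp only [] at h1
      rw [hentry] at h1
      have h2 : (q : ℤ) ∣ c₀ - h 1 1 * (j.val : ℤ) := by
        have hN0 : (N : ℤ) ≠ 0 := by
          intro h0
          have : N = 0 := by exact_mod_cast h0
          subst this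
          simp at hqN
          exact hq.one_lt.ne' hqN
        have h3 : (N : ℤ) * (q : ℤ) ∣ (N : ℤ) * (c₀ - h 1 1 * (j.val : ℤ)) := by exact_mod_cast h1
        exact (mul_dvd_mul_iff_left hN0).mp h3
      have h3 := (ZMod.intCast_zmod_eq_zero_iff_dvd _ q).mpr h2
      rw [hcast] at h3
      exact sub_eq_zero.mp h3
    · intro hj
      apply mem_Gamma0_of_dvd
      rw [hentry]
      have h2 : (q : ℤ) ∣ c₀ - h 1 1 * (j.val : ℤ) := by
        apply (ZMod.intCast_zmod_eq_zero_iff_dvd _ q).mp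
        rw [hcast, hj, sub_self]
      obtain ⟨e, he⟩ := h2
      exact ⟨e, by rw [he]; push_cast; ring⟩
  by_cases hd : (q : ℤ) ∣ h 1 1
  · refine ⟨OnePoint.infty, hmem_inf.mpr hd, ?_⟩
    intro y hy
    induction y using OnePoint.rec with
    | infty => rfl
    | coe j =>
      exfalso
      have h1 := (hmem_coe j).mp hy
      have hd0 : ((h 1 1 : ℤ) : ZMod q) = 0 := (ZMod.intCast_zmod_eq_zero_iff_dvd _ q).mpr hd
      rw [hd0, zero_mul] at h1
      have hc0 : (q : ℤ) ∣ c₀ := (ZMod.intCast_zmod_eq_zero_iff_dvd _ q).mp h1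
      have hc : (q : ℤ) ∣ h 1 0 := by rw [hc₀]; exact Dvd.dvd.mul_left hc0 _
      have h1' : (q : ℤ) ∣ 1 := by
        rw [← hdet]
        exact Dvd.dvd.sub (Dvd.dvd.mul_left hd _) (Dvd.dvd.mul_left hc _)
      have := Int.eq_one_of_dvd_one (by positivity) h1'
      have : q = 1 := by exact_mod_cast this
      exact hq.one_lt.ne' this
  · have hd0 : ((h 1 1 : ℤ) : ZMod q) ≠ 0 := fun h0 =>
      hd ((ZMod.intCast_zmod_eq_zero_iff_dvd _ q).mp h0)
    refine ⟨((((c₀ : ℤ) : ZMod q) * (((h 1 1 : ℤ) : ZMod q))⁻¹ : ZMod q) : OnePoint (ZMod q)),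
      (hmem_coe _).mpr ?_, ?_⟩
    · field_simp
    · intro y hy
      induction y using OnePoint.rec with
      | infty => exact absurd (hmem_inf.mp hy) hd
      | coe j =>
        have h1 := (hmem_coe j).mp hy
        congr 1
        rw [h1]
        field_simp

/-- the `ofReps` hypothesis for `corRep`. -/
theorem existsUnique_step (hq : q.Prime) (d : ALData N q) (γ : Gamma0 N)
    (x : OnePoint (ZMod q)) :
    ∃! y : OnePoint (ZMod q), ∃ s : Gamma0 (N * q),
      corRep d x * (Gamma0 N).subtype γ =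
        (Gamma0 (N * q)).subtype s * corRep d y := by
  have hN : (N : ℤ) ∣ (corRep d x * (γ : SL(2, ℤ))) 1 0 := by
    have := dvd_of_mem_Gamma0
      ((⟨corRep d x, corRep_mem d x⟩ : Gamma0 N) * γ)
    simpa [Subgroup.coe_mul] using this
  obtain ⟨y, hy, huniq⟩ := existsUnique_corRep hq d _ hN
  refine ⟨y, ⟨⟨_, hy⟩, by simp⟩, ?_⟩
  rintro y' ⟨s, hs⟩
  apply huniq
  have h1 : corRep d x * (γ : SL(2, ℤ)) * (corRep d y')⁻¹ = (s : SL(2, ℤ)) := by
    have hs' : corRep d x * (γ : SL(2, ℤ)) = (s : SL(2, ℤ)) * corRep d y' := hs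
    rw [hs', mul_inv_cancel_right]
  rw [h1]
  exact s.2

/-! ### The data -/

variable [Fact q.Prime]

/-- the transversal datum inside `SL(2, ℤ)`. -/
def corDatumSL (d : ALData N q) :
    Datum (Gamma0 N).subtype (Gamma0 (N * q)).subtype (OnePoint (ZMod q)) :=
  Datum.ofReps (corRep d) (existsUnique_step Fact.out d)

/-- **the corestriction datum** `Γ₀(Nq)\Γ₀(N)`, in the ambient `GL₂(ℝ)`. -/
def corDatum (d : ALData N q) :
    Datum (iGL N) (iGL (N * q)) (OnePoint (ZMod q)) :=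
  (corDatumSL d).map (mapGL ℝ)

@[simp] theorem corDatum_rep (d : ALData N q) (x : OnePoint (ZMod q)) :
    (corDatum d).rep x = mapGL ℝ (corRep d x) := rfl

theorem corDatum_rep_infty (d : ALData N q) :
    (corDatum d).rep OnePoint.infty = mapGL ℝ d.gSL := rfl

theorem corDatum_rep_coe (d : ALData N q) (j : ZMod q) :
    (corDatum d).rep (j : OnePoint (ZMod q)) = mapGL ℝ (e21 ((N : ℤ) * (j.val : ℤ))) := rfl

/-- the defining relation of `corDatum`, inside `SL(2, ℤ)`. -/
theorem corDatum_rel_SL (d : ALData N q) (γ : Gamma0 N) (x : OnePoint (ZMod q)) :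
    corRep d x * (γ : SL(2, ℤ)) =
      (((corDatum d).step γ x : Gamma0 (N * q)) : SL(2, ℤ)) *
        corRep d ((corDatum d).act γ x) :=
  (corDatumSL d).rel γ x

/-- uniqueness of the target coset (for `act_eq_of_unique`). -/
theorem corDatum_unique (d : ALData N q) (γ : Gamma0 N)
    (x y : OnePoint (ZMod q)) (s : Gamma0 (N * q))
    (hs : (corDatum d).rep x * iGL N γ = iGL (N * q) s * (corDatum d).rep y) :
    y = (corDatum d).act γ x := by
  apply Datum.ofReps_unique (ι₁ := (Gamma0 N).subtype) (ι₂ := (Gamma0 (N * q)).subtype)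
    (corRep d) (existsUnique_step Fact.out d) γ x y s
  apply mapGL_injective (R := ℤ) (S := ℝ)
  simpa [map_mul] using hs

/-- uniqueness of the target coset, `SL(2, ℤ)` form: if `corRep x · γ · (corRep y)⁻¹ ∈ Γ₀(Nq)`
then `y = act γ x`. -/
theorem corDatum_act_eq (d : ALData N q) (γ : Gamma0 N) (x y : OnePoint (ZMod q))
    (h : corRep d x * (γ : SL(2, ℤ)) * (corRep d y)⁻¹ ∈ Gamma0 (N * q)) :
    (corDatum d).act γ x = y := by
  symm
  apply Datum.ofReps_unique (ι₁ := (Gamma0 N).subtype) (ι₂ := (Gamma0 (N * q)).subtype)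
    (corRep d) (existsUnique_step Fact.out d) γ x y ⟨_, h⟩
  simp

/-- the restriction datum (one coset, representative `1`). -/
def resDatum (N q : ℕ) : Datum (iGL (N * q)) (iGL N) Unit :=
  Datum.ofHom (incl N q) 1 (fun γ => by rw [one_mul, mul_one]; rfl)

theorem resDatum_op (N q : ℕ) (A : Type*) [AddCommGroup A] :
    (resDatum N q).op (iGL_injective _) A = resA N q A := by
  refine AddMonoidHom.ext fun c => AddMonoidHom.ext fun γ => ?_
  exact Datum.op_ofHom (iGL_injective N) A (incl N q) 1 _ c (Additive.toMul γ)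

/-- `α_*` : corestriction `Hom(Γ₀(Nq), A) → Hom(Γ₀(N), A)`. -/
def corA (d : ALData N q) (A : Type*) [AddCommGroup A] :
    (Additive (Gamma0 (N * q)) →+ A) →+ (Additive (Gamma0 N) →+ A) :=
  (corDatum d).op (iGL_injective _) A

theorem corA_apply (d : ALData N q) (A : Type*) [AddCommGroup A]
    (c : Additive (Gamma0 (N * q)) →+ A) (γ : Gamma0 N) :
    corA d A c (Additive.ofMul γ) =
      ∑ x : OnePoint (ZMod q), c (Additive.ofMul ((corDatum d).step γ x)) := rfl

theorem card_onePoint_zmod : Fintype.card (OnePoint (ZMod q)) = q + 1 := by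
  have : NeZero q := ⟨(Fact.out : q.Prime).ne_zero⟩
  change Fintype.card (Option (ZMod q)) = q + 1
  rw [Fintype.card_option, ZMod.card]

/-- **(I1)**, pointwise: `α_* α^* = q + 1`. -/
theorem corA_resA_apply (d : ALData N q) (A : Type*) [AddCommGroup A]
    (c : Additive (Gamma0 N) →+ A) (γ : Gamma0 N) :
    corA d A (resA N q A c) (Additive.ofMul γ) = (q + 1) • c (Additive.ofMul γ) := by
  unfold corA
  rw [← resDatum_op,
    ← Datum.op_comp (corDatum d) (resDatum N q) (iGL_injective _) (iGL_injective _)]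
  rw [Datum.op_eq_card_smul _ (iGL_injective N) A
    (fun z => (⟨corRep d z.2, corRep_mem d z.2⟩ : Gamma0 N))
    (fun z => by
      rw [Datum.comp_rep]
      change (1 : GL (Fin 2) ℝ) * mapGL ℝ (corRep d z.2) = _
      rw [one_mul]
      rfl)]
  rw [Fintype.card_prod, Fintype.card_unit, one_mul, card_onePoint_zmod]

/-- **(I1)** `α_* α^* = q + 1`. -/
theorem corA_resA (d : ALData N q) (A : Type*) [AddCommGroup A]
    (c : Additive (Gamma0 N) →+ A) :
    corA d A (resA N q A c) = (q + 1) • c := by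
  ext γ
  exact corA_resA_apply d A c (Additive.toMul γ)

/-! ### `T_ℓ` as a coset datum -/

section Hecke

variable {ℓ : ℕ} [Fact ℓ.Prime] (hℓN : ¬ ℓ ∣ N)

/-- S29's `T_ℓ` on `Hom(Γ₀(N), A)` as a coset datum. -/
def heckeDatum : Datum (iGL N) (iGL N) (OnePoint (ZMod ℓ)) where
  rep := heckeRep ℓ
  act γ x := redMatrix ℓ (γ : SL(2, ℤ)) • x
  step γ x := stepG hℓN γ x
  rel γ x := stepSL_rel hℓN γ x
  act_one x := by rw [OneMemClass.coe_one, redMatrix_one, one_smul]
  act_mul γ₁ γ₂ x := by rw [Subgroup.coe_mul, redMatrix_mul, mul_smul]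

theorem heckeDatum_op (A : Type*) [AddCommGroup A] :
    (heckeDatum hℓN).op (iGL_injective N) A = heckeHom hℓN A := by
  ext c γ
  rfl

end Hecke

/-! ### Preservation of admissible characters -/

section Adm

variable {M₁ M₂ : ℕ} {P : Type*} [Fintype P]

theorem trace_eq_of_conj {s : Gamma0 M₂} {g : Gamma0 M₁} {R : GL (Fin 2) ℝ}
    (h : iGL M₂ s = R * iGL M₁ g * R⁻¹) :
    ((s : SL(2, ℤ)) : Matrix (Fin 2) (Fin 2) ℤ).trace =
      ((g : SL(2, ℤ)) : Matrix (Fin 2) (Fin 2) ℤ).trace := by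
  have h1 : ((iGL M₂ s : GL (Fin 2) ℝ) : Matrix (Fin 2) (Fin 2) ℝ).trace =
      ((iGL M₁ g : GL (Fin 2) ℝ) : Matrix (Fin 2) (Fin 2) ℝ).trace := by
    rw [h, Units.val_mul, Units.val_mul]
    exact Matrix.trace_units_conj R _
  rw [Matrix.trace_fin_two, Matrix.trace_fin_two] at h1
  simp only [iGL_apply, mapGL_apply] at h1
  rw [Matrix.trace_fin_two, Matrix.trace_fin_two]
  exact_mod_cast h1

theorem isOfFinOrder_of_conj {s : Gamma0 M₂} {g : Gamma0 M₁} {R : GL (Fin 2) ℝ}
    (h : iGL M₂ s = R * iGL M₁ g * R⁻¹) (hg : IsOfFinOrder g) : IsOfFinOrder s := by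
  rw [isOfFinOrder_iff_pow_eq_one] at hg ⊢
  obtain ⟨k, hk, hgk⟩ := hg
  refine ⟨k, hk, ?_⟩
  apply iGL_injective M₂
  rw [map_pow, h, map_one]
  rw [conj_pow, ← map_pow, hgk, map_one, mul_one, mul_inv_cancel]

/-- **every coset operator between `Γ₀`'s preserves admissible characters.** -/
theorem isAdmChar_op (D : Datum (iGL M₁) (iGL M₂) P) {A : Type*} [AddCommGroup A]
    {c : Additive (Gamma0 M₂) →+ A} (hc : IsAdmChar c) :
    IsAdmChar (D.op (iGL_injective M₂) A c) := by
  classical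
  intro γ hγ
  apply Datum.op_apply_eq_zero
  intro x m hm hfix
  apply hc
  have hconj := D.map_step_of_fixed (γ ^ m) x hfix
  rcases hγ with hγ | hγ
  · left
    rw [trace_eq_of_conj hconj, SubgroupClass.coe_pow]
    exact trace_sq_pow_SL hγ m
  · right
    exact isOfFinOrder_of_conj hconj hγ.pow

end Adm

/-! ### `XMod` versions -/

section XModVersions

variable (R : Type*) [Semiring R] (A : Type*) [AddCommGroup A] [Module R A]

/-- `α_*` on `XMod`. -/
def corAX (d : ALData N q) : XMod (N * q) R A →ₗ[R] XMod N R A :=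
  (((corDatum d).opL (iGL_injective _) A R).comp (XMod (N * q) R A).subtype).codRestrict
    (XMod N R A) fun u => isAdmChar_op (corDatum d) u.2

@[simp] theorem corAX_coe (d : ALData N q) (u : XMod (N * q) R A) :
    ((corAX R A d u : XMod N R A) : Additive (Gamma0 N) →+ A) = corA d A u := rfl

/-- **(I1)** on `XMod`. -/
theorem corAX_resAX (d : ALData N q) (u : XMod N R A) :
    corAX R A d (resAX N q R A u) = (q + 1) • u :=
  Subtype.ext (corA_resA d A u)

end XModVersions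

/-! ### Conjugation homomorphisms as one-element data -/

section ConjDatum

/-- an integer matrix of non-zero determinant, in `GL₂(ℝ)`. -/
def matGL (D : Matrix (Fin 2) (Fin 2) ℤ) (hD : D.det ≠ 0) : GL (Fin 2) ℝ :=
  Matrix.GeneralLinearGroup.mkOfDetNeZero ((Int.castRingHom ℝ).mapMatrix D) (by
    rw [← RingHom.map_det]
    simpa using hD)

@[simp] theorem matGL_coe (D : Matrix (Fin 2) (Fin 2) ℤ) (hD : D.det ≠ 0) :
    ((matGL D hD : GL (Fin 2) ℝ) : Matrix (Fin 2) (Fin 2) ℝ) = (Int.castRingHom ℝ).mapMatrix D :=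
  rfl

theorem iGL_coe (M : ℕ) (γ : Gamma0 M) :
    ((iGL M γ : GL (Fin 2) ℝ) : Matrix (Fin 2) (Fin 2) ℝ) =
      (Int.castRingHom ℝ).mapMatrix ((γ : SL(2, ℤ)) : Matrix (Fin 2) (Fin 2) ℤ) := by
  ext i j
  simp [iGL_apply]

variable {M₁ M₂ : ℕ} (D : Matrix (Fin 2) (Fin 2) ℤ) (hD : D.det ≠ 0)
  (ex : ∀ γ : Gamma0 M₁, ∃ γ' : Gamma0 M₂, D * ((γ : SL(2, ℤ)) : Matrix (Fin 2) (Fin 2) ℤ) =
    ((γ' : SL(2, ℤ)) : Matrix (Fin 2) (Fin 2) ℤ) * D)

/-- the one-element datum of `conjHom D` (representative `D ∈ GL₂(ℝ)`). -/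
def conjDatum : Datum (iGL M₁) (iGL M₂) Unit :=
  Datum.ofHom (conjHom D hD ex) (matGL D hD) (fun γ => by
    apply Units.ext
    rw [Units.val_mul, Units.val_mul, matGL_coe, iGL_coe, iGL_coe, ← map_mul, ← map_mul,
      conjHom_spec D hD ex γ])

@[simp] theorem conjDatum_rep (u : Unit) : (conjDatum D hD ex).rep u = matGL D hD := rfl

@[simp] theorem conjDatum_step (γ : Gamma0 M₁) (u : Unit) :
    (conjDatum D hD ex).step γ u = conjHom D hD ex γ := rfl

theorem conjDatum_op (A : Type*) [AddCommGroup A] :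
    (conjDatum D hD ex).op (iGL_injective _) A = precomp (conjHom D hD ex) A := by
  refine AddMonoidHom.ext fun c => AddMonoidHom.ext fun γ => ?_
  exact Datum.op_ofHom (iGL_injective M₂) A (conjHom D hD ex) (matGL D hD) _ c (Additive.toMul γ)

end ConjDatum

end

end Fermat.Agent.S41.Degen.Cor
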