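import Fermat.Agent.S41.Degen.UDatum
import Fermat.Agent.S29.Betti.PeriodHecke

/-!
# S41: the period map intertwines `U_q` on cusp forms with the Betti `U_q` (`Degen.heckeU`)

`periodMap_heckeULin : periodMap M (CuspForm.heckeULin 2 hqM f) = heckeU ℂ hqM (periodMap M f)`
for `q` prime, `q ∣ M` (S16 `periodPoly_heckeU_explicit` + `perFun_comp_eq_sum`, exactly as
S29 `periodMap_heckeTLin`).
-/

set_option autoImplicit false

noncomputable section

namespace Fermat.Agent.S41.Degen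

open UpperHalfPlane CongruenceSubgroup Matrix.SpecialLinearGroup Polynomial ModularForm
open ModularCurve ModularCurve.Period Fermat.Agent.S22 Fermat.Agent.S21 Fermat.Agent.S23
open P2MW.S_ModularForm_heckeT_slash_eq_self_of_mem_Gamma0.ModularForm.HeckeSlashInvariance
open Fermat.Agent.S29.Betti Fermat.Agent.S41.Degen.Cor Fermat.Agent.S41.Degen.CosetOp
open scoped MatrixGroups ModularForm Manifold

variable {M q : ℕ} [NeZero M] [Fact q.Prime]

/-- the steps of `uDatum` satisfy the relation with `affinePerm`. -/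
theorem uDatum_rel_affinePerm (hqM : q ∣ M) (γ : Gamma0 M)
    (hc0 : ((((γ : SL(2, ℤ)) 1 0 : ℤ)) : ZMod q) = 0) (x : ZMod q) :
    heckeMatrix q x.val * mapGL ℝ (γ : SL(2, ℤ)) =
      mapGL ℝ (((uDatum hqM).step γ x : Gamma0 M) : SL(2, ℤ)) *
        heckeMatrix q (affinePerm (γ : SL(2, ℤ)) hc0 x).val := by
  have hcM : (M : ℤ) ∣ (γ : SL(2, ℤ)) 1 0 := dvd_of_mem_Gamma0 γ
  have hc : (q : ℤ) ∣ (γ : SL(2, ℤ)) 1 0 := (ZMod.intCast_zmod_eq_zero_iff_dvd _ _).mp hc0
  obtain ⟨g', hg', hmul⟩ := heckeMatrix_mul_of_dvd (γ : SL(2, ℤ)) hc x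
  have hmem : g' ∈ Gamma0 M := mem_Gamma0_of_dvd (by rw [hg']; exact Dvd.dvd.mul_left hcM _)
  have h := (uDatum_act_step_eq hqM (γ := γ) (s := ⟨g', hmem⟩) hmul).2
  rw [h]
  exact hmul

/-- **The period map intertwines `U_q`.** -/
theorem periodMap_heckeULin (hqM : q ∣ M) (f : CuspForm (Gamma0 M) 2) :
    periodMap M (CuspForm.heckeULin 2 hqM f) = heckeU ℂ hqM (periodMap M f) := by
  refine AddMonoidHom.ext fun γ => ?_
  obtain ⟨γ, rfl⟩ := Additive.ofMul.surjective γ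
  have hcM : (M : ℤ) ∣ (γ : SL(2, ℤ)) 1 0 := dvd_of_mem_Gamma0 γ
  have hc : (q : ℤ) ∣ (γ : SL(2, ℤ)) 1 0 := (Int.natCast_dvd_natCast.mpr hqM).trans hcM
  have hc0 : ((((γ : SL(2, ℤ)) 1 0 : ℤ)) : ZMod q) = 0 :=
    (ZMod.intCast_zmod_eq_zero_iff_dvd _ _).mpr hc
  have h := Fermat.Agent.S16.Lower.perFun_comp_eq_sum M (CuspForm.heckeULin 2 hqM) γ
    (fun x => (uDatum hqM).step γ x)
    (fun x => heckeMatrix q (affinePerm (γ : SL(2, ℤ)) hc0 x).val)
    (fun f => Fermat.Agent.S16.Lower.periodPoly_heckeU_explicit 0 hqM (γ : SL(2, ℤ)) hc0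
      (fun x => (((uDatum hqM).step γ x : Gamma0 M) : SL(2, ℤ)))
      (fun x => ((uDatum hqM).step γ x).2) (uDatum_rel_affinePerm hqM γ hc0) f)
  have h2 := LinearMap.congr_fun h f
  rw [LinearMap.comp_apply, perFun_apply, LinearMap.sum_apply] at h2
  rw [h2, heckeU_apply]
  rfl

omit [NeZero M] in
/-- `U_q` is linear for every module structure on the coefficients. -/
theorem heckeU_smul (hqM : q ∣ M) {R : Type*} [Semiring R] {A : Type*} [AddCommGroup A]
    [Module R A] (a : R) (c : Additive (Gamma0 M) →+ A) :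
    heckeU A hqM (a • c) = a • heckeU A hqM c :=
  ((uDatum hqM).opL (iGL_injective M) A R).map_smul a c

/-- the `U`-package for `Betti.Transport` / `Betti.NewLift` at level `N q`, `Hom`-level form of
`heckeUX_heckeUX_castX`. -/
theorem heckeU_heckeU_castX {N q : ℕ} [NeZero N] [NeZero (N * q)] [Fact q.Prime] (d : ALData N q)
    {c : XMod (N * q) ℤ ℤ} (h1 : corAX ℤ ℤ d c = 0) (h2 : corAX ℤ ℤ d (opWX ℤ ℤ d c) = 0) :
    heckeU ℂ (q_dvd N q) (heckeU ℂ (q_dvd N q)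
      ((Fermat.Agent.S41.Betti.LatticeSpan.castX (N * q) c : XMod (N * q) ℂ ℂ) :
        Additive (Gamma0 (N * q)) →+ ℂ)) =
      ((Fermat.Agent.S41.Betti.LatticeSpan.castX (N * q) c : XMod (N * q) ℂ ℂ) :
        Additive (Gamma0 (N * q)) →+ ℂ) :=
  congrArg Subtype.val (heckeUX_heckeUX_castX d h1 h2)

end Fermat.Agent.S41.Degen
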