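import Mathlib

/-!
# S41, block L1 (degeneracy maps), leaf (L1a): abstract coset operators

All the operators of the level-raising argument on the Betti model `Hom(Γ₀(M), A)`
(`α^*`, `β^*`, `α_*`, `β_*`, `T_ℓ`, `U_q`, `w_q`) have the same shape: there is an ambient group `G`
(e.g. `GL₂(ℚ)`), two groups `Γ₁`, `Γ₂` mapping to `G`, and a finite family of elements
`r_x ∈ G` (`x ∈ P`) such that `r_x · γ = step γ x · r_{act γ x}` with `step γ x ∈ Γ₂`; the operator
is `Hom(Γ₂, A) → Hom(Γ₁, A)`, `c ↦ (γ ↦ ∑_x c (step γ x))`.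

* `Datum ι₁ ι₂ P` : such a family; `Datum.ofReps` builds one from representatives whose cosets
  `ι₂ Γ₂ · r_x` are permuted simply transitively-by-uniqueness;
* `Datum.op` : the operator; `op_comp` : composition = product family;
* `op_eq_of_rep_eq` : the operator only depends on the cosets `ι₂ Γ₂ · r_x`;
* `op_eq_card_smul` : all representatives in `ι Γ`, then the operator is `card P • id`;
* `op_apply_eq_zero` : the cycle argument (`ι₂ (step (γ^m) x) = r_x ι₁(γ)^m r_x⁻¹`).
-/

set_option autoImplicit false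
set_option maxHeartbeats 400000

namespace Fermat.Agent.S41.Degen.CosetOp

open Function

/-! ### Orbit sums (cycle decomposition of a finite permutation) -/

theorem minimalPeriod_pos_perm {α : Type*} [Finite α] (σ : Equiv.Perm α) (x : α) :
    0 < minimalPeriod σ x := by
  apply minimalPeriod_pos_of_mem_periodicPts
  have h : IsPeriodicPt σ (orderOf σ) x := by
    unfold IsPeriodicPt IsFixedPt
    rw [Equiv.Perm.iterate_eq_pow, pow_orderOf_eq_one]
    rfl
  exact mk_mem_periodicPts (orderOf_pos σ) h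

theorem pow_minimalPeriod_apply {α : Type*} (σ : Equiv.Perm α) (x : α) :
    (σ ^ minimalPeriod σ x) x = x := by
  have := isPeriodicPt_minimalPeriod σ x
  unfold IsPeriodicPt IsFixedPt at this
  rwa [Equiv.Perm.iterate_eq_pow] at this

/-- if all orbit sums vanish, the total sum vanishes. -/
theorem sum_eq_zero_of_cycle_sums {α : Type*} [Fintype α] [DecidableEq α] (σ : Equiv.Perm α)
    {A : Type*} [AddCommMonoid A] (f : α → A)
    (h : ∀ x, ∑ j ∈ Finset.range (minimalPeriod σ x), f ((σ ^ j) x) = 0) :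
    ∑ x, f x = 0 := by
  have key : ∀ n : ℕ, ∀ U : Finset α, U.card = n → (∀ x ∈ U, σ x ∈ U) → ∑ x ∈ U, f x = 0 := by
    intro n
    induction n using Nat.strong_induction_on with
    | _ n ih =>
      intro U hU hinv
      rcases U.eq_empty_or_nonempty with rfl | ⟨x, hx⟩
      · simp
      set m := minimalPeriod σ x with hm
      have hmpos : 0 < m := minimalPeriod_pos_perm σ x
      have hpow : ∀ j : ℕ, (σ ^ j) x ∈ U := by
        intro j
        induction j with
        | zero => simpa using hx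
        | succ j ihj => rw [pow_succ', Equiv.Perm.mul_apply]; exact hinv _ ihj
      set O : Finset α := (Finset.range m).image (fun j => (σ ^ j) x) with hO
      have hOU : O ⊆ U := by
        intro y hy
        rw [hO, Finset.mem_image] at hy
        obtain ⟨j, -, rfl⟩ := hy
        exact hpow j
      have hxO : x ∈ O := by
        rw [hO, Finset.mem_image]
        exact ⟨0, Finset.mem_range.mpr hmpos, by simp⟩
      have hOinv : ∀ y, σ y ∈ O → y ∈ O := by
        intro y hy
        rw [hO, Finset.mem_image] at hy ⊢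
        obtain ⟨j, hj, hjy⟩ := hy
        rcases Nat.eq_zero_or_pos j with rfl | hjpos
        · refine ⟨m - 1, Finset.mem_range.mpr (by omega), ?_⟩
          apply σ.injective
          rw [← Equiv.Perm.mul_apply, ← pow_succ', show m - 1 + 1 = m by omega, hm,
            pow_minimalPeriod_apply, ← hjy]
          simp
        · refine ⟨j - 1, Finset.mem_range.mpr (by have := Finset.mem_range.mp hj; omega), ?_⟩
          apply σ.injective
          rw [← Equiv.Perm.mul_apply, ← pow_succ', show j - 1 + 1 = j by omega, hjy]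
      have hsdiff_inv : ∀ y ∈ U \ O, σ y ∈ U \ O := by
        intro y hy
        rw [Finset.mem_sdiff] at hy ⊢
        exact ⟨hinv y hy.1, fun hc => hy.2 (hOinv y hc)⟩
      have hcard : (U \ O).card < n := by
        rw [← hU]
        apply Finset.card_lt_card
        refine ⟨Finset.sdiff_subset, fun hsub => ?_⟩
        have := hsub hx
        rw [Finset.mem_sdiff] at this
        exact this.2 hxO
      have h1 := ih _ hcard (U \ O) rfl hsdiff_inv
      have h2 : ∑ y ∈ O, f y = 0 := by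
        rw [hO, Finset.sum_image]
        · exact h x
        · intro i hi j hj hij
          have hinj := iterate_injOn_Iio_minimalPeriod (f := σ) (x := x)
          apply hinj
          · simpa using Finset.mem_range.mp hi
          · simpa using Finset.mem_range.mp hj
          · simpa [Equiv.Perm.iterate_eq_pow] using hij
      rw [← Finset.sum_sdiff hOU, h1, h2, add_zero]
  simpa using key _ Finset.univ rfl (fun x _ => Finset.mem_univ _)

/-! ### Coset data -/

variable {G Γ₁ Γ₂ Γ₃ : Type*} [Group G] [Group Γ₁] [Group Γ₂] [Group Γ₃]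

/-- a finite family of representatives `rep x ∈ G` with `rep x · γ = step γ x · rep (act γ x)`. -/
structure Datum (ι₁ : Γ₁ →* G) (ι₂ : Γ₂ →* G) (P : Type*) where
  /-- the representatives -/
  rep : P → G
  /-- the (right) action of `Γ₁` on the index set -/
  act : Γ₁ → P → P
  /-- the step cocycle -/
  step : Γ₁ → P → Γ₂
  rel : ∀ γ x, rep x * ι₁ γ = ι₂ (step γ x) * rep (act γ x)
  act_one : ∀ x, act 1 x = x
  act_mul : ∀ γ₁ γ₂ x, act (γ₁ * γ₂) x = act γ₂ (act γ₁ x)

namespace Datum

variable {ι₁ : Γ₁ →* G} {ι₂ : Γ₂ →* G} {ι₃ : Γ₃ →* G} {P P' : Type*}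

/-- build a datum from representatives whose `Γ₂`-cosets are permuted by `Γ₁`, the target coset
being unique. -/
noncomputable def ofReps (rep : P → G)
    (h : ∀ (γ : Γ₁) (x : P), ∃! y : P, ∃ s : Γ₂, rep x * ι₁ γ = ι₂ s * rep y) :
    Datum ι₁ ι₂ P where
  rep := rep
  act γ x := (h γ x).choose
  step γ x := (h γ x).choose_spec.1.choose
  rel γ x := (h γ x).choose_spec.1.choose_spec
  act_one x := by
    symm
    apply (h 1 x).choose_spec.2
    exact ⟨1, by simp⟩
  act_mul γ₁ γ₂ x := by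
    symm
    apply (h (γ₁ * γ₂) x).choose_spec.2
    obtain ⟨s₁, hs₁⟩ := (h γ₁ x).choose_spec.1
    obtain ⟨s₂, hs₂⟩ := (h γ₂ (h γ₁ x).choose).choose_spec.1
    refine ⟨s₁ * s₂, ?_⟩
    calc rep x * ι₁ (γ₁ * γ₂) = (rep x * ι₁ γ₁) * ι₁ γ₂ := by rw [map_mul, mul_assoc]
      _ = (ι₂ s₁ * rep (h γ₁ x).choose) * ι₁ γ₂ := congrArg (· * ι₁ γ₂) hs₁
      _ = ι₂ s₁ * (rep (h γ₁ x).choose * ι₁ γ₂) := mul_assoc _ _ _
      _ = ι₂ s₁ * (ι₂ s₂ * rep (h γ₂ (h γ₁ x).choose).choose) := congrArg (ι₂ s₁ * ·) hs₂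
      _ = ι₂ (s₁ * s₂) * rep (h γ₂ (h γ₁ x).choose).choose := by
          rw [map_mul, mul_assoc]

@[simp] theorem ofReps_rep (rep : P → G)
    (h : ∀ (γ : Γ₁) (x : P), ∃! y : P, ∃ s : Γ₂, rep x * ι₁ γ = ι₂ s * rep y) :
    (ofReps (ι₁ := ι₁) (ι₂ := ι₂) rep h).rep = rep := rfl

theorem ofReps_unique (rep : P → G)
    (h : ∀ (γ : Γ₁) (x : P), ∃! y : P, ∃ s : Γ₂, rep x * ι₁ γ = ι₂ s * rep y)
    (γ : Γ₁) (x y : P) (s : Γ₂) (hs : rep x * ι₁ γ = ι₂ s * rep y) :
    y = (ofReps (ι₁ := ι₁) (ι₂ := ι₂) rep h).act γ x :=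
  (h γ x).choose_spec.2 y ⟨s, hs⟩

section Basic

variable (D : Datum ι₁ ι₂ P)

theorem step_mul (hι₂ : Injective ι₂) (γ₁ γ₂ : Γ₁) (x : P) :
    D.step (γ₁ * γ₂) x = D.step γ₁ x * D.step γ₂ (D.act γ₁ x) := by
  apply hι₂
  have key : ι₂ (D.step (γ₁ * γ₂) x) * D.rep (D.act (γ₁ * γ₂) x) =
      ι₂ (D.step γ₁ x * D.step γ₂ (D.act γ₁ x)) * D.rep (D.act (γ₁ * γ₂) x) := by
    calc ι₂ (D.step (γ₁ * γ₂) x) * D.rep (D.act (γ₁ * γ₂) x)
        = D.rep x * ι₁ (γ₁ * γ₂) := (D.rel _ _).symm
      _ = (D.rep x * ι₁ γ₁) * ι₁ γ₂ := by rw [map_mul, mul_assoc]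
      _ = ι₂ (D.step γ₁ x) * (D.rep (D.act γ₁ x) * ι₁ γ₂) := by rw [D.rel, mul_assoc]
      _ = ι₂ (D.step γ₁ x) * (ι₂ (D.step γ₂ (D.act γ₁ x)) * D.rep (D.act γ₂ (D.act γ₁ x))) := by
          rw [D.rel]
      _ = ι₂ (D.step γ₁ x * D.step γ₂ (D.act γ₁ x)) * D.rep (D.act (γ₁ * γ₂) x) := by
          rw [map_mul, mul_assoc, D.act_mul]
  exact mul_right_cancel key

theorem step_one (hι₂ : Injective ι₂) (x : P) : D.step 1 x = 1 := by
  have h := D.step_mul hι₂ 1 1 x
  rw [mul_one, D.act_one] at h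
  exact mul_eq_left.mp h.symm

/-- the action of `γ` on the index set, as a permutation. -/
def actEquiv (γ : Γ₁) : Equiv.Perm P where
  toFun := D.act γ
  invFun := D.act γ⁻¹
  left_inv x := by rw [← D.act_mul, mul_inv_cancel, D.act_one]
  right_inv x := by rw [← D.act_mul, inv_mul_cancel, D.act_one]

@[simp] theorem actEquiv_apply (γ : Γ₁) (x : P) : D.actEquiv γ x = D.act γ x := rfl

theorem act_pow (γ : Γ₁) (m : ℕ) (x : P) : D.act (γ ^ m) x = ((D.actEquiv γ) ^ m) x := by
  induction m generalizing x with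
  | zero => simp [D.act_one]
  | succ m ih => rw [pow_succ, D.act_mul, ih, pow_succ', Equiv.Perm.mul_apply, actEquiv_apply]

theorem step_pow (hι₂ : Injective ι₂) (γ : Γ₁) (m : ℕ) (x : P) :
    D.step (γ ^ m) x =
      ((List.range m).map fun j => D.step γ (((D.actEquiv γ) ^ j) x)).prod := by
  induction m with
  | zero => simp [D.step_one hι₂]
  | succ m ih =>
    rw [pow_succ, D.step_mul hι₂, ih, List.range_succ, List.map_append, List.prod_append,
      D.act_pow]
    simp

/-- conjugation formula: `ι₂ (step γ x) = rep x · ι₁ γ · (rep (act γ x))⁻¹`. -/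
theorem map_step (γ : Γ₁) (x : P) :
    ι₂ (D.step γ x) = D.rep x * ι₁ γ * (D.rep (D.act γ x))⁻¹ := by
  rw [D.rel, mul_inv_cancel_right]

theorem map_step_of_fixed (γ : Γ₁) (x : P) (hx : D.act γ x = x) :
    ι₂ (D.step γ x) = D.rep x * ι₁ γ * (D.rep x)⁻¹ := by
  rw [D.map_step, hx]

end Basic

/-! ### The operator -/

section Operator

variable (D : Datum ι₁ ι₂ P) (hι₂ : Injective ι₂) [Fintype P] (A : Type*) [AddCommGroup A]

/-- `(op c)(γ) = ∑_x c (step γ x)`. -/
def opFun (c : Additive Γ₂ →+ A) : Additive Γ₁ →+ A where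
  toFun γ := ∑ x : P, c (Additive.ofMul (D.step (Additive.toMul γ) x))
  map_zero' := by
    simp only [toMul_zero, D.step_one hι₂, ofMul_one, map_zero, Finset.sum_const_zero]
  map_add' γ δ := by
    simp only [toMul_add, D.step_mul hι₂, ofMul_mul, map_add, Finset.sum_add_distrib]
    congr 1
    exact Equiv.sum_comp (D.actEquiv (Additive.toMul γ))
      (fun x => c (Additive.ofMul (D.step (Additive.toMul δ) x)))

/-- the coset operator `Hom(Γ₂, A) → Hom(Γ₁, A)`. -/
def op : (Additive Γ₂ →+ A) →+ (Additive Γ₁ →+ A) where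
  toFun := D.opFun hι₂ A
  map_zero' := by
    ext γ
    simp [opFun]
  map_add' c d := by
    ext γ
    simp [opFun, Finset.sum_add_distrib]

theorem op_apply (c : Additive Γ₂ →+ A) (γ : Γ₁) :
    D.op hι₂ A c (Additive.ofMul γ) = ∑ x : P, c (Additive.ofMul (D.step γ x)) := rfl

/-- the operator is linear for every module structure on the coefficients. -/
def opL (R : Type*) [Semiring R] [Module R A] :
    (Additive Γ₂ →+ A) →ₗ[R] (Additive Γ₁ →+ A) where
  toFun := D.op hι₂ A
  map_add' := map_add _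
  map_smul' r c := by
    ext γ
    simp only [RingHom.id_apply]
    change D.op hι₂ A (r • c) (Additive.ofMul (Additive.toMul γ)) =
      r • D.op hι₂ A c (Additive.ofMul (Additive.toMul γ))
    rw [op_apply, op_apply, Finset.smul_sum]
    rfl

@[simp] theorem opL_apply (R : Type*) [Semiring R] [Module R A] (c : Additive Γ₂ →+ A) :
    D.opL hι₂ A R c = D.op hι₂ A c := rfl

/-- naturality in the coefficients. -/
theorem op_comp_coeff {A' : Type*} [AddCommGroup A'] (φ : A →+ A') (c : Additive Γ₂ →+ A) :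
    D.op hι₂ A' (φ.comp c) = φ.comp (D.op hι₂ A c) := by
  ext γ
  change D.op hι₂ A' (φ.comp c) (Additive.ofMul (Additive.toMul γ)) =
    φ (D.op hι₂ A c (Additive.ofMul (Additive.toMul γ)))
  rw [op_apply, op_apply, map_sum]
  rfl

/-- **the cycle argument**: if `c` kills `step (γ^m) x` whenever `γ^m` fixes `x` (`m ≥ 1`), then
`op c` kills `γ`.  (Recall `ι₂ (step (γ^m) x) = rep x · ι₁(γ)^m · (rep x)⁻¹` for such `x`.) -/
theorem op_apply_eq_zero [DecidableEq P] (c : Additive Γ₂ →+ A) (γ : Γ₁)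
    (h : ∀ (x : P) (m : ℕ), 0 < m → D.act (γ ^ m) x = x →
      c (Additive.ofMul (D.step (γ ^ m) x)) = 0) :
    D.op hι₂ A c (Additive.ofMul γ) = 0 := by
  rw [op_apply]
  apply sum_eq_zero_of_cycle_sums (D.actEquiv γ)
  intro x
  set m := minimalPeriod (D.actEquiv γ) x with hm
  have hmpos : 0 < m := minimalPeriod_pos_perm _ x
  have hfix : D.act (γ ^ m) x = x := by
    rw [D.act_pow, hm, pow_minimalPeriod_apply]
  have h0 := h x m hmpos hfix
  rw [D.step_pow hι₂] at h0
  rw [← h0]
  clear h0 hfix hmpos hm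
  generalize m = n
  induction n with
  | zero => simp
  | succ n ih =>
    rw [Finset.sum_range_succ, ih, List.range_succ, List.map_append, List.prod_append, ofMul_mul,
      map_add]
    simp

end Operator

/-! ### Composition -/

section Comp

variable (D : Datum ι₁ ι₂ P) (D' : Datum ι₂ ι₃ P') (hι₂ : Injective ι₂)

/-- the product family `rep' y * rep x`. -/
def comp : Datum ι₁ ι₃ (P' × P) where
  rep z := D'.rep z.1 * D.rep z.2
  act γ z := (D'.act (D.step γ z.2) z.1, D.act γ z.2)
  step γ z := D'.step (D.step γ z.2) z.1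
  rel γ z := by
    rw [mul_assoc, D.rel, ← mul_assoc, D'.rel, mul_assoc]
  act_one z := by
    simp only [D.step_one hι₂, D'.act_one, D.act_one]
  act_mul γ₁ γ₂ z := by
    simp only [D.step_mul hι₂, D'.act_mul, D.act_mul]

@[simp] theorem comp_rep (z : P' × P) : (D.comp D' hι₂).rep z = D'.rep z.1 * D.rep z.2 := rfl

@[simp] theorem comp_step (γ : Γ₁) (z : P' × P) :
    (D.comp D' hι₂).step γ z = D'.step (D.step γ z.2) z.1 := rfl

@[simp] theorem comp_act (γ : Γ₁) (z : P' × P) :
    (D.comp D' hι₂).act γ z = (D'.act (D.step γ z.2) z.1, D.act γ z.2) := rfl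

theorem op_comp (hι₃ : Injective ι₃) [Fintype P] [Fintype P'] (A : Type*) [AddCommGroup A]
    (c : Additive Γ₃ →+ A) :
    (D.comp D' hι₂).op hι₃ A c = D.op hι₂ A (D'.op hι₃ A c) := by
  ext γ
  change (D.comp D' hι₂).op hι₃ A c (Additive.ofMul (Additive.toMul γ)) =
    D.op hι₂ A (D'.op hι₃ A c) (Additive.ofMul (Additive.toMul γ))
  rw [op_apply, op_apply, Fintype.sum_prod_type_right]
  refine Finset.sum_congr rfl fun x _ => ?_
  rw [op_apply]
  rfl

end Comp

/-! ### Independence of the representatives -/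

section Congr

variable (D : Datum ι₁ ι₂ P) (D' : Datum ι₁ ι₂ P')

/-- if the `Γ₂`-cosets of `D'` are unique targets, an identification of the cosets is automatically
equivariant. -/
theorem act_eq_of_unique (φ : P → P') (g : P → Γ₂)
    (hrep : ∀ x, D'.rep (φ x) = ι₂ (g x) * D.rep x)
    (huniq : ∀ (γ : Γ₁) (x' y' : P') (s : Γ₂), D'.rep x' * ι₁ γ = ι₂ s * D'.rep y' →
      y' = D'.act γ x') (γ : Γ₁) (x : P) : D'.act γ (φ x) = φ (D.act γ x) := by
  symm
  apply huniq γ (φ x) (φ (D.act γ x)) (g x * D.step γ x * (g (D.act γ x))⁻¹)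
  rw [hrep, hrep, mul_assoc, D.rel, map_mul, map_mul, map_inv]
  group

theorem step_eq_of_rep_eq (hι₂ : Injective ι₂) (φ : P → P') (g : P → Γ₂)
    (hrep : ∀ x, D'.rep (φ x) = ι₂ (g x) * D.rep x)
    (hact : ∀ γ x, D'.act γ (φ x) = φ (D.act γ x)) (γ : Γ₁) (x : P) :
    D'.step γ (φ x) = g x * D.step γ x * (g (D.act γ x))⁻¹ := by
  apply hι₂
  have h1 := D'.rel γ (φ x)
  rw [hact, hrep, hrep, mul_assoc, D.rel] at h1
  have h2 : ι₂ (g x) * ι₂ (D.step γ x) =
      ι₂ (D'.step γ (φ x)) * ι₂ (g (D.act γ x)) := by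
    apply mul_right_cancel (b := D.rep (D.act γ x))
    rw [mul_assoc, h1, mul_assoc]
  rw [map_mul, map_mul, map_inv, h2, mul_inv_cancel_right]

/-- **the operator only depends on the cosets `ι₂ Γ₂ · rep x`.** -/
theorem op_eq_of_rep_eq (hι₂ : Injective ι₂) [Fintype P] [Fintype P'] (A : Type*)
    [AddCommGroup A] (φ : P ≃ P') (g : P → Γ₂)
    (hrep : ∀ x, D'.rep (φ x) = ι₂ (g x) * D.rep x)
    (hact : ∀ γ x, D'.act γ (φ x) = φ (D.act γ x)) :
    D.op hι₂ A = D'.op hι₂ A := by
  ext c γ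
  change D.op hι₂ A c (Additive.ofMul (Additive.toMul γ)) =
    D'.op hι₂ A c (Additive.ofMul (Additive.toMul γ))
  set γ' := Additive.toMul γ
  rw [op_apply, op_apply, ← Equiv.sum_comp φ]
  have hstep := D.step_eq_of_rep_eq D' hι₂ φ g hrep hact γ'
  simp only [hstep, ofMul_mul, ofMul_inv, map_add, map_neg, Finset.sum_add_distrib,
    Finset.sum_neg_distrib]
  have hperm : ∑ x : P, c (Additive.ofMul (g (D.act γ' x))) = ∑ x : P, c (Additive.ofMul (g x)) :=
    Equiv.sum_comp (D.actEquiv γ') (fun x => c (Additive.ofMul (g x)))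
  rw [hperm]
  abel

end Congr

/-! ### Representatives inside the group -/

section Inner

variable {Γ : Type*} [Group Γ] {ι : Γ →* G} (D : Datum ι ι P) (hι : Injective ι)

/-- if all the representatives lie in `ι Γ`, the operator is multiplication by `card P`. -/
theorem op_eq_card_smul [Fintype P] (A : Type*) [AddCommGroup A] (k : P → Γ)
    (hk : ∀ x, D.rep x = ι (k x)) (c : Additive Γ →+ A) (γ : Γ) :
    D.op hι A c (Additive.ofMul γ) = Fintype.card P • c (Additive.ofMul γ) := by
  rw [op_apply]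
  have hstep : ∀ x, D.step γ x = k x * γ * (k (D.act γ x))⁻¹ := by
    intro x
    apply hι
    rw [D.map_step, hk, hk, map_mul, map_mul, map_inv]
  simp only [hstep, ofMul_mul, ofMul_inv, map_add, map_neg, Finset.sum_add_distrib,
    Finset.sum_neg_distrib, Finset.sum_const, Finset.card_univ]
  have hperm : ∑ x : P, c (Additive.ofMul (k (D.act γ x))) = ∑ x : P, c (Additive.ofMul (k x)) :=
    Equiv.sum_comp (D.actEquiv γ) (fun x => c (Additive.ofMul (k x)))
  rw [hperm]
  abel

end Inner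

end Datum

end Fermat.Agent.S41.Degen.CosetOp
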