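import Fermat.Agent.S41.Degen.CosetOp

/-!
# S41, block L1, leaf (L1a'): complements to `CosetOp`

* `Datum.ofHom` : the one-element family attached to a homomorphism `f : Γ₁ →* Γ₂` intertwined by
  an element `g` of the ambient group (`g · ι₁ γ = ι₂ (f γ) · g`); its operator is `c ↦ c ∘ f`
  (restriction, conjugation by `diag(q,1)`, Atkin-Lehner);
* `Datum.map` : push-forward of a datum along a homomorphism of ambient groups (same operator).
-/

set_option autoImplicit false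
set_option maxHeartbeats 400000

namespace Fermat.Agent.S41.Degen.CosetOp

open Function

variable {G G' Γ₁ Γ₂ : Type*} [Group G] [Group G'] [Group Γ₁] [Group Γ₂]

namespace Datum

variable {ι₁ : Γ₁ →* G} {ι₂ : Γ₂ →* G} {P : Type*}

/-- the one-element family of a homomorphism intertwined by `g`. -/
def ofHom (f : Γ₁ →* Γ₂) (g : G) (h : ∀ γ, g * ι₁ γ = ι₂ (f γ) * g) : Datum ι₁ ι₂ Unit where
  rep _ := g
  act _ _ := ()
  step γ _ := f γ
  rel γ _ := h γ
  act_one _ := rfl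
  act_mul _ _ _ := rfl

@[simp] theorem ofHom_rep (f : Γ₁ →* Γ₂) (g : G) (h : ∀ γ, g * ι₁ γ = ι₂ (f γ) * g) (u : Unit) :
    (ofHom (ι₁ := ι₁) (ι₂ := ι₂) f g h).rep u = g := rfl

@[simp] theorem ofHom_step (f : Γ₁ →* Γ₂) (g : G) (h : ∀ γ, g * ι₁ γ = ι₂ (f γ) * g) (γ : Γ₁)
    (u : Unit) : (ofHom (ι₁ := ι₁) (ι₂ := ι₂) f g h).step γ u = f γ := rfl

theorem op_ofHom (hι₂ : Injective ι₂) (A : Type*) [AddCommGroup A] (f : Γ₁ →* Γ₂) (g : G)
    (h : ∀ γ, g * ι₁ γ = ι₂ (f γ) * g) (c : Additive Γ₂ →+ A) (γ : Γ₁) :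
    (ofHom (ι₁ := ι₁) (ι₂ := ι₂) f g h).op hι₂ A c (Additive.ofMul γ) =
      c (Additive.ofMul (f γ)) := by
  rw [op_apply]
  simp

/-- push-forward along a homomorphism of ambient groups. -/
def map (D : Datum ι₁ ι₂ P) (Θ : G →* G') : Datum (Θ.comp ι₁) (Θ.comp ι₂) P where
  rep x := Θ (D.rep x)
  act := D.act
  step := D.step
  rel γ x := by
    simp only [MonoidHom.comp_apply]
    rw [← map_mul, D.rel, map_mul]
  act_one := D.act_one
  act_mul := D.act_mul

@[simp] theorem map_rep_eq (D : Datum ι₁ ι₂ P) (Θ : G →* G') (x : P) :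
    (D.map Θ).rep x = Θ (D.rep x) := rfl

@[simp] theorem map_step_eq (D : Datum ι₁ ι₂ P) (Θ : G →* G') (γ : Γ₁) (x : P) :
    (D.map Θ).step γ x = D.step γ x := rfl

@[simp] theorem map_act_eq (D : Datum ι₁ ι₂ P) (Θ : G →* G') (γ : Γ₁) (x : P) :
    (D.map Θ).act γ x = D.act γ x := rfl

theorem op_map (D : Datum ι₁ ι₂ P) (Θ : G →* G') (hι₂ : Injective ι₂)
    (hΘι₂ : Injective (Θ.comp ι₂)) [Fintype P] (A : Type*) [AddCommGroup A] :
    (D.map Θ).op hΘι₂ A = D.op hι₂ A := by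
  ext c γ
  rfl

end Datum

end Fermat.Agent.S41.Degen.CosetOp
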