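import Fermat.Agent.S41.Degen.Cor

/-!
# S41, block L1: integer matrix identities as identities in `GL (Fin 2) ℝ`

The coset-operator calculus (`Degen/CosetOp.lean`) wants an ambient *group*; the concrete layer uses
`GL (Fin 2) ℝ` with `Cor.iGL M := (mapGL ℝ).comp (Gamma0 M).subtype` (as S29's `heckeRep`,
`stepSL_rel`) and `Cor.matGL D hD` for integer matrices of non-zero determinant.  `Degen/Defs.lean` works with integer matrix identities `D * ↑γ = ↑γ' * D`.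
This file is the bridge:

* `matGL` is multiplicative (`matGL_mul`), `matGL_coeSL : matGL ↑g _ = mapGL ℝ g`,
  `matGL_uMat : matGL !![1,j;0,q] _ = heckeMatrix q j`;
* `matGL_rel` : `A * B = C * D → matGL A * matGL B = matGL C * matGL D`;
* `scalarGL q` central, `matGL_smul`;
* the Atkin–Lehner identities: `wGL d * iGL _ γ = iGL _ (wConj d γ) * wGL d`,
  `ALData.rSL d j = [[x, x j + y],[N, N j + q]] = g T^j ∈ Γ₀(N)`,
  **`wGL_mul_heckeMatrix : wGL d * heckeMatrix q j = scalarGL q * mapGL ℝ (d.rSL j)`**,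
  and when `rSL i`, `rSL j` are `Γ₀(Nq)`-equivalent.
-/

set_option autoImplicit false

noncomputable section

namespace Fermat.Agent.S41.Degen

open CongruenceSubgroup Matrix.SpecialLinearGroup ModularForm
open Fermat.Agent.S29.Betti Fermat.Agent.S41.Degen.Cor
open scoped MatrixGroups

theorem iGL_incl (N q : ℕ) (γ : Gamma0 (N * q)) : iGL N (incl N q γ) = iGL (N * q) γ := rfl

/-! ### Integer matrices in `GL₂(ℝ)` -/

theorem matGL_congr {D D' : Matrix (Fin 2) (Fin 2) ℤ} (h : D = D') (hD : D.det ≠ 0)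
    (hD' : D'.det ≠ 0) : matGL D hD = matGL D' hD' := by
  subst h; rfl

theorem det_mul_ne_zero {D D' : Matrix (Fin 2) (Fin 2) ℤ} (hD : D.det ≠ 0) (hD' : D'.det ≠ 0) :
    (D * D').det ≠ 0 := by
  rw [Matrix.det_mul]; exact mul_ne_zero hD hD'

theorem matGL_mul {D D' : Matrix (Fin 2) (Fin 2) ℤ} (hD : D.det ≠ 0) (hD' : D'.det ≠ 0) :
    matGL (D * D') (det_mul_ne_zero hD hD') = matGL D hD * matGL D' hD' := by
  apply Units.ext
  rw [Units.val_mul, matGL_coe, matGL_coe, matGL_coe, map_mul]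

theorem det_coeSL_ne_zero (g : SL(2, ℤ)) : (g : Matrix (Fin 2) (Fin 2) ℤ).det ≠ 0 := by
  rw [g.det_coe]; exact one_ne_zero

theorem matGL_coeSL (g : SL(2, ℤ)) :
    matGL (g : Matrix (Fin 2) (Fin 2) ℤ) (det_coeSL_ne_zero g) = mapGL ℝ g := by
  apply Units.ext
  rw [matGL_coe]
  ext i j
  simp

/-- **transfer of integer matrix identities.** -/
theorem matGL_rel {A B C D : Matrix (Fin 2) (Fin 2) ℤ} (hA : A.det ≠ 0) (hB : B.det ≠ 0)
    (hC : C.det ≠ 0) (hD : D.det ≠ 0) (h : A * B = C * D) :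
    matGL A hA * matGL B hB = matGL C hC * matGL D hD := by
  rw [← matGL_mul, ← matGL_mul]
  exact matGL_congr h _ _

/-- `D * ↑g = ↑g' * D'` in `GL₂(ℝ)`. -/
theorem matGL_mul_mapGL {D D' : Matrix (Fin 2) (Fin 2) ℤ} (hD : D.det ≠ 0) (hD' : D'.det ≠ 0)
    {g g' : SL(2, ℤ)}
    (h : D * (g : Matrix (Fin 2) (Fin 2) ℤ) = (g' : Matrix (Fin 2) (Fin 2) ℤ) * D') :
    matGL D hD * mapGL ℝ g = mapGL ℝ g' * matGL D' hD' := by
  rw [← matGL_coeSL, ← matGL_coeSL]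
  exact matGL_rel _ _ _ _ h

/-- the integer matrix of `U_q`: `[[1, j],[0, q]]`. -/
def uMat (q : ℕ) (j : ℤ) : Matrix (Fin 2) (Fin 2) ℤ := !![1, j; 0, (q : ℤ)]

theorem uMat_det (q : ℕ) (j : ℤ) : (uMat q j).det = q := by
  simp [uMat, Matrix.det_fin_two_of]

theorem uMat_det_ne_zero (q : ℕ) [NeZero q] (j : ℤ) : (uMat q j).det ≠ 0 := by
  rw [uMat_det]; exact_mod_cast NeZero.ne q

theorem matGL_uMat (q : ℕ) [NeZero q] (j : ℕ) :
    matGL (uMat q j) (uMat_det_ne_zero q j) = heckeMatrix q j := by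
  apply Units.ext
  rw [matGL_coe, val_heckeMatrix (NeZero.ne q)]
  ext a b
  fin_cases a <;> fin_cases b <;> simp [uMat]

/-! ### Scalars -/

/-- the scalar matrix `q` in `GL₂(ℝ)`. -/
def scalarGL (q : ℕ) [NeZero q] : GL (Fin 2) ℝ :=
  matGL ((q : ℤ) • (1 : Matrix (Fin 2) (Fin 2) ℤ)) (by
    rw [Matrix.det_smul, Matrix.det_one, mul_one]
    exact pow_ne_zero _ (by exact_mod_cast NeZero.ne q))

theorem scalarGL_coe (q : ℕ) [NeZero q] :
    ((scalarGL q : GL (Fin 2) ℝ) : Matrix (Fin 2) (Fin 2) ℝ) =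
      (q : ℝ) • (1 : Matrix (Fin 2) (Fin 2) ℝ) := by
  rw [scalarGL, matGL_coe]
  ext a b
  rw [RingHom.mapMatrix_apply, Matrix.map_apply, Matrix.smul_apply, Matrix.smul_apply,
    Matrix.one_apply, Matrix.one_apply]
  split_ifs <;> simp

theorem scalarGL_central (q : ℕ) [NeZero q] (g : GL (Fin 2) ℝ) :
    scalarGL q * g = g * scalarGL q := by
  apply Units.ext
  rw [Units.val_mul, Units.val_mul, scalarGL_coe, Matrix.smul_mul, Matrix.mul_smul, Matrix.one_mul,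
    Matrix.mul_one]

theorem matGL_smul (q : ℕ) [NeZero q] {D D' : Matrix (Fin 2) (Fin 2) ℤ} (hD : D.det ≠ 0)
    (hD' : D'.det ≠ 0) (h : D = (q : ℤ) • D') : matGL D hD = scalarGL q * matGL D' hD' := by
  rw [scalarGL, ← matGL_mul]
  apply matGL_congr
  rw [h, Matrix.smul_mul, Matrix.one_mul]

/-! ### Atkin–Lehner -/

section AL

variable {N q : ℕ} [NeZero q] (d : ALData N q)

theorem wMat_det_ne_zero : d.wMat.det ≠ 0 := by
  rw [d.wMat_det]; exact_mod_cast NeZero.ne q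

/-- the Atkin–Lehner matrix in `GL₂(ℝ)`. -/
def wGL : GL (Fin 2) ℝ := matGL d.wMat (wMat_det_ne_zero d)

/-- `w γ = (w γ w⁻¹) w` in `GL₂(ℝ)`. -/
theorem wGL_mul_iGL (γ : Gamma0 (N * q)) :
    wGL d * iGL (N * q) γ = iGL (N * q) (wConj d γ) * wGL d :=
  matGL_mul_mapGL _ _ (wConj_spec d γ)

/-- `diag(q,1)` in `GL₂(ℝ)`. -/
def dGL (q : ℕ) [NeZero q] : GL (Fin 2) ℝ := matGL (dMat q) (dMat_det_ne_zero q)

omit [NeZero q] in
theorem dGL_mul_iGL [NeZero q] (γ : Gamma0 (N * q)) :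
    dGL q * iGL (N * q) γ = iGL N (dConj N q γ) * dGL q :=
  matGL_mul_mapGL _ _ (dConj_spec N q γ)

theorem dGL_eq (q : ℕ) [NeZero q] : dGL q = heckeDiagMatrix q := by
  apply Units.ext
  rw [dGL, matGL_coe, val_heckeDiagMatrix (NeZero.ne q)]
  ext a b
  fin_cases a <;> fin_cases b <;> simp [dMat]

namespace ALData

omit [NeZero q] in
/-- `r_j = g T^j = [[x, x j + y],[N, N j + q]]`. -/
def rSL (j : ℤ) : SL(2, ℤ) :=
  ⟨!![d.x, d.x * j + d.y; (N : ℤ), N * j + q], by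
    rw [Matrix.det_fin_two_of]
    linear_combination d.hxy⟩

omit [NeZero q] in
theorem rSL_mem (j : ℤ) : d.rSL j ∈ Gamma0 N := by
  apply mem_Gamma0_of_dvd
  simp [rSL]

/-- `r_j` as an element of `Γ₀(N)`. -/
def rG (j : ℤ) : Gamma0 N := ⟨d.rSL j, d.rSL_mem j⟩

omit [NeZero q] in
theorem rSL_zero : d.rSL 0 = d.gSL := by
  apply Subtype.ext
  simp [rSL, gSL]

omit [NeZero q] in
/-- **the matrix identity** `w · [[1,j],[0,q]] = q · r_j`. -/
theorem wMat_mul_uMat (j : ℤ) :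
    d.wMat * uMat q j = (q : ℤ) • (d.rSL j : Matrix (Fin 2) (Fin 2) ℤ) := by
  ext a b
  fin_cases a <;> fin_cases b <;>
    simp [wMat, uMat, rSL, Matrix.mul_apply, Fin.sum_univ_two, Matrix.smul_apply] <;> ring

omit [NeZero q] in
/-- `r_i r_j⁻¹ ∈ Γ₀(Nq)` iff `q ∣ N (j - i)`. -/
theorem rSL_mul_inv_mem_iff (i j : ℤ) :
    d.rSL i * (d.rSL j)⁻¹ ∈ Gamma0 (N * q) ↔ (q : ℤ) ∣ N * (j - i) := by
  have h10 : ((d.rSL i * (d.rSL j)⁻¹ : SL(2, ℤ)) : Matrix (Fin 2) (Fin 2) ℤ) 1 0 =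
      (N : ℤ) * (N * (j - i)) := by
    rw [Matrix.SpecialLinearGroup.coe_mul, Matrix.SpecialLinearGroup.coe_inv,
      Matrix.adjugate_fin_two]
    simp [rSL, Matrix.mul_apply, Fin.sum_univ_two]
    ring
  constructor
  · intro h
    have h1 := dvd_of_mem_Gamma0 (⟨_, h⟩ : Gamma0 (N * q))
    change ((N * q : ℕ) : ℤ) ∣ ((d.rSL i * (d.rSL j)⁻¹ : SL(2, ℤ)) : Matrix (Fin 2) (Fin 2) ℤ) 1 0
      at h1
    rw [h10] at h1
    push_cast at h1
    rcases Nat.eq_zero_or_pos N with hN | hN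
    · subst hN; simp
    · exact (mul_dvd_mul_iff_left (by exact_mod_cast hN.ne')).mp h1
  · intro h
    apply mem_Gamma0_of_dvd
    change ((N * q : ℕ) : ℤ) ∣ ((d.rSL i * (d.rSL j)⁻¹ : SL(2, ℤ)) : Matrix (Fin 2) (Fin 2) ℤ) 1 0
    rw [h10]
    push_cast
    exact mul_dvd_mul_left _ h

end ALData

/-- **`w · u_j = q · r_j` in `GL₂(ℝ)`**, with `u_j = heckeMatrix q j`. -/
theorem wGL_mul_heckeMatrix (j : ℕ) :
    wGL d * heckeMatrix q j = scalarGL q * mapGL ℝ (d.rSL j) := by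
  rw [← matGL_uMat, wGL, ← matGL_mul, ← matGL_coeSL]
  exact matGL_smul q _ _ (d.wMat_mul_uMat j)

/-- the same with the trivial `k_j = 1`, in the shape of `TraceUW.op_incl_eq`. -/
theorem wGL_mul_heckeMatrix' (j : ℕ) :
    wGL d * heckeMatrix q j =
      scalarGL q * (iGL (N * q) 1 * mapGL ℝ (d.rSL j)) := by
  rw [map_one, one_mul, wGL_mul_heckeMatrix]

end AL

end Fermat.Agent.S41.Degen
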