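import Fermat.Agent.S41.Degen.TqComp

/-!
# S41, block L1 (BlockDegen): `β_* := α_* ∘ W` and the matrix of `i_* ∘ i^*`

With `i^* = (α^*, β^*) : X(N)² → X(Nq)` and `i_* = (α_*, β_*) : X(Nq) → X(N)²`,
`β^* = W α^*`, `β_* = α_* W`:

`α_* α^* = q + 1`, `α_* β^* = T_q`, `β_* α^* = T_q`, `β_* β^* = q + 1`.

The statements are given on `Hom(Γ₀(·), A)`, on `XMod`, and in the `ℤ`-linear shapes
`hAA hAB hBA hBB` (with `qq := (q : ℤ) + 1`) of `Count.Product.exists_new_eigenvector`.
-/

set_option autoImplicit false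

namespace Fermat.Agent.S41.Degen.Matrix2

open CongruenceSubgroup Matrix.SpecialLinearGroup
open P2MW.S_ModularForm_heckeT_slash_eq_self_of_mem_Gamma0.ModularForm.HeckeSlashInvariance
open Fermat.Agent.S29.Betti Fermat.Agent.S41.Degen Fermat.Agent.S41.Degen.Cor
open Fermat.Agent.S41.Degen.TqComp
open scoped MatrixGroups

noncomputable section

variable {N q : ℕ} [Fact q.Prime]

/-- `β_* := α_* ∘ W`. -/
def corB (d : ALData N q) (A : Type*) [AddCommGroup A] :
    (Additive (Gamma0 (N * q)) →+ A) →+ (Additive (Gamma0 N) →+ A) :=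
  (corA d A).comp (opW A d)

@[simp] theorem corB_apply (d : ALData N q) (A : Type*) [AddCommGroup A]
    (c : Additive (Gamma0 (N * q)) →+ A) : corB d A c = corA d A (opW A d c) := rfl

theorem corB_resA (d : ALData N q) (hqN : ¬ q ∣ N) (A : Type*) [AddCommGroup A]
    (c : Additive (Gamma0 N) →+ A) : corB d A (resA N q A c) = heckeHom hqN A c :=
  corA_opW_resA d hqN A c

theorem corB_resB (d : ALData N q) (A : Type*) [AddCommGroup A]
    (c : Additive (Gamma0 N) →+ A) : corB d A (resB N q A c) = (q + 1) • c := by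
  rw [corB_apply, resB_eq d c, opW_opW, corA_resA]

section X

variable (R : Type*) [Semiring R] (A : Type*) [AddCommGroup A] [Module R A]

/-- `β_*` on `XMod`. -/
def corBX (d : ALData N q) : XMod (N * q) R A →ₗ[R] XMod N R A :=
  (corAX R A d).comp (opWX R A d)

@[simp] theorem corBX_apply (d : ALData N q) (u : XMod (N * q) R A) :
    corBX R A d u = corAX R A d (opWX R A d u) := rfl

@[simp] theorem corBX_coe (d : ALData N q) (u : XMod (N * q) R A) :
    ((corBX R A d u : XMod N R A) : Additive (Gamma0 N) →+ A) = corB d A u := rfl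

/-- `β_* α^* = T_q`. -/
theorem corBX_resAX (d : ALData N q) (hqN : ¬ q ∣ N) (u : XMod N R A) :
    corBX R A d (resAX N q R A u) = heckeX hqN R A u :=
  Subtype.ext (corB_resA d hqN A u)

/-- `β_* β^* = q + 1`. -/
theorem corBX_resBX (d : ALData N q) (u : XMod N R A) :
    corBX R A d (resBX N q R A u) = (q + 1) • u :=
  Subtype.ext (corB_resB d A u)

/-- `β_* W = α_*`. -/
theorem corBX_opWX (d : ALData N q) (u : XMod (N * q) R A) :
    corBX R A d (opWX R A d u) = corAX R A d u := by
  rw [corBX_apply, opWX_opWX]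

end X

/-! ### Equivariance of `β_*`, `β^*` from that of `α_*`, `α^*`, `W` (formal) -/

section Equivariance

variable (R : Type*) [Semiring R] (A : Type*) [AddCommGroup A] [Module R A]

/-- if `T` commutes with `W` and is intertwined by `α_*`, it is intertwined by `β_*`. -/
theorem corBX_intertwine (d : ALData N q) (TY : XMod (N * q) R A → XMod (N * q) R A)
    (TX : XMod N R A → XMod N R A)
    (hW : ∀ u, opWX R A d (TY u) = TY (opWX R A d u))
    (hC : ∀ u, corAX R A d (TY u) = TX (corAX R A d u)) (u : XMod (N * q) R A) :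
    corBX R A d (TY u) = TX (corBX R A d u) := by
  rw [corBX_apply, hW, hC, corBX_apply]

/-- if `T` commutes with `W` and is intertwined by `α^*`, it is intertwined by `β^*`. -/
theorem resBX_intertwine (d : ALData N q) (TY : XMod (N * q) R A → XMod (N * q) R A)
    (TX : XMod N R A → XMod N R A)
    (hW : ∀ u, opWX R A d (TY u) = TY (opWX R A d u))
    (hA : ∀ x, resAX N q R A (TX x) = TY (resAX N q R A x)) (x : XMod N R A) :
    resBX N q R A (TX x) = TY (resBX N q R A x) := by
  rw [resBX_eq R A d, resBX_eq R A d, hA, hW]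

end Equivariance

/-! ### The shapes of `Count.Product` (`ℤ`-linear, `qq := q + 1 : ℤ`) -/

section Int

variable (A : Type*) [AddCommGroup A]

theorem hAA (d : ALData N q) (x : XMod N ℤ A) :
    corAX ℤ A d (resAX N q ℤ A x) = ((q : ℤ) + 1) • x := by
  rw [corAX_resAX]
  exact_mod_cast (natCast_zsmul x (q + 1)).symm

theorem hAB (d : ALData N q) (hqN : ¬ q ∣ N) (x : XMod N ℤ A) :
    corAX ℤ A d (resBX N q ℤ A x) = heckeX hqN ℤ A x :=
  corAX_resBX d hqN ℤ A x

theorem hBA (d : ALData N q) (hqN : ¬ q ∣ N) (x : XMod N ℤ A) :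
    corBX ℤ A d (resAX N q ℤ A x) = heckeX hqN ℤ A x :=
  corBX_resAX ℤ A d hqN x

theorem hBB (d : ALData N q) (x : XMod N ℤ A) :
    corBX ℤ A d (resBX N q ℤ A x) = ((q : ℤ) + 1) • x := by
  rw [corBX_resBX]
  exact_mod_cast (natCast_zsmul x (q + 1)).symm

end Int

end

end Fermat.Agent.S41.Degen.Matrix2
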