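import Fermat.Agent.S41.Degen.CosetOp

/-!
# S41, block L1 (degeneracy maps), leaf (D3): `α^* ∘ α_* = 1 + U ∘ W`, abstractly

Setting of `Degen/CosetOp.lean`: an ambient group `G`, groups `Γ' → Γ` (think `Γ₀(Nq) ≤ Γ₀(N)`)
mapping to `G`.

* `Dcor : Datum ι ι' P` : a system of representatives of `Γ' \ Γ` (the corestriction `α_*`),
  with distinct cosets (`hdist`);
* `DU : Datum ι' ι' J` : the family of `U_q` (`[[1,j],[0,q]]`);
* `w ∈ G` normalising `Γ'` through `wc : Γ' →* Γ'` (Atkin–Lehner);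
* the **matrix identity** `w · u_j = ζ · k_j · r_{φ (some j)}` (`ζ` central, `k_j ∈ Γ'`) and
  `r_{φ none} ∈ Γ'`, for a bijection `φ : Option J ≃ P`.

Then (`op_incl_eq`) `(α_* c)(γ) = c(γ) + (U (W c))(γ)` for `γ ∈ Γ'`, i.e. `α^* α_* = 1 + U W`.

The second part (`UW`) is the formal consequence used by the counting block: if `W² = 1` and
`α^* α_* = 1 + U W` then on `B := ker α_* ∩ ker (α_* W)` one has `U = -W`, `B` is stable under
`W` and `U`, and `U² = 1` on `B`.
-/

set_option autoImplicit false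

namespace Fermat.Agent.S41.Degen.TraceUW

open Function Fermat.Agent.S41.Degen.CosetOp

section Abstract

variable {G Γ Γ' : Type*} [Group G] [Group Γ] [Group Γ']
  {ι : Γ →* G} {ι' : Γ' →* G} {P J : Type*}
  (Dcor : Datum ι ι' P) (DU : Datum ι' ι' J)
  (hι' : Injective ι')
  (hdist : ∀ (x y : P) (s : Γ'), Dcor.rep x = ι' s * Dcor.rep y → x = y)

include hι' hdist in
/-- with distinct cosets, `act` and `step` are determined by one relation. -/
theorem act_step_eq {x y : P} {t : Γ'} {γ : Γ} (h : Dcor.rep x * ι γ = ι' t * Dcor.rep y) :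
    Dcor.act γ x = y ∧ Dcor.step γ x = t := by
  have hrel := Dcor.rel γ x
  rw [h] at hrel
  have hy : Dcor.act γ x = y := by
    symm
    apply hdist _ _ (t⁻¹ * Dcor.step γ x)
    rw [map_mul, map_inv, mul_assoc, ← hrel, inv_mul_cancel_left]
  refine ⟨hy, ?_⟩
  rw [hy] at hrel
  exact (hι' (mul_right_cancel hrel)).symm

variable (incl : Γ' →* Γ) (hincl : ∀ γ, ι (incl γ) = ι' γ)
  (wc : Γ' →* Γ') (w : G) (hw : ∀ γ, w * ι' γ = ι' (wc γ) * w)

include hι' hdist hincl in
/-- the identity coset. -/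
theorem step_base {x₀ : P} {k₀ : Γ'} (h₀ : Dcor.rep x₀ = ι' k₀) (γ : Γ') :
    Dcor.act (incl γ) x₀ = x₀ ∧ Dcor.step (incl γ) x₀ = k₀ * γ * k₀⁻¹ := by
  apply act_step_eq Dcor hι' hdist
  rw [hincl, h₀, map_mul, map_mul, map_inv, inv_mul_cancel_right]

include hι' hdist hincl hw in
/-- the other cosets, through `w · u_j = ζ · k_j · r_{e j}`. -/
theorem step_some (e : J → P) (k : J → Γ') (ζ : G) (hζ : ∀ g, ζ * g = g * ζ)
    (he : ∀ j, w * DU.rep j = ζ * (ι' (k j) * Dcor.rep (e j))) (γ : Γ') (j : J) :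
    Dcor.act (incl γ) (e j) = e (DU.act γ j) ∧
      Dcor.step (incl γ) (e j) = (k j)⁻¹ * wc (DU.step γ j) * k (DU.act γ j) := by
  apply act_step_eq Dcor hι' hdist
  rw [hincl]
  have h1 : ζ * (ι' (k j) * Dcor.rep (e j) * ι' γ) =
      ζ * (ι' (wc (DU.step γ j)) * (ι' (k (DU.act γ j)) * Dcor.rep (e (DU.act γ j)))) := by
    calc ζ * (ι' (k j) * Dcor.rep (e j) * ι' γ)
        = (ζ * (ι' (k j) * Dcor.rep (e j))) * ι' γ := by simp only [mul_assoc]
      _ = w * (DU.rep j * ι' γ) := by rw [← he, mul_assoc]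
      _ = (w * ι' (DU.step γ j)) * DU.rep (DU.act γ j) := by rw [DU.rel, mul_assoc]
      _ = ι' (wc (DU.step γ j)) * (w * DU.rep (DU.act γ j)) := by rw [hw, mul_assoc]
      _ = ι' (wc (DU.step γ j)) *
            (ζ * (ι' (k (DU.act γ j)) * Dcor.rep (e (DU.act γ j)))) := by rw [he]
      _ = ζ * (ι' (wc (DU.step γ j)) *
            (ι' (k (DU.act γ j)) * Dcor.rep (e (DU.act γ j)))) := by
          rw [← mul_assoc, ← hζ, mul_assoc]
  have h2 := mul_left_cancel h1
  rw [map_mul, map_mul, map_inv, mul_assoc, mul_assoc, eq_inv_mul_iff_mul_eq, ← mul_assoc, h2]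

include hdist hincl hw in
/-- **`α^* ∘ α_* = 1 + U ∘ W`** (abstract form). -/
theorem op_incl_eq [Fintype P] [Fintype J] (A : Type*) [AddCommGroup A]
    (φ : Option J ≃ P) {k₀ : Γ'} (h₀ : Dcor.rep (φ none) = ι' k₀)
    (k : J → Γ') (ζ : G) (hζ : ∀ g, ζ * g = g * ζ)
    (he : ∀ j, w * DU.rep j = ζ * (ι' (k j) * Dcor.rep (φ (some j))))
    (c : Additive Γ' →+ A) (γ : Γ') :
    Dcor.op hι' A c (Additive.ofMul (incl γ)) =
      c (Additive.ofMul γ) +
        DU.op hι' A (c.comp (MonoidHom.toAdditive wc)) (Additive.ofMul γ) := by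
  rw [Datum.op_apply, ← Equiv.sum_comp φ, Fintype.sum_option, Datum.op_apply,
    (step_base Dcor hι' hdist incl hincl h₀ γ).2]
  have hs := fun j => (step_some Dcor DU hι' hdist incl hincl wc w hw (fun j => φ (some j)) k ζ hζ
    he γ j).2
  simp only [hs, ofMul_mul, ofMul_inv, map_add, map_neg, Finset.sum_add_distrib,
    Finset.sum_neg_distrib]
  have hperm : ∑ j : J, c (Additive.ofMul (k (DU.act γ j))) = ∑ j : J, c (Additive.ofMul (k j)) :=
    Equiv.sum_comp (DU.actEquiv γ) (fun j => c (Additive.ofMul (k j)))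
  rw [hperm]
  have hcomp : ∀ j, (c.comp (MonoidHom.toAdditive wc)) (Additive.ofMul (DU.step γ j)) =
      c (Additive.ofMul (wc (DU.step γ j))) := fun _ => rfl
  simp only [hcomp]
  abel

end Abstract

/-! ### Formal consequences -/

section UW

variable {X Y : Type*} [AddCommGroup X] [AddCommGroup Y]
  (res : X →+ Y) (cor : Y →+ X) (W U : Y →+ Y)
  (hWW : ∀ y, W (W y) = y) (htr : ∀ y, res (cor y) = y + U (W y))

include hWW htr in
/-- on `ker α_* W` the operator `U` is `-W`. -/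
theorem U_eq_neg_W {y : Y} (h2 : cor (W y) = 0) : U y = - W y := by
  have h := htr (W y)
  rw [h2, map_zero, hWW] at h
  exact (neg_eq_of_add_eq_zero_right h.symm).symm

include hWW in
theorem W_mem {y : Y} (h1 : cor y = 0) (h2 : cor (W y) = 0) :
    cor (W y) = 0 ∧ cor (W (W y)) = 0 := by
  rw [hWW]
  exact ⟨h2, h1⟩

include hWW htr in
theorem U_mem {y : Y} (h1 : cor y = 0) (h2 : cor (W y) = 0) :
    cor (U y) = 0 ∧ cor (W (U y)) = 0 := by
  rw [U_eq_neg_W res cor W U hWW htr h2, map_neg, map_neg, map_neg, hWW, h1, h2, neg_zero]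
  exact ⟨rfl, rfl⟩

include hWW htr in
/-- **`U² = 1` on `ker α_* ∩ ker α_* W`.** -/
theorem U_U {y : Y} (h1 : cor y = 0) (h2 : cor (W y) = 0) : U (U y) = y := by
  have hW := W_mem cor W hWW h1 h2
  rw [U_eq_neg_W res cor W U hWW htr h2, map_neg, U_eq_neg_W res cor W U hWW htr hW.2, hWW,
    neg_neg]

end UW

end Fermat.Agent.S41.Degen.TraceUW
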