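import Fermat.Agent.S41.Degen.GLBridge
import Fermat.Agent.S41.Degen.TraceUW
import Fermat.Agent.S41.Degen.IStar

/-!
# S41, block L1, leaf (D3): `α^* ∘ α_* = 1 + U_q ∘ W` for `Cor.corA`

`Cor.corDatum d` has the representatives `g = [[x,y],[N,q]]` (at `∞`) and `e21 (N j)`;
the Atkin–Lehner identity `w · [[1,j],[0,q]] = q · g T^j` (`GLBridge.wGL_mul_heckeMatrix`) matches
the `q` non-identity cosets with the representatives `heckeMatrix q j` of `U_q`: the matching
`eIdx d : ZMod q → ℙ¹(𝔽_q)` and the elements `kElt d j ∈ Γ₀(Nq)` come from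
`Cor.existsUnique_corRep`, no inverse mod `q` is ever computed.

Main statement (`resA_corA_eq`): for ANY datum `DU` on `Γ₀(Nq)` whose representatives are
`heckeMatrix q j.val` (`j : ZMod q`),
`resA (corA c) = c + DU.op (opW c)`; hence (`U_eq_neg_W`, `U_mem_ker`, `U_U_eq`) on
`ker α_* ∩ ker (α_* W)` one has `U = -W`, stability and `U² = 1`.
-/

set_option autoImplicit false

noncomputable section

namespace Fermat.Agent.S41.Degen

open CongruenceSubgroup Matrix.SpecialLinearGroup ModularForm Function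
open Fermat.Agent.S29.Betti Fermat.Agent.S41.Degen.Cor Fermat.Agent.S41.Degen.CosetOp
open scoped MatrixGroups

variable {N q : ℕ} [Fact q.Prime] (d : ALData N q)

/-- the cosets `Γ₀(Nq) · corRep x` are distinct. -/
theorem corDatum_dist (x y : OnePoint (ZMod q)) (s : Gamma0 (N * q))
    (h : (corDatum d).rep x = iGL (N * q) s * (corDatum d).rep y) : x = y := by
  have h1 := corDatum_unique d 1 x y s (by rw [map_one, mul_one]; exact h)
  rw [h1, (corDatum d).act_one]

theorem ALData.N_ne_zero (d : ALData N q) : N ≠ 0 := by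
  intro hN
  have h := d.hxy
  have hN' : (N : ℤ) = 0 := by exact_mod_cast hN
  have h1 : (q : ℤ) ∣ 1 := ⟨d.x, by linear_combination -h - d.y * hN'⟩
  have h2 : (q : ℤ) ≤ 1 := Int.le_of_dvd one_pos h1
  have h3 : (1 : ℤ) < q := by exact_mod_cast (Fact.out : q.Prime).one_lt
  omega

theorem rSL_one_zero (j : ℤ) : (d.rSL j) 1 0 = (N : ℤ) := rfl

/-- the index of the coset of `r_j = g T^j`. -/
def eIdx (j : ZMod q) : OnePoint (ZMod q) :=
  (existsUnique_corRep Fact.out d (d.rSL (j.val : ℤ)) (by rw [rSL_one_zero])).choose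

theorem eIdx_spec (j : ZMod q) :
    d.rSL (j.val : ℤ) * (corRep d (eIdx d j))⁻¹ ∈ Gamma0 (N * q) :=
  (existsUnique_corRep Fact.out d (d.rSL (j.val : ℤ)) (by rw [rSL_one_zero])).choose_spec.1

/-- `k_j := r_j · (corRep (e j))⁻¹ ∈ Γ₀(Nq)`. -/
def kElt (j : ZMod q) : Gamma0 (N * q) := ⟨_, eIdx_spec d j⟩

theorem kElt_mul (j : ZMod q) :
    ((kElt d j : Gamma0 (N * q)) : SL(2, ℤ)) * corRep d (eIdx d j) = d.rSL (j.val : ℤ) :=
  inv_mul_cancel_right _ _

theorem eIdx_injective : Injective (eIdx d) := by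
  intro i j hij
  have hi := eIdx_spec d i
  have hj := eIdx_spec d j
  rw [hij] at hi
  have hmem : d.rSL (i.val : ℤ) * (d.rSL (j.val : ℤ))⁻¹ ∈ Gamma0 (N * q) := by
    have := (Gamma0 (N * q)).mul_mem hi ((Gamma0 (N * q)).inv_mem hj)
    simpa [mul_assoc] using this
  rw [d.rSL_mul_inv_mem_iff] at hmem
  have hcop : IsCoprime (q : ℤ) (N : ℤ) := Nat.isCoprime_iff_coprime.mpr (coprime_of_ALData d)
  have h2 : (q : ℤ) ∣ (j.val : ℤ) - (i.val : ℤ) := hcop.dvd_of_dvd_mul_left hmem
  have h3 : ((i.val : ℤ) : ZMod q) = ((j.val : ℤ) : ZMod q) :=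
    (ZMod.intCast_eq_intCast_iff_dvd_sub _ _ _).mpr h2
  simpa using h3

theorem corRep_coe_zero : corRep d ((0 : ZMod q) : OnePoint (ZMod q)) = 1 := by
  rw [corRep_coe, ZMod.val_zero, Nat.cast_zero, mul_zero]
  apply Subtype.ext
  ext a b
  fin_cases a <;> fin_cases b <;> simp [e21]

theorem eIdx_ne_zero (j : ZMod q) : eIdx d j ≠ ((0 : ZMod q) : OnePoint (ZMod q)) := by
  intro h
  have hj := eIdx_spec d j
  rw [h, corRep_coe_zero, inv_one, mul_one] at hj
  have h1 := dvd_of_mem_Gamma0 (⟨_, hj⟩ : Gamma0 (N * q))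
  change ((N * q : ℕ) : ℤ) ∣ (d.rSL (j.val : ℤ)) 1 0 at h1
  rw [rSL_one_zero] at h1
  have h2 : N * q ∣ N := by exact_mod_cast h1
  have hN : 0 < N := Nat.pos_of_ne_zero d.N_ne_zero
  have h3 := Nat.le_of_dvd hN h2
  have h4 : 1 < q := (Fact.out : q.Prime).one_lt
  nlinarith

/-- the matching of the cosets: `none ↦ 0` (identity coset), `some j ↦ e j`. -/
def cosetMap (o : Option (ZMod q)) : OnePoint (ZMod q) :=
  o.elim ((0 : ZMod q) : OnePoint (ZMod q)) (eIdx d)

theorem cosetMap_injective : Injective (cosetMap d) := by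
  intro a b hab
  cases a with
  | none =>
    cases b with
    | none => rfl
    | some j => exact absurd hab.symm (eIdx_ne_zero d j)
  | some i =>
    cases b with
    | none => exact absurd hab (eIdx_ne_zero d i)
    | some j => exact congrArg some (eIdx_injective d hab)

theorem cosetMap_bijective : Bijective (cosetMap d) := by
  rw [Fintype.bijective_iff_injective_and_card]
  refine ⟨cosetMap_injective d, ?_⟩
  rw [card_onePoint_zmod, Fintype.card_option, ZMod.card]

/-- the matching as an equivalence. -/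
def cosetEquiv : Option (ZMod q) ≃ OnePoint (ZMod q) :=
  Equiv.ofBijective (cosetMap d) (cosetMap_bijective d)

@[simp] theorem cosetEquiv_none :
    cosetEquiv d none = ((0 : ZMod q) : OnePoint (ZMod q)) := rfl

@[simp] theorem cosetEquiv_some (j : ZMod q) : cosetEquiv d (some j) = eIdx d j := rfl

/-- **(I3) `α^* α_* = 1 + U W`**, pointwise, for any datum `DU` with the representatives of
`U_q`. -/
theorem resA_corA_apply (DU : Datum (iGL (N * q)) (iGL (N * q)) (ZMod q))
    (hU : ∀ j : ZMod q, DU.rep j = heckeMatrix q j.val) (A : Type*) [AddCommGroup A]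
    (c : Additive (Gamma0 (N * q)) →+ A) (γ : Gamma0 (N * q)) :
    corA d A c (Additive.ofMul (incl N q γ)) =
      c (Additive.ofMul γ) +
        DU.op (iGL_injective _) A (opW A d c) (Additive.ofMul γ) := by
  refine TraceUW.op_incl_eq (corDatum d) DU (iGL_injective _) (corDatum_dist d) (incl N q)
    (fun _ => rfl) (wConj d) (wGL d) (wGL_mul_iGL d) A (cosetEquiv d) (k₀ := 1) ?_ (kElt d)
    (scalarGL q) (scalarGL_central q) ?_ c γ
  · rw [cosetEquiv_none, corDatum_rep, corRep_coe_zero, map_one, map_one]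
  · intro j
    rw [hU, cosetEquiv_some, corDatum_rep, iGL_apply, ← map_mul, kElt_mul,
      wGL_mul_heckeMatrix]

/-- **(I3) `α^* α_* = 1 + U W`.** -/
theorem resA_corA_eq (DU : Datum (iGL (N * q)) (iGL (N * q)) (ZMod q))
    (hU : ∀ j : ZMod q, DU.rep j = heckeMatrix q j.val) (A : Type*) [AddCommGroup A]
    (c : Additive (Gamma0 (N * q)) →+ A) :
    resA N q A (corA d A c) = c + DU.op (iGL_injective _) A (opW A d c) := by
  ext γ
  exact resA_corA_apply d DU hU A c (Additive.toMul γ)

section Consequences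

variable (DU : Datum (iGL (N * q)) (iGL (N * q)) (ZMod q))
  (hU : ∀ j : ZMod q, DU.rep j = heckeMatrix q j.val) (A : Type*) [AddCommGroup A]

include hU in
/-- on `ker (α_* W)` : `U = -W`. -/
theorem U_eq_neg_W {c : Additive (Gamma0 (N * q)) →+ A} (h2 : corA d A (opW A d c) = 0) :
    DU.op (iGL_injective _) A c = - opW A d c :=
  TraceUW.U_eq_neg_W (resA N q A) (corA d A) (opW A d) (DU.op (iGL_injective _) A)
    (opW_opW d) (resA_corA_eq d DU hU A) h2

include hU in
/-- `ker α_* ∩ ker (α_* W)` is stable under `U`. -/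
theorem U_mem_ker {c : Additive (Gamma0 (N * q)) →+ A} (h1 : corA d A c = 0)
    (h2 : corA d A (opW A d c) = 0) :
    corA d A (DU.op (iGL_injective _) A c) = 0 ∧
      corA d A (opW A d (DU.op (iGL_injective _) A c)) = 0 :=
  TraceUW.U_mem (resA N q A) (corA d A) (opW A d) (DU.op (iGL_injective _) A)
    (opW_opW d) (resA_corA_eq d DU hU A) h1 h2

/-- `ker α_* ∩ ker (α_* W)` is stable under `W`. -/
theorem W_mem_ker {c : Additive (Gamma0 (N * q)) →+ A} (h1 : corA d A c = 0)
    (h2 : corA d A (opW A d c) = 0) :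
    corA d A (opW A d c) = 0 ∧ corA d A (opW A d (opW A d c)) = 0 :=
  TraceUW.W_mem (corA d A) (opW A d) (opW_opW d) h1 h2

include hU in
/-- **`U² = 1` on `ker α_* ∩ ker (α_* W)`.** -/
theorem U_U_eq {c : Additive (Gamma0 (N * q)) →+ A} (h1 : corA d A c = 0)
    (h2 : corA d A (opW A d c) = 0) :
    DU.op (iGL_injective _) A (DU.op (iGL_injective _) A c) = c :=
  TraceUW.U_U (resA N q A) (corA d A) (opW A d) (DU.op (iGL_injective _) A)
    (opW_opW d) (resA_corA_eq d DU hU A) h1 h2

end Consequences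

/-! ### `XMod` versions: `U_q` on `ker i_*` -/

section XModU

variable (R : Type*) [Ring R] (A : Type*) [AddCommGroup A] [Module R A]
  (DU : Datum (iGL (N * q)) (iGL (N * q)) (ZMod q))
  (hU : ∀ j : ZMod q, DU.rep j = heckeMatrix q j.val)

include hU in
/-- **(I3)** on `XMod`: `α^* α_* = 1 + U W`. -/
theorem resAX_corAX_eq (u : XMod (N * q) R A) :
    resAX N q R A (corAX R A d u) = u + opX R A DU (opWX R A d u) :=
  Subtype.ext (resA_corA_eq d DU hU A u)

include hU in
/-- on `ker i_*` : `U = -W`. -/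
theorem opX_eq_neg_opWX {u : XMod (N * q) R A} (hu : u ∈ LinearMap.ker (iLower R A d)) :
    opX R A DU u = - opWX R A d u := by
  rw [mem_ker_iLower_iff] at hu
  apply Subtype.ext
  have h2 : corA d A (opW A d (u : Additive (Gamma0 (N * q)) →+ A)) = 0 :=
    congrArg Subtype.val hu.2
  exact U_eq_neg_W d DU hU A h2

include hU in
/-- `ker i_*` is stable under `U`. -/
theorem opX_mem_ker_iLower {u : XMod (N * q) R A} (hu : u ∈ LinearMap.ker (iLower R A d)) :
    opX R A DU u ∈ LinearMap.ker (iLower R A d) := by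
  rw [opX_eq_neg_opWX d R A DU hU hu]
  exact Submodule.neg_mem _ (opWX_mem_ker_iLower R A d hu)

include hU in
/-- **`U² = 1` on `ker i_*`.** -/
theorem opX_opX_eq {u : XMod (N * q) R A} (hu : u ∈ LinearMap.ker (iLower R A d)) :
    opX R A DU (opX R A DU u) = u := by
  have hW := opWX_mem_ker_iLower R A d hu
  rw [opX_eq_neg_opWX d R A DU hU hu, map_neg, opX_eq_neg_opWX d R A DU hU hW, opWX_opWX,
    neg_neg]

end XModU

end Fermat.Agent.S41.Degen
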