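import Mathlib

/-!
# S41 (L1, abstract): Mathlib's transfer as a sum over ANY system of coset representatives

`MonoidHom.transfer ϕ : G →* A` (for `ϕ : H →* A`, `H ≤ G` of finite index) is defined through an
arbitrary left transversal.  Here:

* `transfer_eq_prod_left` : for left coset representatives `t x` (`x ∈ P`) and any decomposition
  `g * t x = t (σ x) * s x` (`s x ∈ H`): `transfer ϕ g = ∏ x, ϕ (s x)`;
* `transfer_eq_prod_right` : the same for right coset representatives, `r x * g = s x * r (σ x)`
  (the shape of the coset operators of `Degen/CosetOp.lean`);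
* `bijective_of_right_reps` : the bijectivity hypothesis from "every element lies in some `H r_x`"
  and "the `H r_x` are distinct".
-/

set_option autoImplicit false

namespace Fermat.Agent.S41.Degen.TransferBridge

open Subgroup MonoidHom Function

variable {G : Type*} [Group G] {H : Subgroup G} [H.FiniteIndex] {A : Type*} [CommGroup A]
  (ϕ : H →* A)

/-- **transfer through left coset representatives.** -/
theorem transfer_eq_prod_left {P : Type*} [Fintype P] (t : P → G)
    (ht : Bijective (fun x => (t x : G ⧸ H))) (g : G) (σ : P → P) (s : P → H)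
    (hs : ∀ x, g * t x = t (σ x) * s x) :
    transfer ϕ g = ∏ x, ϕ (s x) := by
  classical
  set e : P ≃ G ⧸ H := Equiv.ofBijective _ ht with he
  have he_apply : ∀ x, e x = (t x : G ⧸ H) := fun x => rfl
  set f : G ⧸ H → G := fun q => t (e.symm q) with hf_def
  have hf : ∀ q, (f q : G ⧸ H) = q := fun q => by
    rw [hf_def]
    show e (e.symm q) = q
    exact e.apply_symm_apply q
  set T : H.LeftTransversal := ⟨Set.range f, isComplement_range_left hf⟩ with hT
  have hα : ∀ q, (T.2.leftQuotientEquiv q : G) = f q := fun q =>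
    IsComplement.leftQuotientEquiv_apply hf q
  have hβ : ∀ q, ((g • T).2.leftQuotientEquiv q : G) = g * f (g⁻¹ • q) := fun q => by
    rw [smul_apply_eq_smul_apply_inv_smul, hα, smul_eq_mul]
  -- the index of the factor at `q`
  have hσ : ∀ x, e (σ x) = g • e x := by
    intro x
    rw [he_apply, he_apply]
    have h1 : ((g * t x : G) : G ⧸ H) = ((t (σ x) : G) : G ⧸ H) := by
      rw [hs x]
      exact (QuotientGroup.mk_mul_of_mem (t (σ x)) (s x).2)
    rw [← h1]
    rfl
  rw [transfer_def ϕ T g]
  unfold Subgroup.leftTransversals.diff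
  let _ := H.fintypeQuotientOfFiniteIndex
  -- reindex by `q = g • e x`
  let ψ : P ≃ G ⧸ H := e.trans (MulAction.toPerm g)
  symm
  refine Fintype.prod_equiv ψ _ _ (fun x => ?_)
  congr 1
  apply Subtype.ext
  have hq : ψ x = g • e x := rfl
  show ((s x : H) : G) = ((T.2.leftQuotientEquiv (ψ x) : G))⁻¹ * ((g • T).2.leftQuotientEquiv (ψ x) : G)
  rw [hα, hβ, hq, inv_smul_smul, ← hσ x]
  show ((s x : H) : G) = (t (e.symm (e (σ x))))⁻¹ * (g * t (e.symm (e x)))
  rw [e.symm_apply_apply, e.symm_apply_apply, hs x, inv_mul_cancel_left]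

/-- **transfer through right coset representatives** (the shape of the coset operators). -/
theorem transfer_eq_prod_right {P : Type*} [Fintype P] (r : P → G)
    (hr : Bijective (fun x => (((r x)⁻¹ : G) : G ⧸ H))) (g : G) (σ : P → P) (s : P → H)
    (hs : ∀ x, r x * g = s x * r (σ x)) :
    transfer ϕ g = ∏ x, ϕ (s x) := by
  have h1 := transfer_eq_prod_left ϕ (fun x => (r x)⁻¹) hr g⁻¹ σ (fun x => (s x)⁻¹) (fun x => by
    rw [← mul_inv_rev, hs x, mul_inv_rev]
    rfl)
  rw [map_inv] at h1
  simp only [map_inv, Finset.prod_inv_distrib] at h1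
  exact inv_injective h1

omit [H.FiniteIndex] in
/-- the bijectivity hypothesis of `transfer_eq_prod_right` from the two coset conditions. -/
theorem bijective_of_right_reps {P : Type*} (r : P → G)
    (hsurj : ∀ g : G, ∃ x, g * (r x)⁻¹ ∈ H)
    (hinj : ∀ x y, r x * (r y)⁻¹ ∈ H → x = y) :
    Bijective (fun x => (((r x)⁻¹ : G) : G ⧸ H)) := by
  constructor
  · intro x y hxy
    apply hinj
    have := QuotientGroup.eq.mp hxy
    rwa [inv_inv] at this
  · intro q
    induction q using QuotientGroup.induction_on with
    | H g =>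
      obtain ⟨x, hx⟩ := hsurj g⁻¹
      refine ⟨x, QuotientGroup.eq.mpr ?_⟩
      rw [inv_inv]
      have := H.inv_mem hx
      rwa [mul_inv_rev, inv_inv, inv_inv] at this

end Fermat.Agent.S41.Degen.TransferBridge
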