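import Fermat.Agent.S41.Degen.TqComp
import Fermat.Agent.S41.Degen.CastX

/-!
# S41, block L1: `U_q` as a coset datum, and the UNCONDITIONAL (I3)

For `q` prime, `q ∣ M`: the representatives `heckeMatrix q j.val = [[1,j],[0,q]]` (`j : ZMod q`)
form a coset datum on `Γ₀(M)` (existence: Prelude `heckeMatrix_mul_of_dvd`; uniqueness of the target
coset: `TqComp.heckeRep_coset_unique`).

* `uDatum hqM : Datum (iGL M) (iGL M) (ZMod q)`, `uDatum_rep` (rfl);
* `uDatum_dist`, `uDatum_act_step_eq` : ANY relation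
  `heckeMatrix q x.val * mapGL ℝ γ = mapGL ℝ s * heckeMatrix q y.val` with `s ∈ Γ₀(M)` computes
  `act γ x = y`, `step γ x = s`;
* `heckeU hqM A := (uDatum hqM).op` (`U_q` on `Hom(Γ₀(M), A)`), `heckeUX hqM R A` on `XMod`,
  **`heckeU_apply_eq_sum`** : for any family `stepU`, `actU` satisfying the relation,
  `heckeU hqM A c γ = ∑ x, c (stepU γ x)` (the bridge to any other definition of the Betti `U_q`);
* for `M = N q` (`q_dvd N q : q ∣ N * q`): **`resA_corA_heckeU`** `α^* α_* = 1 + U_q W`, and on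
  `ker α_* ∩ ker α_* W`: `heckeU_eq_neg_opW`, `heckeU_mem_ker`, **`heckeU_heckeU`** (`U_q² = 1`);
  `XMod` forms `heckeUX_mem_ker_iLower`, `heckeUX_heckeUX`, and over `ℂ` on `castX (ker i_*)`:
  `heckeUX_heckeUX_castX`, `castX_heckeUX`.
-/

set_option autoImplicit false

noncomputable section

namespace Fermat.Agent.S41.Degen

open CongruenceSubgroup Matrix.SpecialLinearGroup ModularForm Function
open P2MW.S_ModularForm_heckeT_slash_eq_self_of_mem_Gamma0.ModularForm.HeckeSlashInvariance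
open Fermat.Agent.S29.Betti Fermat.Agent.S41.Degen.Cor Fermat.Agent.S41.Degen.CosetOp
open Fermat.Agent.S41.Degen.TqComp Fermat.Agent.S41.Betti.LatticeSpan
open scoped MatrixGroups

section General

variable {M q : ℕ} [Fact q.Prime]

/-- two `U_q`-cosets `SL(2,ℤ) · [[1,j],[0,q]]` coincide only for equal `j`. -/
theorem heckeMatrix_coset_unique {x y : ZMod q} {t : SL(2, ℤ)}
    (h : heckeMatrix q x.val = mapGL ℝ t * heckeMatrix q y.val) : x = y := by
  have h' : heckeRep q (x : OnePoint (ZMod q)) = mapGL ℝ t * heckeRep q (y : OnePoint (ZMod q)) := h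
  exact OnePoint.coe_injective (heckeRep_coset_unique h')

theorem existsUnique_uStep (hqM : q ∣ M) (γ : Gamma0 M) (x : ZMod q) :
    ∃! y : ZMod q, ∃ s : Gamma0 M,
      heckeMatrix q x.val * iGL M γ = iGL M s * heckeMatrix q y.val := by
  have hcM : (M : ℤ) ∣ (γ : SL(2, ℤ)) 1 0 := dvd_of_mem_Gamma0 γ
  have hc : (q : ℤ) ∣ (γ : SL(2, ℤ)) 1 0 := (Int.natCast_dvd_natCast.mpr hqM).trans hcM
  obtain ⟨g', hg', hmul⟩ := heckeMatrix_mul_of_dvd (γ : SL(2, ℤ)) hc x
  refine ⟨_, ⟨⟨g', mem_Gamma0_of_dvd (by rw [hg']; exact Dvd.dvd.mul_left hcM _)⟩, hmul⟩, ?_⟩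
  rintro y ⟨s, hs⟩
  apply heckeMatrix_coset_unique (t := (s : SL(2, ℤ))⁻¹ * g')
  have h1 : iGL M s * heckeMatrix q y.val = mapGL ℝ g' * heckeMatrix q
      (affinePerm (γ : SL(2, ℤ)) ((ZMod.intCast_zmod_eq_zero_iff_dvd _ _).mpr hc) x).val := by
    rw [← hs]; exact hmul
  rw [map_mul, map_inv, mul_assoc, ← h1, iGL_apply, inv_mul_cancel_left]

/-- **`U_q` as a coset datum.** -/
def uDatum (hqM : q ∣ M) : Datum (iGL M) (iGL M) (ZMod q) :=
  Datum.ofReps (fun j => heckeMatrix q j.val) (existsUnique_uStep hqM)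

@[simp] theorem uDatum_rep (hqM : q ∣ M) (j : ZMod q) :
    (uDatum hqM).rep j = heckeMatrix q j.val := rfl

theorem uDatum_dist (hqM : q ∣ M) (x y : ZMod q) (s : Gamma0 M)
    (h : (uDatum hqM).rep x = iGL M s * (uDatum hqM).rep y) : x = y :=
  heckeMatrix_coset_unique (t := (s : SL(2, ℤ))) h

/-- any relation computes `act` and `step`. -/
theorem uDatum_act_step_eq (hqM : q ∣ M) {γ s : Gamma0 M} {x y : ZMod q}
    (h : heckeMatrix q x.val * mapGL ℝ (γ : SL(2, ℤ)) =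
      mapGL ℝ (s : SL(2, ℤ)) * heckeMatrix q y.val) :
    (uDatum hqM).act γ x = y ∧ (uDatum hqM).step γ x = s :=
  TraceUW.act_step_eq (uDatum hqM) (iGL_injective M) (uDatum_dist hqM) h

variable (A : Type*) [AddCommGroup A]

/-- **the Betti `U_q`** on `Hom(Γ₀(M), A)`. -/
def heckeU (hqM : q ∣ M) : (Additive (Gamma0 M) →+ A) →+ (Additive (Gamma0 M) →+ A) :=
  (uDatum hqM).op (iGL_injective M) A

theorem heckeU_apply (hqM : q ∣ M) (c : Additive (Gamma0 M) →+ A) (γ : Gamma0 M) :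
    heckeU A hqM c (Additive.ofMul γ) =
      ∑ x : ZMod q, c (Additive.ofMul ((uDatum hqM).step γ x)) := rfl

/-- **bridge**: any family of steps satisfying the `U_q` relation computes `heckeU`. -/
theorem heckeU_apply_eq_sum (hqM : q ∣ M) (stepU : Gamma0 M → ZMod q → Gamma0 M)
    (actU : Gamma0 M → ZMod q → ZMod q)
    (hrel : ∀ (γ : Gamma0 M) (x : ZMod q), heckeMatrix q x.val * mapGL ℝ (γ : SL(2, ℤ)) =
      mapGL ℝ (stepU γ x : SL(2, ℤ)) * heckeMatrix q (actU γ x).val)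
    (c : Additive (Gamma0 M) →+ A) (γ : Gamma0 M) :
    heckeU A hqM c (Additive.ofMul γ) = ∑ x : ZMod q, c (Additive.ofMul (stepU γ x)) := by
  rw [heckeU_apply]
  refine Finset.sum_congr rfl fun x _ => ?_
  rw [(uDatum_act_step_eq hqM (hrel γ x)).2]

/-- naturality in the coefficients. -/
theorem heckeU_comp (hqM : q ∣ M) {A' : Type*} [AddCommGroup A'] (φ : A →+ A')
    (c : Additive (Gamma0 M) →+ A) :
    heckeU A' hqM (φ.comp c) = φ.comp (heckeU A hqM c) :=
  Datum.op_comp_coeff (uDatum hqM) (iGL_injective M) A φ c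

theorem isAdmChar_heckeU (hqM : q ∣ M) {c : Additive (Gamma0 M) →+ A} (hc : IsAdmChar c) :
    IsAdmChar (heckeU A hqM c) :=
  isAdmChar_op (uDatum hqM) hc

/-- `U_q` on `XMod`. -/
def heckeUX (hqM : q ∣ M) (R : Type*) [Semiring R] [Module R A] : XMod M R A →ₗ[R] XMod M R A :=
  opX R A (uDatum hqM)

@[simp] theorem heckeUX_coe (hqM : q ∣ M) (R : Type*) [Semiring R] [Module R A] (u : XMod M R A) :
    ((heckeUX A hqM R u : XMod M R A) : Additive (Gamma0 M) →+ A) = heckeU A hqM u := rfl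

theorem castX_heckeUX [NeZero M] (hqM : q ∣ M) (c : XMod M ℤ ℤ) :
    castX M (heckeUX ℤ hqM ℤ c) = heckeUX ℂ hqM ℂ (castX M c) :=
  castX_opX (uDatum hqM) c

end General

/-! ### Level `N q` : (I3) and its consequences, unconditionally -/

section LevelNq

variable {N q : ℕ} [Fact q.Prime] (d : ALData N q)

/-- `q ∣ N * q`. -/
theorem q_dvd (N q : ℕ) : q ∣ N * q := Dvd.intro_left N rfl

variable (A : Type*) [AddCommGroup A]

/-- **(I3) `α^* α_* = 1 + U_q W`.** -/
theorem resA_corA_heckeU (c : Additive (Gamma0 (N * q)) →+ A) :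
    resA N q A (corA d A c) = c + heckeU A (q_dvd N q) (opW A d c) :=
  resA_corA_eq d (uDatum (q_dvd N q)) (fun _ => rfl) A c

/-- on `ker (α_* W)` : `U_q = -W`. -/
theorem heckeU_eq_neg_opW {c : Additive (Gamma0 (N * q)) →+ A}
    (h2 : corA d A (opW A d c) = 0) : heckeU A (q_dvd N q) c = - opW A d c :=
  U_eq_neg_W d (uDatum (q_dvd N q)) (fun _ => rfl) A h2

/-- `ker α_* ∩ ker (α_* W)` is stable under `U_q`. -/
theorem heckeU_mem_ker {c : Additive (Gamma0 (N * q)) →+ A} (h1 : corA d A c = 0)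
    (h2 : corA d A (opW A d c) = 0) :
    corA d A (heckeU A (q_dvd N q) c) = 0 ∧ corA d A (opW A d (heckeU A (q_dvd N q) c)) = 0 :=
  U_mem_ker d (uDatum (q_dvd N q)) (fun _ => rfl) A h1 h2

/-- **`U_q² = 1` on `ker α_* ∩ ker (α_* W)`.** -/
theorem heckeU_heckeU {c : Additive (Gamma0 (N * q)) →+ A} (h1 : corA d A c = 0)
    (h2 : corA d A (opW A d c) = 0) :
    heckeU A (q_dvd N q) (heckeU A (q_dvd N q) c) = c :=
  U_U_eq d (uDatum (q_dvd N q)) (fun _ => rfl) A h1 h2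

section X

variable (R : Type*) [Ring R] [Module R A]

theorem resAX_corAX_heckeUX (u : XMod (N * q) R A) :
    resAX N q R A (corAX R A d u) = u + heckeUX A (q_dvd N q) R (opWX R A d u) :=
  resAX_corAX_eq d R A (uDatum (q_dvd N q)) (fun _ => rfl) u

theorem heckeUX_eq_neg_opWX {u : XMod (N * q) R A} (hu : u ∈ LinearMap.ker (iLower R A d)) :
    heckeUX A (q_dvd N q) R u = - opWX R A d u :=
  opX_eq_neg_opWX d R A (uDatum (q_dvd N q)) (fun _ => rfl) hu

/-- `ker i_*` is stable under `U_q`. -/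
theorem heckeUX_mem_ker_iLower {u : XMod (N * q) R A} (hu : u ∈ LinearMap.ker (iLower R A d)) :
    heckeUX A (q_dvd N q) R u ∈ LinearMap.ker (iLower R A d) :=
  opX_mem_ker_iLower d R A (uDatum (q_dvd N q)) (fun _ => rfl) hu

/-- **`U_q² = 1` on `ker i_*`.** -/
theorem heckeUX_heckeUX {u : XMod (N * q) R A} (hu : u ∈ LinearMap.ker (iLower R A d)) :
    heckeUX A (q_dvd N q) R (heckeUX A (q_dvd N q) R u) = u :=
  opX_opX_eq d R A (uDatum (q_dvd N q)) (fun _ => rfl) hu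

end X

/-- **`U_q² = 1` on `castX (ker i_*)`** : the hypothesis `hU` of
`Betti.NewLift.exists_complex_new_vector` for `U := heckeUX ℂ (q_dvd N q) ℂ`. -/
theorem heckeUX_heckeUX_castX [NeZero N] [NeZero (N * q)] {c : XMod (N * q) ℤ ℤ}
    (h1 : corAX ℤ ℤ d c = 0) (h2 : corAX ℤ ℤ d (opWX ℤ ℤ d c) = 0) :
    heckeUX ℂ (q_dvd N q) ℂ (heckeUX ℂ (q_dvd N q) ℂ (castX (N * q) c)) = castX (N * q) c :=
  opX_opX_castX d (uDatum (q_dvd N q)) (fun _ => rfl) h1 h2

end LevelNq

end Fermat.Agent.S41.Degen
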